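import Mathlib
import Fermat.Agent.EllTorsion.GroupStructure

set_option autoImplicit false

/-!
# From `φ² - aφ + q = 0` and kernel counts to the characteristic polynomial on torsion

`G` abelian group with `#G[n] = n²` for all `n` prime to `p`, `φ : G → G` additive with
`φ² - aφ + q = 0` and such that `l^(2m) ∣ c² - ac + q` whenever `φ = c` on `G[l^m]`, `p ∤ c`.
Then `charpoly (φ | G[m]) = X² - aX + q` over `ZMod m` for all `m` prime to `p`.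
-/

namespace Fermat.Agent.FrobTrace

open Fermat.Agent.EllTorsion

variable {G : Type*} [AddCommGroup G]

/-- `(g₁, g₂)` is a `ℤ/n`-basis of `G[n]`. -/
structure TorsBasis (n : ℕ) (g₁ g₂ : G) : Prop where
  left : n • g₁ = 0
  right : n • g₂ = 0
  span : ∀ x : G, n • x = 0 → ∃ a b : ℤ, x = a • g₁ + b • g₂
  indep : ∀ a b : ℤ, a • g₁ + b • g₂ = 0 → (n : ℤ) ∣ a ∧ (n : ℤ) ∣ b

theorem TorsBasis.smul {n k : ℕ} (hn : n ≠ 0) (hk : k ≠ 0) {g₁ g₂ : G}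
    (h : TorsBasis (n * k) g₁ g₂) : TorsBasis n (k • g₁) (k • g₂) := by
  refine ⟨by rw [smul_smul]; exact h.left, by rw [smul_smul]; exact h.right, ?_, ?_⟩
  · intro x hx
    obtain ⟨a, b, rfl⟩ := h.span x (by rw [mul_comm, mul_smul, hx, smul_zero])
    have h1 : ((n : ℤ) * a) • g₁ + ((n : ℤ) * b) • g₂ = 0 := by
      rw [mul_smul, mul_smul, ← smul_add, natCast_zsmul]; exact hx
    obtain ⟨h2, h3⟩ := h.indep _ _ h1
    have hn' : (n : ℤ) ≠ 0 := by exact_mod_cast hn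
    have h4 : (k : ℤ) ∣ a := by
      push_cast at h2
      exact Int.dvd_of_mul_dvd_mul_left hn' h2
    have h5 : (k : ℤ) ∣ b := by
      push_cast at h3
      exact Int.dvd_of_mul_dvd_mul_left hn' h3
    obtain ⟨a', rfl⟩ := h4
    obtain ⟨b', rfl⟩ := h5
    refine ⟨a', b', ?_⟩
    rw [← natCast_zsmul, ← natCast_zsmul, smul_smul, smul_smul, mul_comm a', mul_comm b']
  · intro a b hab
    have h1 : (a * k) • g₁ + (b * k) • g₂ = 0 := by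
      rw [mul_smul, mul_smul, natCast_zsmul, natCast_zsmul]; exact hab
    obtain ⟨h2, h3⟩ := h.indep _ _ h1
    have hk' : (k : ℤ) ≠ 0 := by exact_mod_cast hk
    push_cast at h2 h3
    exact ⟨Int.dvd_of_mul_dvd_mul_right hk' h2, Int.dvd_of_mul_dvd_mul_right hk' h3⟩

theorem TorsBasis.smul' {N n k : ℕ} (hn : n ≠ 0) (hk : k ≠ 0) {g₁ g₂ : G}
    (h : TorsBasis N g₁ g₂) (hN : N = n * k) : TorsBasis n (k • g₁) (k • g₂) := by
  subst hN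
  exact h.smul hn hk

theorem dvd_of_eq' {n x y : ℤ} (h : n ∣ x) (e : y = x) : n ∣ y := e ▸ h

theorem zsmul_eq_zero_of_dvd {n : ℕ} {a : ℤ}
    (ha : (n : ℤ) ∣ a) (x : G) (hx : n • x = 0) : a • x = 0 := by
  obtain ⟨b, rfl⟩ := ha
  rw [mul_comm, mul_smul, natCast_zsmul, hx, smul_zero]

/-- existence of torsion bases -/
theorem exists_torsBasis {n : ℕ} (hn : n ≠ 0)
    (h : ∀ d : ℕ, d ∣ n → Nat.card {g : G // d • g = 0} = d ^ 2) :
    ∃ g₁ g₂ : G, TorsBasis n g₁ g₂ := by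
  let H : AddSubgroup G := (nsmulAddMonoidHom (α := G) n).ker
  have hH : ∀ x : G, x ∈ H ↔ n • x = 0 := fun x => by
    rw [AddMonoidHom.mem_ker]; rfl
  have htc : HasTorsionCard H n := by
    refine ⟨fun g => Subtype.ext ((hH _).mp g.2), fun d hd => ?_⟩
    rw [← h d hd]
    obtain ⟨k, hk⟩ := hd
    refine Nat.card_congr ⟨fun x => ⟨x.1.1, ?_⟩, fun x => ⟨⟨x.1, ?_⟩, ?_⟩, fun _ => rfl,
      fun _ => rfl⟩
    · exact congrArg Subtype.val x.2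
    · rw [hH, hk, mul_comm, mul_smul, x.2, smul_zero]
    · exact Subtype.ext x.2
  obtain ⟨e⟩ := htc.nonempty_addEquiv hn
  have he1 : ∀ a : ℤ, e ((a : ZMod n), 0) = a • e (1, 0) := fun a => by
    rw [← map_zsmul]; congr 1; ext <;> simp
  have he2 : ∀ a : ℤ, e (0, (a : ZMod n)) = a • e (0, 1) := fun a => by
    rw [← map_zsmul]; congr 1; ext <;> simp
  have he : ∀ a b : ℤ, e ((a : ZMod n), (b : ZMod n)) = a • e (1, 0) + b • e (0, 1) := by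
    intro a b
    rw [← he1, ← he2, ← map_add]; congr 1; ext <;> simp
  refine ⟨(e (1, 0) : H), (e (0, 1) : H), (hH _).mp (e (1, 0)).2, (hH _).mp (e (0, 1)).2, ?_, ?_⟩
  · intro x hx
    obtain ⟨⟨u, v⟩, huv⟩ := e.surjective ⟨x, (hH x).mpr hx⟩
    obtain ⟨a, rfl⟩ := ZMod.intCast_surjective u
    obtain ⟨b, rfl⟩ := ZMod.intCast_surjective v
    refine ⟨a, b, ?_⟩
    rw [he] at huv
    exact (congrArg Subtype.val huv).symm
  · intro a b hab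
    have h1 : e ((a : ZMod n), (b : ZMod n)) = 0 := by
      rw [he]
      exact Subtype.ext hab
    rw [map_eq_zero_iff e e.injective, Prod.mk_eq_zero] at h1
    exact ⟨(ZMod.intCast_zmod_eq_zero_iff_dvd _ _).mp h1.1,
      (ZMod.intCast_zmod_eq_zero_iff_dvd _ _).mp h1.2⟩

/-- Cayley–Hamilton relations for the integral matrix of `φ` in a torsion basis. -/
theorem CH_relations {N : ℕ} (φ : G →+ G) (a q : ℤ)
    (hCH : ∀ x : G, N • x = 0 → φ (φ x) - a • φ x + q • x = 0)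
    {g₁ g₂ : G} (hb : TorsBasis N g₁ g₂) {α β γ δ : ℤ}
    (h₁ : φ g₁ = α • g₁ + γ • g₂) (h₂ : φ g₂ = β • g₁ + δ • g₂) :
    (N : ℤ) ∣ (α + δ - a) * β ∧ (N : ℤ) ∣ (α + δ - a) * γ ∧ (N : ℤ) ∣ (α + δ - a) * (α - δ) ∧
      (N : ℤ) ∣ (α * δ - β * γ - q) - α * (α + δ - a) := by
  have e₁ := hCH g₁ hb.left
  rw [h₁, map_add, map_zsmul, map_zsmul, h₁, h₂] at e₁
  have e₂ := hCH g₂ hb.right
  rw [h₂, map_add, map_zsmul, map_zsmul, h₁, h₂] at e₂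
  have e₁' := hb.indep (α * α + γ * β - a * α + q) (α * γ + γ * δ - a * γ) (by
    rw [← e₁]; module)
  have e₂' := hb.indep (β * α + δ * β - a * β) (β * γ + δ * δ - a * δ + q) (by
    rw [← e₂]; module)
  exact ⟨dvd_of_eq' e₂'.1 (by ring), dvd_of_eq' e₁'.2 (by ring),
    dvd_of_eq' (dvd_sub e₁'.1 e₂'.2) (by ring), dvd_of_eq' (dvd_neg.mpr e₁'.1) (by ring)⟩

/-- The prime power case. Everything is expressed with integral matrices. -/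
theorem trace_det_prime_pow {p ℓ n : ℕ} (hp : p.Prime) (hℓ : ℓ.Prime) (hpℓ : p ≠ ℓ)
    (φ : G →+ G) (a q : ℤ)
    (hCH : ∀ x : G, ℓ ^ (2 * n) • x = 0 → φ (φ x) - a • φ x + q • x = 0)
    (hsc : ∀ c : ℤ, ¬ (p : ℤ) ∣ c → (∀ x : G, ℓ ^ n • x = 0 → φ x = c • x) →
      (ℓ : ℤ) ^ (2 * n) ∣ c ^ 2 - a * c + q)
    {g₁ g₂ : G} (hb : TorsBasis (ℓ ^ (2 * n)) g₁ g₂) {α β γ δ : ℤ}
    (h₁ : φ g₁ = α • g₁ + γ • g₂) (h₂ : φ g₂ = β • g₁ + δ • g₂) :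
    (ℓ : ℤ) ^ n ∣ α + δ - a ∧ (ℓ : ℤ) ^ n ∣ α * δ - β * γ - q := by
  obtain ⟨r₁, r₂, r₃, r₄⟩ := CH_relations φ a q hCH hb h₁ h₂
  push_cast at r₁ r₂ r₃ r₄
  have hℓ0 : (ℓ : ℤ) ≠ 0 := by exact_mod_cast hℓ.ne_zero
  have hℓp : Prime (ℓ : ℤ) := Nat.prime_iff_prime_int.mp hℓ
  have hpow : (ℓ : ℤ) ^ n ∣ (ℓ : ℤ) ^ (2 * n) := pow_dvd_pow _ (by omega)
  -- it suffices to prove the first statement
  suffices hmain : (ℓ : ℤ) ^ n ∣ α + δ - a by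
    refine ⟨hmain, ?_⟩
    have := dvd_add (hpow.trans r₄) (dvd_mul_of_dvd_right hmain α)
    exact dvd_of_eq' this (by ring)
  -- `x` non divisible by `ℓ^n`, `ℓ^(2n) ∣ (t - a) x` imply `ℓ^n ∣ t - a`
  have key : ∀ z : ℤ, ¬ (ℓ : ℤ) ^ n ∣ z → (ℓ : ℤ) ^ (2 * n) ∣ (α + δ - a) * z →
      (ℓ : ℤ) ^ n ∣ α + δ - a := by
    intro z hz hdiv
    classical
    have hex : ∃ j, ¬ (ℓ : ℤ) ^ j ∣ z := ⟨n, hz⟩
    have hpos : Nat.find hex ≠ 0 := by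
      intro h0
      have := Nat.find_spec hex
      rw [h0, pow_zero] at this
      exact this (one_dvd _)
    obtain ⟨e, he⟩ := Nat.exists_eq_succ_of_ne_zero hpos
    have hen : e < n := by
      have := Nat.find_min' hex hz
      omega
    obtain ⟨u, hu⟩ : (ℓ : ℤ) ^ e ∣ z := by
      by_contra h
      have := Nat.find_min' hex h
      omega
    have hu' : ¬ (ℓ : ℤ) ∣ u := by
      rintro ⟨v, rfl⟩
      have := Nat.find_spec hex
      rw [he] at this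
      exact this ⟨v, by rw [hu, pow_succ]; ring⟩
    have h1 : (ℓ : ℤ) ^ (2 * n) = (ℓ : ℤ) ^ e * (ℓ : ℤ) ^ (2 * n - e) := by
      rw [← pow_add]; congr 1; omega
    rw [h1, hu, show (α + δ - a) * ((ℓ : ℤ) ^ e * u) = (ℓ : ℤ) ^ e * ((α + δ - a) * u) by ring]
      at hdiv
    have h2 := Int.dvd_of_mul_dvd_mul_left (pow_ne_zero e hℓ0) hdiv
    have h3 : (ℓ : ℤ) ^ (2 * n - e) ∣ α + δ - a :=
      (IsCoprime.pow_left ((Prime.coprime_iff_not_dvd hℓp).mpr hu')).dvd_of_dvd_mul_right h2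
    exact (pow_dvd_pow _ (by omega)).trans h3
  by_cases hβ : (ℓ : ℤ) ^ n ∣ β
  swap; · exact key β hβ r₁
  by_cases hγ : (ℓ : ℤ) ^ n ∣ γ
  swap; · exact key γ hγ r₂
  by_cases hαδ : (ℓ : ℤ) ^ n ∣ α - δ
  swap; · exact key (α - δ) hαδ r₃
  -- now `φ` is scalar on `G[ℓ^n]`
  have hbN : TorsBasis (ℓ ^ n) (ℓ ^ n • g₁) (ℓ ^ n • g₂) :=
    TorsBasis.smul (pow_ne_zero _ hℓ.ne_zero) (pow_ne_zero _ hℓ.ne_zero)
      (by rw [← pow_add, ← two_mul]; exact hb)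
  have hφα : ∀ x : G, ℓ ^ n • x = 0 → φ x = α • x := by
    intro x hx
    obtain ⟨c, d, rfl⟩ := hbN.span x hx
    have f1 : φ (ℓ ^ n • g₁) = α • (ℓ ^ n • g₁) := by
      rw [map_nsmul, h₁, smul_add, smul_comm (ℓ ^ n) γ g₂,
        zsmul_eq_zero_of_dvd (by push_cast; exact hγ) _ hbN.right, add_zero, smul_comm]
    have f2 : φ (ℓ ^ n • g₂) = α • (ℓ ^ n • g₂) := by
      rw [map_nsmul, h₂, smul_add, smul_comm (ℓ ^ n) β g₁,
        zsmul_eq_zero_of_dvd (by push_cast; exact hβ) _ hbN.left, zero_add, smul_comm]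
      have h3 : (α - δ) • ℓ ^ n • g₂ = 0 :=
        zsmul_eq_zero_of_dvd (by push_cast; exact hαδ) _ hbN.right
      rw [sub_smul, sub_eq_zero] at h3
      rw [h3]
    rw [map_add, map_zsmul, map_zsmul, f1, f2]
    module
  have hsc' : ∀ c : ℤ, ¬ (p : ℤ) ∣ c → (ℓ : ℤ) ^ n ∣ c - α → (ℓ : ℤ) ^ (2 * n) ∣ c ^ 2 - a * c + q := by
    intro c hc hcα
    refine hsc c hc fun x hx => ?_
    have : (c - α) • x = 0 := zsmul_eq_zero_of_dvd (by push_cast; exact hcα) _ hx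
    rw [sub_smul, sub_eq_zero] at this
    rw [this]
    exact hφα x hx
  -- choose `c`
  obtain ⟨c, hc, hpc⟩ : ∃ c : ℤ, (ℓ : ℤ) ^ n ∣ c - α ∧ ¬ (p : ℤ) ∣ c := by
    have hcop : IsCoprime ((ℓ : ℤ) ^ n) (p : ℤ) := by
      apply IsCoprime.pow_left
      rw [Nat.isCoprime_iff_coprime]
      exact (Nat.coprime_primes hℓ hp).mpr (Ne.symm hpℓ)
    obtain ⟨v, w, hvw⟩ := hcop
    refine ⟨α + (1 - α) * (v * (ℓ : ℤ) ^ n), ⟨(1 - α) * v, by ring⟩, ?_⟩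
    rintro ⟨z, hz⟩
    have h1 : v * (ℓ : ℤ) ^ n = 1 - w * p := by linarith
    rw [h1] at hz
    have h2 : (p : ℤ) ∣ 1 := ⟨z + (1 - α) * w, by linear_combination hz⟩
    exact hp.one_lt.ne' (by exact_mod_cast Int.eq_one_of_dvd_one (by positivity) h2)
  have k₁ := hsc' c hpc hc
  have k₂ := hsc' (c + p * (ℓ : ℤ) ^ n)
    (fun h => hpc ((dvd_add_left (dvd_mul_right _ _)).mp h))
    (dvd_of_eq' (dvd_add hc (dvd_mul_left ((ℓ : ℤ) ^ n) (p : ℤ))) (by ring))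
  have k₃ : (ℓ : ℤ) ^ n * (ℓ : ℤ) ^ n ∣ (ℓ : ℤ) ^ n * (p * (2 * c + p * (ℓ : ℤ) ^ n - a)) := by
    rw [← pow_add, ← two_mul]
    exact dvd_of_eq' (dvd_sub k₂ k₁) (by ring)
  have k₄ := Int.dvd_of_mul_dvd_mul_left (pow_ne_zero n hℓ0) k₃
  have k₅ : (ℓ : ℤ) ^ n ∣ 2 * c + p * (ℓ : ℤ) ^ n - a := by
    refine (IsCoprime.dvd_of_dvd_mul_left ?_ k₄)
    apply IsCoprime.pow_left
    rw [Nat.isCoprime_iff_coprime]
    exact (Nat.coprime_primes hℓ hp).mpr (Ne.symm hpℓ)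
  have k₆ := dvd_sub (dvd_sub (dvd_sub (dvd_sub k₅ (dvd_mul_left ((ℓ : ℤ) ^ n) (p : ℤ))) hc) hc) hαδ
  exact dvd_of_eq' k₆ (by ring)

/-- general `m` -/
theorem trace_det {p m : ℕ} (hp : p.Prime) (hm : m ≠ 0) (hpm : ¬ p ∣ m)
    (φ : G →+ G) (a q : ℤ)
    (hCH : ∀ x : G, φ (φ x) - a • φ x + q • x = 0)
    (hsc : ∀ (ℓ n : ℕ), ℓ.Prime → ℓ ^ n ∣ m → ∀ c : ℤ, ¬ (p : ℤ) ∣ c →
      (∀ x : G, ℓ ^ n • x = 0 → φ x = c • x) → (ℓ : ℤ) ^ (2 * n) ∣ c ^ 2 - a * c + q)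
    {g₁ g₂ : G} (hb : TorsBasis (m ^ 2) g₁ g₂) {α β γ δ : ℤ}
    (h₁ : φ g₁ = α • g₁ + γ • g₂) (h₂ : φ g₂ = β • g₁ + δ • g₂) :
    (m : ℤ) ∣ α + δ - a ∧ (m : ℤ) ∣ α * δ - β * γ - q := by
  have main : ∀ (ℓ n : ℕ), ℓ.Prime → ℓ ^ n ∣ m →
      (ℓ : ℤ) ^ n ∣ α + δ - a ∧ (ℓ : ℤ) ^ n ∣ α * δ - β * γ - q := by
    intro ℓ n hℓ hdvd
    by_cases hn : n = 0
    · subst hn; simp
    have hpℓ : p ≠ ℓ := by
      rintro rfl
      exact hpm ((dvd_pow_self _ hn).trans hdvd)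
    obtain ⟨k, hk⟩ := hdvd
    have hk0 : k ≠ 0 := by rintro rfl; exact hm (by rw [hk, mul_zero])
    have hb' : TorsBasis (ℓ ^ (2 * n)) (k ^ 2 • g₁) (k ^ 2 • g₂) := by
      refine TorsBasis.smul (pow_ne_zero _ hℓ.ne_zero) (pow_ne_zero _ hk0) ?_
      have : ℓ ^ (2 * n) * k ^ 2 = m ^ 2 := by rw [hk]; ring
      rw [this]; exact hb
    refine trace_det_prime_pow hp hℓ hpℓ φ a q (fun x _ => hCH x)
      (hsc ℓ n hℓ ⟨k, hk⟩) hb' ?_ ?_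
    · rw [map_nsmul, h₁, smul_add, smul_comm (k ^ 2) α, smul_comm (k ^ 2) γ]
    · rw [map_nsmul, h₂, smul_add, smul_comm (k ^ 2) β, smul_comm (k ^ 2) δ]
  constructor
  · rw [Int.natCast_dvd, Nat.dvd_iff_prime_pow_dvd_dvd]
    intro ℓ n hℓ hdvd
    rw [← Int.natCast_dvd]; push_cast
    exact (main ℓ n hℓ hdvd).1
  · rw [Int.natCast_dvd, Nat.dvd_iff_prime_pow_dvd_dvd]
    intro ℓ n hℓ hdvd
    rw [← Int.natCast_dvd]; push_cast
    exact (main ℓ n hℓ hdvd).2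

open Polynomial

section Charpoly

variable {m : ℕ}

/-- A torsion basis gives a `ZMod m`-basis of the torsion submodule. -/
noncomputable def TorsBasis.toBasis {u v : G} (h : TorsBasis m u v)
    [Module (ZMod m) (Submodule.torsionBy ℤ G (m : ℤ))] :
    Module.Basis (Fin 2) (ZMod m) (Submodule.torsionBy ℤ G (m : ℤ)) :=
  Module.Basis.mk
    (v := ![⟨u, (Submodule.mem_torsionBy_iff _ _).mpr (by rw [natCast_zsmul]; exact h.left)⟩,
      ⟨v, (Submodule.mem_torsionBy_iff _ _).mpr (by rw [natCast_zsmul]; exact h.right)⟩])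
    (by
      rw [LinearIndependent.pair_iff]
      intro s t hst
      obtain ⟨a, rfl⟩ := ZMod.intCast_surjective s
      obtain ⟨b, rfl⟩ := ZMod.intCast_surjective t
      rw [Int.cast_smul_eq_zsmul, Int.cast_smul_eq_zsmul] at hst
      have h1 := h.indep a b (congrArg Subtype.val hst)
      exact ⟨(ZMod.intCast_zmod_eq_zero_iff_dvd _ _).mpr h1.1,
        (ZMod.intCast_zmod_eq_zero_iff_dvd _ _).mpr h1.2⟩)
    (by
      intro x _
      obtain ⟨a, b, hab⟩ := h.span x.1 (by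
        have := (Submodule.mem_torsionBy_iff _ _).mp x.2
        rwa [natCast_zsmul] at this)
      have : x = (a : ZMod m) • (⟨u, (Submodule.mem_torsionBy_iff _ _).mpr
          (by rw [natCast_zsmul]; exact h.left)⟩ : Submodule.torsionBy ℤ G (m : ℤ)) +
          (b : ZMod m) • (⟨v, (Submodule.mem_torsionBy_iff _ _).mpr
            (by rw [natCast_zsmul]; exact h.right)⟩ : Submodule.torsionBy ℤ G (m : ℤ)) := by
        rw [Int.cast_smul_eq_zsmul, Int.cast_smul_eq_zsmul]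
        exact Subtype.ext hab
      rw [this]
      exact Submodule.add_mem _
        (Submodule.smul_mem _ _ (Submodule.subset_span ⟨0, rfl⟩))
        (Submodule.smul_mem _ _ (Submodule.subset_span ⟨1, rfl⟩)))

theorem TorsBasis.toBasis_zero {u v : G} (h : TorsBasis m u v)
    [Module (ZMod m) (Submodule.torsionBy ℤ G (m : ℤ))] :
    ((h.toBasis 0 : Submodule.torsionBy ℤ G (m : ℤ)) : G) = u := by
  rw [TorsBasis.toBasis, Module.Basis.mk_apply]; rfl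

theorem TorsBasis.toBasis_one {u v : G} (h : TorsBasis m u v)
    [Module (ZMod m) (Submodule.torsionBy ℤ G (m : ℤ))] :
    ((h.toBasis 1 : Submodule.torsionBy ℤ G (m : ℤ)) : G) = v := by
  rw [TorsBasis.toBasis, Module.Basis.mk_apply]; rfl

/-- the matrix of an endomorphism in a torsion basis -/
theorem TorsBasis.toMatrix {u v : G} (h : TorsBasis m u v)
    [Module (ZMod m) (Submodule.torsionBy ℤ G (m : ℤ))]
    (φ : G →+ G) (Φ : Module.End (ZMod m) (Submodule.torsionBy ℤ G (m : ℤ)))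
    (hΦ : ∀ x : Submodule.torsionBy ℤ G (m : ℤ), ((Φ x : Submodule.torsionBy ℤ G (m : ℤ)) : G) = φ x)
    {α β γ δ : ℤ} (h₁ : φ u = α • u + γ • v) (h₂ : φ v = β • u + δ • v) :
    LinearMap.toMatrix h.toBasis h.toBasis Φ = !![(α : ZMod m), (β : ZMod m); (γ : ZMod m),
      (δ : ZMod m)] := by
  have e₁ : Φ (h.toBasis 0) = (α : ZMod m) • h.toBasis 0 + (γ : ZMod m) • h.toBasis 1 := by
    apply Subtype.ext
    rw [hΦ, Int.cast_smul_eq_zsmul, Int.cast_smul_eq_zsmul]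
    push_cast
    rw [h.toBasis_zero, h.toBasis_one, h₁]
  have e₂ : Φ (h.toBasis 1) = (β : ZMod m) • h.toBasis 0 + (δ : ZMod m) • h.toBasis 1 := by
    apply Subtype.ext
    rw [hΦ, Int.cast_smul_eq_zsmul, Int.cast_smul_eq_zsmul]
    push_cast
    rw [h.toBasis_zero, h.toBasis_one, h₂]
  ext i j
  rw [LinearMap.toMatrix_apply]
  fin_cases j
  · simp only [Fin.zero_eta, e₁, map_add, map_smul, Module.Basis.repr_self]
    fin_cases i <;> simp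
  · simp only [Fin.mk_one, e₂, map_add, map_smul, Module.Basis.repr_self]
    fin_cases i <;> simp

/-- **(E)** The matrix of `φ` on `G[m]` in a suitable basis. -/
theorem exists_basis_toMatrix {p : ℕ} (hp : p.Prime) (hm : m ≠ 0) (hpm : ¬ p ∣ m)
    (φ : G →+ G) (a q : ℤ)
    (hcard : ∀ d : ℕ, d ∣ m ^ 2 → Nat.card {g : G // d • g = 0} = d ^ 2)
    (hCH : ∀ x : G, φ (φ x) - a • φ x + q • x = 0)
    (hsc : ∀ (ℓ n : ℕ), ℓ.Prime → ℓ ^ n ∣ m → ∀ c : ℤ, ¬ (p : ℤ) ∣ c →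
      (∀ x : G, ℓ ^ n • x = 0 → φ x = c • x) → (ℓ : ℤ) ^ (2 * n) ∣ c ^ 2 - a * c + q)
    [Module (ZMod m) (Submodule.torsionBy ℤ G (m : ℤ))]
    (Φ : Module.End (ZMod m) (Submodule.torsionBy ℤ G (m : ℤ)))
    (hΦ : ∀ x : Submodule.torsionBy ℤ G (m : ℤ),
      ((Φ x : Submodule.torsionBy ℤ G (m : ℤ)) : G) = φ x) :
    ∃ (b : Module.Basis (Fin 2) (ZMod m) (Submodule.torsionBy ℤ G (m : ℤ)))
      (M : Matrix (Fin 2) (Fin 2) (ZMod m)), LinearMap.toMatrix b b Φ = M ∧ M.trace = a ∧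
      M.det = q := by
  obtain ⟨g₁, g₂, hb⟩ := exists_torsBasis (pow_ne_zero 2 hm) hcard
  have hb' : TorsBasis m (m • g₁) (m • g₂) := hb.smul' hm hm (by rw [pow_two])
  obtain ⟨α, γ, h₁⟩ := hb.span (φ g₁) (by rw [← map_nsmul, hb.left, map_zero])
  obtain ⟨β, δ, h₂⟩ := hb.span (φ g₂) (by rw [← map_nsmul, hb.right, map_zero])
  obtain ⟨ht, hd⟩ := trace_det hp hm hpm φ a q hCH hsc hb h₁ h₂
  have h₁' : φ (m • g₁) = α • (m • g₁) + γ • (m • g₂) := by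
    rw [map_nsmul, h₁, smul_add, smul_comm m α, smul_comm m γ]
  have h₂' : φ (m • g₂) = β • (m • g₁) + δ • (m • g₂) := by
    rw [map_nsmul, h₂, smul_add, smul_comm m β, smul_comm m δ]
  refine ⟨hb'.toBasis, _, hb'.toMatrix φ Φ hΦ h₁' h₂', ?_, ?_⟩
  · have := (ZMod.intCast_zmod_eq_zero_iff_dvd _ _).mpr ht
    push_cast at this
    rw [Matrix.trace_fin_two_of]
    exact sub_eq_zero.mp this
  · have := (ZMod.intCast_zmod_eq_zero_iff_dvd _ _).mpr hd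
    push_cast at this
    rw [Matrix.det_fin_two_of]
    exact sub_eq_zero.mp this

/-- **(E)** The characteristic polynomial of `φ` on `G[m]`. -/
theorem charpoly_eq {p : ℕ} (hp : p.Prime) (hm : m ≠ 0) (hpm : ¬ p ∣ m)
    (φ : G →+ G) (a q : ℤ)
    (hcard : ∀ d : ℕ, d ∣ m ^ 2 → Nat.card {g : G // d • g = 0} = d ^ 2)
    (hCH : ∀ x : G, φ (φ x) - a • φ x + q • x = 0)
    (hsc : ∀ (ℓ n : ℕ), ℓ.Prime → ℓ ^ n ∣ m → ∀ c : ℤ, ¬ (p : ℤ) ∣ c →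
      (∀ x : G, ℓ ^ n • x = 0 → φ x = c • x) → (ℓ : ℤ) ^ (2 * n) ∣ c ^ 2 - a * c + q)
    [Module (ZMod m) (Submodule.torsionBy ℤ G (m : ℤ))]
    [Module.Free (ZMod m) (Submodule.torsionBy ℤ G (m : ℤ))]
    [Module.Finite (ZMod m) (Submodule.torsionBy ℤ G (m : ℤ))]
    (Φ : Module.End (ZMod m) (Submodule.torsionBy ℤ G (m : ℤ)))
    (hΦ : ∀ x : Submodule.torsionBy ℤ G (m : ℤ),
      ((Φ x : Submodule.torsionBy ℤ G (m : ℤ)) : G) = φ x) :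
    LinearMap.charpoly Φ = X ^ 2 - C (a : ZMod m) * X + C (q : ZMod m) := by
  by_cases hm1 : m = 1
  · subst hm1
    exact Subsingleton.elim _ _
  have : Nontrivial (ZMod m) := ZMod.nontrivial_iff.mpr hm1
  obtain ⟨b, M, hM, ht, hd⟩ := exists_basis_toMatrix hp hm hpm φ a q hcard hCH hsc Φ hΦ
  rw [← LinearMap.charpoly_toMatrix Φ b, hM, Matrix.charpoly_fin_two, ht, hd]

theorem trace_eq {p : ℕ} (hp : p.Prime) (hm : m ≠ 0) (hpm : ¬ p ∣ m)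
    (φ : G →+ G) (a q : ℤ)
    (hcard : ∀ d : ℕ, d ∣ m ^ 2 → Nat.card {g : G // d • g = 0} = d ^ 2)
    (hCH : ∀ x : G, φ (φ x) - a • φ x + q • x = 0)
    (hsc : ∀ (ℓ n : ℕ), ℓ.Prime → ℓ ^ n ∣ m → ∀ c : ℤ, ¬ (p : ℤ) ∣ c →
      (∀ x : G, ℓ ^ n • x = 0 → φ x = c • x) → (ℓ : ℤ) ^ (2 * n) ∣ c ^ 2 - a * c + q)
    [Module (ZMod m) (Submodule.torsionBy ℤ G (m : ℤ))]
    (Φ : Module.End (ZMod m) (Submodule.torsionBy ℤ G (m : ℤ)))
    (hΦ : ∀ x : Submodule.torsionBy ℤ G (m : ℤ),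
      ((Φ x : Submodule.torsionBy ℤ G (m : ℤ)) : G) = φ x) :
    LinearMap.trace (ZMod m) _ Φ = (a : ZMod m) := by
  obtain ⟨b, M, hM, ht, hd⟩ := exists_basis_toMatrix hp hm hpm φ a q hcard hCH hsc Φ hΦ
  rw [LinearMap.trace_eq_matrix_trace (ZMod m) b, hM, ht]

theorem det_eq {p : ℕ} (hp : p.Prime) (hm : m ≠ 0) (hpm : ¬ p ∣ m)
    (φ : G →+ G) (a q : ℤ)
    (hcard : ∀ d : ℕ, d ∣ m ^ 2 → Nat.card {g : G // d • g = 0} = d ^ 2)
    (hCH : ∀ x : G, φ (φ x) - a • φ x + q • x = 0)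
    (hsc : ∀ (ℓ n : ℕ), ℓ.Prime → ℓ ^ n ∣ m → ∀ c : ℤ, ¬ (p : ℤ) ∣ c →
      (∀ x : G, ℓ ^ n • x = 0 → φ x = c • x) → (ℓ : ℤ) ^ (2 * n) ∣ c ^ 2 - a * c + q)
    [Module (ZMod m) (Submodule.torsionBy ℤ G (m : ℤ))]
    (Φ : Module.End (ZMod m) (Submodule.torsionBy ℤ G (m : ℤ)))
    (hΦ : ∀ x : Submodule.torsionBy ℤ G (m : ℤ),
      ((Φ x : Submodule.torsionBy ℤ G (m : ℤ)) : G) = φ x) :
    LinearMap.det Φ = (q : ZMod m) := by
  obtain ⟨b, M, hM, ht, hd⟩ := exists_basis_toMatrix hp hm hpm φ a q hcard hCH hsc Φ hΦ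
  rw [← LinearMap.det_toMatrix b, hM, hd]

end Charpoly

end Fermat.Agent.FrobTrace
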