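import Fermat.Agent.FrobTrace.CH
import Fermat.Agent.FrobTrace.LinAlg
import Fermat.Agent.EllTorsion.Torsion
import Fermat.Prelude.Def_EllipticCurve_FrobeniusTrace

set_option autoImplicit false

/-!
# The characteristic polynomial of Frobenius on the `m`-torsion of an elliptic curve over a finite
field
-/

namespace Fermat.Agent.FrobTrace

open Polynomial WeierstrassCurve WeierstrassCurve.Affine WeierstrassCurve.Affine.Point
open scoped WeierstrassCurve.Affine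
open Fermat.Agent.EllTorsion

variable {F₀ : Type*} [Field F₀] [Fintype F₀] {W : Affine F₀}
variable {k : Type*} [Field k] [Algebra F₀ k] [DecidableEq k] [IsAlgClosed k]

/-- if `φ = c` on `E[n]` with `n` prime to the characteristic, then `n² ∣ c² - a c + q` -/
theorem dvd_of_scalar (hΔ : W.Δ ≠ 0) {n : ℕ} (hn : (n : k) ≠ 0) {c : ℤ}
    (p : ℕ) [Fact p.Prime] [CharP F₀ p]
    (h : ∀ P : (W⁄k).Point, n • P = 0 → frobE W k P = c • P) :
    ((n : ℤ) ^ 2) ∣ c ^ 2 - W.traceOfFrobenius * c + Fintype.card F₀ := by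
  have hell := isElliptic_k (k := k) hΔ
  obtain ⟨-, h2⟩ := card_ker_frob_sub (W := W) (k := k) p hΔ 1 (-c)
  have e : (1 : ℤ) ^ 2 * Fintype.card F₀ + 1 * (-c) * W.traceOfFrobenius + (-c) ^ 2 =
      c ^ 2 - W.traceOfFrobenius * c + Fintype.card F₀ := by ring
  rw [e] at h2
  by_cases h0 : c ^ 2 - W.traceOfFrobenius * c + Fintype.card F₀ = 0
  · rw [h0]; exact dvd_zero _
  obtain ⟨-, e, he⟩ := h2 h0
  rw [he]
  have hcard := card_nsmul_eq_zero (W := (W⁄k)) hn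
  have hker : Nat.card (nsmulAddMonoidHom (α := (W⁄k).Point) n).ker = n ^ 2 := by
    rw [← hcard]
    rfl
  have hle : (nsmulAddMonoidHom (α := (W⁄k).Point) n).ker ≤ (comb W k 0 1 (-c)).ker := by
    intro P hP
    rw [AddMonoidHom.mem_ker] at hP ⊢
    rw [comb_apply, h P hP, zero_smul, zero_add, one_smul, neg_smul, add_neg_cancel]
  have h3 := AddSubgroup.card_dvd_of_le hle
  rw [hker] at h3
  refine Dvd.dvd.mul_left ?_ _
  exact_mod_cast h3

/-- **Hasse bound** -/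
theorem hasse_bound (hΔ : W.Δ ≠ 0) : W.traceOfFrobenius ^ 2 ≤ 4 * Fintype.card F₀ := by
  classical
  obtain ⟨p, hp⟩ := CharP.exists F₀
  have hp' : Fact p.Prime := ⟨CharP.char_is_prime F₀ p⟩
  obtain ⟨h, -⟩ := card_ker_frob_sub (W := W) (k := AlgebraicClosure F₀) p hΔ (-2)
    W.traceOfFrobenius
  nlinarith

section

variable (W k) in
/-- the input for the linear algebra of `LinAlg` -/
theorem linAlg_input (hΔ : W.Δ ≠ 0) {m : ℕ} (hm : (m : k) ≠ 0) :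
    ∃ p : ℕ, p.Prime ∧ m ≠ 0 ∧ ¬ p ∣ m ∧
    (∀ d : ℕ, d ∣ m ^ 2 → Nat.card {g : (W⁄k).Point // d • g = 0} = d ^ 2) ∧
    (∀ (ℓ n : ℕ), ℓ.Prime → ℓ ^ n ∣ m → ∀ c : ℤ, ¬ (p : ℤ) ∣ c →
      (∀ x : (W⁄k).Point, ℓ ^ n • x = 0 → frobE W k x = c • x) →
        (ℓ : ℤ) ^ (2 * n) ∣ c ^ 2 - W.traceOfFrobenius * c + Fintype.card F₀) := by
  have hell := isElliptic_k (k := k) hΔ
  obtain ⟨p, hp⟩ := CharP.exists F₀
  have hp' : Fact p.Prime := ⟨CharP.char_is_prime F₀ p⟩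
  have hcp : CharP k p := charP_of_injective_algebraMap (algebraMap F₀ k).injective p
  have hm0 : m ≠ 0 := by rintro rfl; exact hm Nat.cast_zero
  have hpm : ¬ p ∣ m := by rwa [← CharP.cast_eq_zero_iff k p]
  have key : ∀ d : ℕ, d ∣ m ^ 2 → (d : k) ≠ 0 := by
    rintro d ⟨e, he⟩ h0
    apply hm
    have : ((m ^ 2 : ℕ) : k) = 0 := by rw [he, Nat.cast_mul, h0, zero_mul]
    rw [Nat.cast_pow] at this
    exact pow_eq_zero_iff two_ne_zero |>.mp this
  refine ⟨p, hp'.out, hm0, hpm, fun d hd ↦ card_nsmul_eq_zero (key d hd), ?_⟩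
  intro ℓ n hℓ hn c hc hx
  have h1 := dvd_of_scalar (W := W) hΔ (n := ℓ ^ n)
    (key _ (hn.trans (dvd_pow_self m two_ne_zero))) (c := c) p hx
  push_cast at h1
  rwa [← pow_mul, mul_comm n 2] at h1

variable {m : ℕ}

/-- **The characteristic polynomial of Frobenius** on `E(k)[m]`, for `E` over the finite field `F₀`,
`k` algebraically closed, `m` prime to the characteristic. -/
theorem charpoly_frob (hΔ : W.Δ ≠ 0) (hm : (m : k) ≠ 0)
    [Module.Free (ZMod m) (Submodule.torsionBy ℤ (W⁄k).Point m)]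
    [Module.Finite (ZMod m) (Submodule.torsionBy ℤ (W⁄k).Point m)]
    (Φ : Module.End (ZMod m) (Submodule.torsionBy ℤ (W⁄k).Point m))
    (hΦ : ∀ x, ((Φ x : Submodule.torsionBy ℤ (W⁄k).Point m) : (W⁄k).Point) = frobE W k x) :
    LinearMap.charpoly Φ =
      X ^ 2 - C ((W.traceOfFrobenius : ℤ) : ZMod m) * X + C ((Fintype.card F₀ : ℕ) : ZMod m) := by
  obtain ⟨p, hp, hm0, hpm, h1, h2⟩ := linAlg_input W k hΔ hm
  rw [charpoly_eq hp hm0 hpm (frobE W k) W.traceOfFrobenius (Fintype.card F₀) h1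
    (frob_cayley hΔ) h2 Φ hΦ, Int.cast_natCast]

theorem trace_frob (hΔ : W.Δ ≠ 0) (hm : (m : k) ≠ 0)
    (Φ : Module.End (ZMod m) (Submodule.torsionBy ℤ (W⁄k).Point m))
    (hΦ : ∀ x, ((Φ x : Submodule.torsionBy ℤ (W⁄k).Point m) : (W⁄k).Point) = frobE W k x) :
    LinearMap.trace (ZMod m) _ Φ = ((W.traceOfFrobenius : ℤ) : ZMod m) := by
  obtain ⟨p, hp, hm0, hpm, h1, h2⟩ := linAlg_input W k hΔ hm
  exact trace_eq hp hm0 hpm (frobE W k) W.traceOfFrobenius (Fintype.card F₀) h1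
    (frob_cayley hΔ) h2 Φ hΦ

theorem det_frob (hΔ : W.Δ ≠ 0) (hm : (m : k) ≠ 0)
    (Φ : Module.End (ZMod m) (Submodule.torsionBy ℤ (W⁄k).Point m))
    (hΦ : ∀ x, ((Φ x : Submodule.torsionBy ℤ (W⁄k).Point m) : (W⁄k).Point) = frobE W k x) :
    LinearMap.det Φ = ((Fintype.card F₀ : ℕ) : ZMod m) := by
  obtain ⟨p, hp, hm0, hpm, h1, h2⟩ := linAlg_input W k hΔ hm
  rw [det_eq hp hm0 hpm (frobE W k) W.traceOfFrobenius (Fintype.card F₀) h1
    (frob_cayley hΔ) h2 Φ hΦ, Int.cast_natCast]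

omit [Fintype F₀] [IsAlgClosed k] in
theorem coe_galoisRepModuleEnd_apply [Fintype F₀] (σ : k ≃ₐ[F₀] k)
    (hσ : ∀ x, σ x = x ^ Fintype.card F₀) (x : Submodule.torsionBy ℤ (W⁄k).Point m) :
    ((galoisRepModuleEnd F₀ W m σ x : Submodule.torsionBy ℤ (W⁄k).Point m) : (W⁄k).Point) =
      frobE W k x := by
  have hσ' : (σ : k →ₐ[F₀] k) = FiniteField.frobeniusAlgHom F₀ k := by
    ext z
    rw [FiniteField.frobeniusAlgHom_apply]
    exact hσ z
  change Point.map (σ : k →ₐ[F₀] k) (x : (W⁄k).Point) = _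
  rw [hσ', frobE]

/-- **The characteristic polynomial of Frobenius** on `E(k)[m]` in terms of `galoisRepModuleEnd`. -/
theorem charpoly_galoisRepModuleEnd_frob (hΔ : W.Δ ≠ 0) (hm : (m : k) ≠ 0)
    [Module.Free (ZMod m) (Submodule.torsionBy ℤ (W⁄k).Point m)]
    [Module.Finite (ZMod m) (Submodule.torsionBy ℤ (W⁄k).Point m)]
    (σ : k ≃ₐ[F₀] k) (hσ : ∀ x, σ x = x ^ Fintype.card F₀) :
    LinearMap.charpoly (galoisRepModuleEnd F₀ W m σ) =
      X ^ 2 - C ((W.traceOfFrobenius : ℤ) : ZMod m) * X + C ((Fintype.card F₀ : ℕ) : ZMod m) :=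
  charpoly_frob hΔ hm _ fun x ↦ coe_galoisRepModuleEnd_apply σ hσ x

theorem galoisTrace_frob (hΔ : W.Δ ≠ 0) (hm : (m : k) ≠ 0)
    (σ : k ≃ₐ[F₀] k) (hσ : ∀ x, σ x = x ^ Fintype.card F₀) :
    galoisTrace F₀ W m σ = ((W.traceOfFrobenius : ℤ) : ZMod m) :=
  trace_frob hΔ hm _ fun x ↦ coe_galoisRepModuleEnd_apply σ hσ x

theorem det_galoisRepModuleEnd_frob (hΔ : W.Δ ≠ 0) (hm : (m : k) ≠ 0)
    (σ : k ≃ₐ[F₀] k) (hσ : ∀ x, σ x = x ^ Fintype.card F₀) :
    LinearMap.det (galoisRepModuleEnd F₀ W m σ) = ((Fintype.card F₀ : ℕ) : ZMod m) :=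
  det_frob hΔ hm _ fun x ↦ coe_galoisRepModuleEnd_apply σ hσ x

/-- pointwise Cayley–Hamilton for a Frobenius automorphism of `k` -/
theorem frob_cayley' (hΔ : W.Δ ≠ 0) (σ : k ≃ₐ[F₀] k) (hσ : ∀ x, σ x = x ^ Fintype.card F₀)
    (P : (W⁄k).Point) :
    σ • (σ • P) - W.traceOfFrobenius • (σ • P) + (Fintype.card F₀ : ℤ) • P = 0 := by
  have hσ' : (σ : k →ₐ[F₀] k) = FiniteField.frobeniusAlgHom F₀ k := by
    ext z
    rw [FiniteField.frobeniusAlgHom_apply]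
    exact hσ z
  have h1 : ∀ P : (W⁄k).Point, σ • P = frobE W k P := by
    intro P
    change Point.map (σ : k →ₐ[F₀] k) P = _
    rw [hσ', frobE]
  rw [h1, h1]
  exact frob_cayley hΔ P

end

section Prime

variable {p : ℕ} [Fact p.Prime] {E : WeierstrassCurve (ZMod p)}
variable {κ : Type*} [Field κ] [Algebra (ZMod p) κ] [DecidableEq κ] [IsAlgClosed κ]

/-- pointwise Cayley–Hamilton over the prime field -/
theorem frob_cayley_zmod (hΔ : E.Δ ≠ 0) (σ : κ →ₐ[ZMod p] κ) (hσ : ∀ x, σ x = x ^ p)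
    (P : (E.toAffine⁄κ).Point) :
    Point.map σ (Point.map σ P) - E.traceOfFrobenius • (Point.map σ P) + (p : ℤ) • P = 0 := by
  have hσ' : σ = FiniteField.frobeniusAlgHom (ZMod p) κ := by
    ext z
    rw [FiniteField.frobeniusAlgHom_apply, ZMod.card]
    exact hσ z
  have := frob_cayley (W := E.toAffine) (k := κ) hΔ P
  rw [ZMod.card] at this
  rw [hσ']
  exact this

theorem hasse_bound_zmod (hΔ : E.Δ ≠ 0) : E.traceOfFrobenius ^ 2 ≤ 4 * p := by
  have := hasse_bound (W := E.toAffine) hΔ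
  rwa [ZMod.card] at this

end Prime

end Fermat.Agent.FrobTrace
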