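import Fermat.Agent.FrobTrace.Defs
import Fermat.Agent.EllTorsion.Card

set_option autoImplicit false

/-!
# Degree of an endomorphism given on `x`-coordinates versus the order of its kernel
-/

namespace Fermat.Agent.FrobTrace

open Polynomial WeierstrassCurve WeierstrassCurve.Affine WeierstrassCurve.Affine.Point
open Fermat.Agent.EllTorsion

section Poly

variable {k : Type*} [Field k]

theorem wronskian_zero_derivative_zero {A B : k[X]} (hAB : IsCoprime A B)
    (h : derivative A * B - A * derivative B = 0) : derivative A = 0 ∧ derivative B = 0 := by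
  have h' : derivative A * B = A * derivative B := sub_eq_zero.mp h
  constructor
  · have hd : A ∣ derivative A := hAB.dvd_of_dvd_mul_right (Dvd.intro _ h'.symm)
    by_contra hne
    have hA0 : A ≠ 0 := by rintro rfl; simp at hne
    have h1 := natDegree_le_of_dvd hd hne
    have h2 : A.natDegree ≠ 0 := by
      intro h0
      rw [natDegree_eq_zero] at h0
      obtain ⟨c, rfl⟩ := h0
      simp at hne
    have := natDegree_derivative_lt h2
    omega
  · have hd : B ∣ derivative B := hAB.symm.dvd_of_dvd_mul_left (Dvd.intro_left _ h')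
    by_contra hne
    have hB0 : B ≠ 0 := by rintro rfl; simp at hne
    have h1 := natDegree_le_of_dvd hd hne
    have h2 : B.natDegree ≠ 0 := by
      intro h0
      rw [natDegree_eq_zero] at h0
      obtain ⟨c, rfl⟩ := h0
      simp at hne
    have := natDegree_derivative_lt h2
    omega

/-- outside of one value of `c`, the degree of `A - cB` is `d` -/
theorem HasDeg2.finite_bad {A B : k[X]} {d : ℕ} (h : HasDeg2 A B d) :
    {c : k | (A - C c * B).coeff d = 0}.Finite := by
  by_cases hB : B.coeff d = 0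
  · refine Set.Finite.subset (s := ∅) Set.finite_empty ?_
    intro c hc
    rw [Set.mem_ofPred_eq, coeff_sub, coeff_C_mul, hB, mul_zero, sub_zero] at hc
    exact h.2.2 ⟨hc, hB⟩
  · refine Set.Finite.subset (s := {A.coeff d / B.coeff d}) (Set.finite_singleton _) ?_
    intro c hc
    rw [Set.mem_ofPred_eq, coeff_sub, coeff_C_mul] at hc
    rw [Set.mem_singleton_iff]
    field_simp
    linear_combination -hc

theorem HasDeg2.natDegree_sub {A B : k[X]} {d : ℕ} (h : HasDeg2 A B d) {c : k}
    (hc : (A - C c * B).coeff d ≠ 0) : (A - C c * B).natDegree = d :=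
  le_antisymm (natDegree_sub_le_of_le h.1 ((natDegree_C_mul_le c B).trans h.2.1) |>.trans (by simp))
    (le_natDegree_of_ne_zero hc)

theorem finite_bad_of_wronskian {A B : k[X]} (hAB : IsCoprime A B)
    (hD0 : derivative A * B - A * derivative B ≠ 0) :
    {c : k | ∃ x, (A - C c * B).eval x = 0 ∧ (derivative (A - C c * B)).eval x = 0}.Finite := by
  set D : k[X] := derivative A * B - A * derivative B with hD
  refine Set.Finite.subset ((finite_setOfPred_isRoot hD0).image fun x ↦ A.eval x / B.eval x) ?_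
  rintro c ⟨x, h1, h2⟩
  simp only [derivative_sub, derivative_mul, derivative_C, zero_mul, zero_add, eval_sub, eval_mul,
    eval_C] at h1 h2
  have hB : B.eval x ≠ 0 := by
    intro hB
    rw [hB, mul_zero, sub_zero] at h1
    obtain ⟨u, v, huv⟩ := hAB
    have := congrArg (eval x) huv
    simp [hB, h1] at this
  refine ⟨x, ?_, ?_⟩
  · simp only [Set.mem_ofPred_eq, IsRoot.def, hD, eval_sub, eval_mul]
    linear_combination B.eval x * h2 - (derivative B).eval x * h1
  · field_simp
    linear_combination h1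

variable [IsAlgClosed k]

/-- separable case: the number of solutions of `A(x) = c B(x)` is `d` for almost all `c` -/
theorem card_fiber_of_wronskian {A B : k[X]} (hAB : IsCoprime A B) {d : ℕ} (h : HasDeg2 A B d)
    (hD0 : derivative A * B - A * derivative B ≠ 0) :
    {c : k | Nat.card {x : k // A.eval x = c * B.eval x} ≠ d}.Finite := by
  classical
  refine Set.Finite.subset ((finite_bad_of_wronskian hAB hD0).union h.finite_bad) ?_
  intro c hc
  by_contra hcon
  rw [Set.mem_union, not_or] at hcon
  obtain ⟨hc1, hc2⟩ := hcon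
  apply hc
  have hd := h.natDegree_sub hc2
  have hne : A - C c * B ≠ 0 := by
    intro h0
    apply hc2
    rw [Set.mem_ofPred_eq, h0, coeff_zero]
  have hsep : (A - C c * B).Separable := by
    rw [separable_def, isCoprime_iff_aeval_ne_zero_of_isAlgClosed k k]
    intro a
    by_contra hcon
    push Not at hcon
    exact hc1 ⟨a, by simpa using hcon.1, by simpa using hcon.2⟩
  have hcard : (A - C c * B).roots.toFinset.card = d := by
    rw [Multiset.toFinset_card_of_nodup (nodup_roots hsep), ← hd]
    exact (IsAlgClosed.splits (A - C c * B)).natDegree_eq_card_roots.symm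
  rw [← hcard, ← Nat.card_eq_finsetCard]
  refine Nat.card_congr (Equiv.subtypeEquivRight fun x ↦ ?_)
  rw [Multiset.mem_toFinset, mem_roots hne, IsRoot.def, eval_sub, eval_mul, eval_C, sub_eq_zero]

variable (p : ℕ) [Fact p.Prime] [CharP k p]

omit [IsAlgClosed k] in
/-- a polynomial with zero derivative over a perfect field is a `p`-th power -/
theorem exists_pow_of_derivative_zero [PerfectRing k p] {A : k[X]} (hA : derivative A = 0) :
    ∃ A₁ : k[X], A = A₁ ^ p ∧ ∀ n, A.coeff (n * p) = (A₁.coeff n) ^ p := by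
  have hp : p ≠ 0 := (Fact.out : p.Prime).ne_zero
  have e := expand_contract p hA hp
  refine ⟨(contract p A).map ((frobeniusEquiv k p).symm : k →+* k), ?_, ?_⟩
  · rw [← polynomial_expand_eq, e]
  · intro n
    rw [coeff_map, coeff_contract hp]
    simp

/-- general case in characteristic `p`: for almost all `c` the number of solutions of
`A(x) = c B(x)` is `n` where `d = p ^ e * n`. -/
theorem card_fiber_charP {d : ℕ} (hd : d ≠ 0) {A B : k[X]} (hAB : IsCoprime A B)
    (h : HasDeg2 A B d) :
    ∃ e n : ℕ, d = p ^ e * n ∧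
      {c : k | Nat.card {x : k // A.eval x = c * B.eval x} ≠ n}.Finite := by
  have hp : p ≠ 0 := (Fact.out : p.Prime).ne_zero
  have hp1 : 1 < p := (Fact.out : p.Prime).one_lt
  induction d using Nat.strong_induction_on generalizing A B with
  | _ d ih =>
  by_cases hD0 : derivative A * B - A * derivative B = 0
  · obtain ⟨hA', hB'⟩ := wronskian_zero_derivative_zero hAB hD0
    obtain ⟨A₁, hA₁, hAc⟩ := exists_pow_of_derivative_zero p hA'
    obtain ⟨B₁, hB₁, hBc⟩ := exists_pow_of_derivative_zero p hB'
    -- the degree is divisible by `p`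
    have hdA : A.natDegree = p * A₁.natDegree := by rw [hA₁, natDegree_pow]
    have hdB : B.natDegree = p * B₁.natDegree := by rw [hB₁, natDegree_pow]
    have hdd : d = A.natDegree ∨ d = B.natDegree := by
      by_contra hcon
      push Not at hcon
      apply h.2.2
      constructor
      · exact coeff_eq_zero_of_natDegree_lt (lt_of_le_of_ne h.1 hcon.1.symm)
      · exact coeff_eq_zero_of_natDegree_lt (lt_of_le_of_ne h.2.1 hcon.2.symm)
    obtain ⟨d₁, hd₁⟩ : ∃ d₁, d = p * d₁ := by
      rcases hdd with h1 | h1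
      · exact ⟨_, h1.trans hdA⟩
      · exact ⟨_, h1.trans hdB⟩
    have hd₁0 : d₁ ≠ 0 := by
      rintro rfl
      exact hd (by rw [hd₁, mul_zero])
    have hlt : d₁ < d := by
      rw [hd₁]
      exact lt_mul_of_one_lt_left (Nat.pos_of_ne_zero hd₁0) hp1
    have hAB₁ : IsCoprime A₁ B₁ := by
      rw [hA₁, hB₁] at hAB
      exact (IsCoprime.pow_iff (Nat.pos_of_ne_zero hp) (Nat.pos_of_ne_zero hp)).mp hAB
    have h₁ : HasDeg2 A₁ B₁ d₁ := by
      refine ⟨?_, ?_, ?_⟩
      · have := h.1
        rw [hdA, hd₁] at this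
        exact Nat.le_of_mul_le_mul_left this (Nat.pos_of_ne_zero hp)
      · have := h.2.1
        rw [hdB, hd₁] at this
        exact Nat.le_of_mul_le_mul_left this (Nat.pos_of_ne_zero hp)
      · rintro ⟨h1, h2⟩
        apply h.2.2
        rw [hd₁, mul_comm p d₁, hAc, hBc, h1, h2, zero_pow hp]
        exact ⟨rfl, rfl⟩
    obtain ⟨e, n, he, hfin⟩ := ih d₁ hlt hd₁0 hAB₁ h₁
    refine ⟨e + 1, n, ?_, ?_⟩
    · rw [hd₁, he]; ring
    · have hinj : Function.Injective (frobenius k p) := frobenius_inj k p
      have himg := hfin.image (frobenius k p)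
      refine himg.subset ?_
      intro c hc
      refine ⟨(frobeniusEquiv k p).symm c, ?_, frobenius_apply_frobeniusEquiv_symm k p c⟩
      have hiff : ∀ x : k, A₁.eval x = (frobeniusEquiv k p).symm c * B₁.eval x ↔
          A.eval x = c * B.eval x := by
        intro x
        rw [hA₁, hB₁, eval_pow, eval_pow]
        constructor
        · intro h1
          rw [h1, mul_pow, frobeniusEquiv_symm_pow_p]
        · intro h1
          apply hinj
          rw [frobenius_def, frobenius_def, h1, mul_pow, frobeniusEquiv_symm_pow_p]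
      have hcard : Nat.card {x : k // A₁.eval x = (frobeniusEquiv k p).symm c * B₁.eval x} =
          Nat.card {x : k // A.eval x = c * B.eval x} :=
        Nat.card_congr (Equiv.subtypeEquivRight hiff)
      rw [Set.mem_ofPred_eq] at hc ⊢
      rwa [hcard]
  · exact ⟨0, d, by simp, card_fiber_of_wronskian hAB h hD0⟩

end Poly

section Group

variable {k : Type*} [Field k] [IsAlgClosed k] [DecidableEq k]
variable {W : WeierstrassCurve k} [W.IsElliptic]
variable {ψ : W.toAffine.Point →+ W.toAffine.Point} {A B : k[X]}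

omit [IsAlgClosed k] [W.IsElliptic] in
theorem IsRepEnd.xRep_eq_iff (h : IsRepEnd (⇑ψ) A B) {x y c : k}
    (hxy : W.toAffine.Nonsingular x y) :
    (ψ (Point.some x y hxy)).xRep = ![c, 1] ↔ A.eval x = c * B.eval x := by
  obtain ⟨d, hd, e⟩ := h.2 x y hxy
  have e0 := congrFun e 0
  have e1 := congrFun e 1
  simp only [Fin.isValue, Matrix.cons_val_zero, Matrix.cons_val_one, Pi.smul_apply,
    smul_eq_mul] at e0 e1
  constructor
  · intro h0
    rw [h0] at e0 e1
    simp only [Fin.isValue, Matrix.cons_val_zero, Matrix.cons_val_one] at e0 e1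
    rw [e0, e1]; ring
  · intro h0
    rcases hP : ψ (Point.some x y hxy) with _ | ⟨x', y', h'⟩
    · rw [hP] at e0 e1
      change A.eval x = d * 1 at e0
      change B.eval x = d * 0 at e1
      rw [e0, e1] at h0
      simp at h0
      exact absurd h0 hd
    · rw [hP] at e0 e1
      simp only [xRep_some, Matrix.cons_val_one, Matrix.cons_val_zero, mul_one] at e0 e1
      rw [e0, e1] at h0
      have : x' = c := by
        apply mul_left_cancel₀ hd
        linear_combination h0
      rw [xRep_some, this]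

omit [W.IsElliptic] [DecidableEq k] [IsAlgClosed k] in
theorem finite_points_with_x_mem {S : Set k} (hS : S.Finite) :
    {P : W.toAffine.Point | P = 0 ∨ ∃ x y, ∃ h : W.toAffine.Nonsingular x y,
      P = Point.some x y h ∧ x ∈ S}.Finite := by
  have hfin : (insert ![1, 0] ((fun x ↦ ![x, 1]) '' S) : Set (Fin 2 → k)).Finite :=
    (hS.image _).insert _
  refine Set.Finite.subset (hfin.preimage' (f := fun P : W.toAffine.Point ↦ P.xRep)
    fun v _ ↦ finite_xRep_fiber v) ?_
  rintro P (rfl | ⟨x, y, h, rfl, hx⟩)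
  · exact Set.mem_insert _ _
  · exact Set.mem_insert_of_mem _ ⟨x, hx, rfl⟩

omit [DecidableEq k] in
theorem infinite_point : Infinite W.toAffine.Point := by
  have hinf : Infinite k := IsAlgClosed.instInfinite
  have hf : ∀ x : k, ∃ P : W.toAffine.Point, P.xRep = ![x, 1] := by
    intro x
    obtain ⟨y, hy⟩ := exists_nonsingular (W := W) x
    exact ⟨Point.some x y hy, rfl⟩
  choose f hf using hf
  refine Infinite.of_injective f ?_
  intro a b hab
  have := hf a
  rw [hab, hf b] at this
  simpa using (congrFun this 0).symm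

/-- a subgroup of finite complement in an infinite group is everything -/
theorem addSubgroup_eq_top_of_finite_compl {G : Type*} [AddCommGroup G] [Infinite G]
    (H : AddSubgroup G) (hH : ((H : Set G)ᶜ).Finite) : H = ⊤ := by
  rw [eq_top_iff]
  intro g _
  by_contra hg
  have hinf : (H : Set G).Infinite := by
    intro hfin
    apply (Set.infinite_univ (α := G))
    rw [← Set.union_compl_self (H : Set G)]
    exact hfin.union hH
  apply hinf
  refine Set.Finite.of_finite_image (f := fun x ↦ g + x) (hH.subset ?_)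
    (add_right_injective g).injOn
  rintro _ ⟨x, hx, rfl⟩
  intro hcon
  apply hg
  have := H.sub_mem hcon hx
  simpa using this

theorem IsRepEnd.surjective (h : IsRepEnd (⇑ψ) A B) {d : ℕ} (hdeg : HasDeg2 A B d)
    (hd : d ≠ 0) : Function.Surjective ψ := by
  have hinf := infinite_point (W := W)
  rw [← AddMonoidHom.range_eq_top]
  apply addSubgroup_eq_top_of_finite_compl
  refine (finite_points_with_x_mem (W := W) hdeg.finite_bad).subset ?_
  intro Q hQ
  rcases Q with _ | ⟨c, y, hcy⟩
  · left; rfl
  · right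
    refine ⟨c, y, hcy, rfl, ?_⟩
    by_contra hcon
    apply hQ
    have hdd := hdeg.natDegree_sub hcon
    have hne : A - C c * B ≠ 0 := by
      intro h0
      apply hcon
      rw [Set.mem_ofPred_eq, h0, coeff_zero]
    have hdeg' : (A - C c * B).degree ≠ 0 := by
      rw [degree_eq_natDegree hne, hdd]
      exact_mod_cast hd
    obtain ⟨x, hx⟩ := IsAlgClosed.exists_root _ hdeg'
    obtain ⟨z, hxz⟩ := exists_nonsingular (W := W) x
    have h1 : (ψ (Point.some x z hxz)).xRep = (Point.some c y hcy).xRep := by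
      rw [xRep_some]
      refine (h.xRep_eq_iff hxz).mpr ?_
      rw [IsRoot.def, eval_sub, eval_mul, eval_C] at hx
      linear_combination hx
    rcases eq_or_eq_neg_of_xRep_eq_xRep h1 with h2 | h2
    · exact ⟨_, h2⟩
    · exact ⟨-Point.some x z hxz, by rw [map_neg, h2, neg_neg]⟩

/-- the order of the kernel is the number of solutions `x` of `A(x) = c B(x)` for a generic
value `c`. -/
theorem IsRepEnd.card_ker (h : IsRepEnd (⇑ψ) A B) {d : ℕ} (hdeg : HasDeg2 A B d)
    (hd : d ≠ 0) {n : ℕ} (hn : {c : k | Nat.card {x : k // A.eval x = c * B.eval x} ≠ n}.Finite) :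
    Nat.card ψ.ker = n := by
  classical
  have hinf : Infinite k := IsAlgClosed.instInfinite
  obtain ⟨A₂, B₂, h2⟩ := exists_isMulX (W := W) 2
  have hB₂ := h2.B_ne_zero two_ne_zero
  obtain ⟨c, hc⟩ : ∃ c, c ∉ {c : k | Nat.card {x : k // A.eval x = c * B.eval x} ≠ n} ∪
      {c | IsRoot B₂ c} :=
    (hn.union (finite_setOfPred_isRoot hB₂)).exists_notMem
  rw [Set.mem_union, not_or] at hc
  obtain ⟨hc1, hc2⟩ := hc
  rw [Set.mem_ofPred_eq, not_not] at hc1
  obtain ⟨d', hcd⟩ := exists_nonsingular (W := W) c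
  set Q : W.toAffine.Point := Point.some c d' hcd with hQ
  have h2Q : 2 • Q ≠ 0 := fun h0 ↦ hc2 ((h2.nsmul_eq_zero_iff hcd).mp h0)
  have hQneg : Q ≠ -Q := by
    intro h0
    apply h2Q
    rw [two_nsmul]
    nth_rewrite 1 [h0]
    exact neg_add_cancel Q
  -- the fibre over `Q`
  have hfib : Nat.card {P : W.toAffine.Point // ψ P = Q} = n := by
    rw [← hc1]
    have hf : ∀ P : {P : W.toAffine.Point // ψ P = Q}, ∃ x y, ∃ hxy : W.toAffine.Nonsingular x y,
        P.1 = Point.some x y hxy ∧ A.eval x = c * B.eval x := by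
      rintro ⟨P, hP⟩
      rcases P with _ | ⟨x, y, hxy⟩
      · exfalso
        change ψ (0 : W.toAffine.Point) = Q at hP
        rw [_root_.map_zero] at hP
        exact some_ne_zero hcd hP.symm
      · exact ⟨x, y, hxy, rfl, (h.xRep_eq_iff hxy).mp (by rw [hP]; rfl)⟩
    refine Nat.card_congr (Equiv.ofBijective (fun P ↦ ⟨P.1.xRep 0, ?_⟩) ⟨?_, ?_⟩)
    · obtain ⟨x, y, hxy, e1, e2⟩ := hf P
      rw [e1]
      simpa using e2
    · intro P P' hPP'
      simp only [Fin.isValue, Subtype.mk.injEq] at hPP'
      obtain ⟨x, y, hxy, e1, e2⟩ := hf P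
      obtain ⟨x', y', hxy', e1', e2'⟩ := hf P'
      have : P.1.xRep = P'.1.xRep := by
        rw [e1, e1'] at hPP' ⊢
        simp only [xRep_some, Matrix.cons_val_zero] at hPP' ⊢
        rw [hPP']
      rcases eq_or_eq_neg_of_xRep_eq_xRep this with h3 | h3
      · exact Subtype.ext h3
      · exfalso
        apply hQneg
        rw [← P.2]
        nth_rewrite 1 [h3]
        rw [map_neg, P'.2, P.2]
    · rintro ⟨x, hx⟩
      obtain ⟨y, hxy⟩ := exists_nonsingular (W := W) x
      have h4 : (ψ (Point.some x y hxy)).xRep = Q.xRep := (h.xRep_eq_iff hxy).mpr hx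
      rcases eq_or_eq_neg_of_xRep_eq_xRep h4 with h5 | h5
      · exact ⟨⟨_, h5⟩, Subtype.ext (by simp)⟩
      · exact ⟨⟨-Point.some x y hxy, by rw [map_neg, h5, neg_neg]⟩,
          Subtype.ext (by simp [neg_some])⟩
  rw [← hfib]
  obtain ⟨P₀, hP₀⟩ := h.surjective hdeg hd Q
  refine Nat.card_congr ⟨fun P ↦ ⟨P.1 + P₀, ?_⟩, fun P ↦ ⟨P.1 - P₀, ?_⟩, fun P ↦ ?_, fun P ↦ ?_⟩
  · rw [map_add, AddMonoidHom.mem_ker.mp P.2, hP₀, zero_add]
  · rw [AddMonoidHom.mem_ker, map_sub, P.2, hP₀, sub_self]
  · simp
  · simp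

theorem IsRepEnd.card_ker_of_wronskian (h : IsRepEnd (⇑ψ) A B) {d : ℕ} (hdeg : HasDeg2 A B d)
    (hd : d ≠ 0) (hD0 : derivative A * B - A * derivative B ≠ 0) : d = Nat.card ψ.ker :=
  (h.card_ker hdeg hd (card_fiber_of_wronskian h.1 hdeg hD0)).symm

theorem IsRepEnd.exists_card_ker (p : ℕ) [Fact p.Prime] [CharP k p] (h : IsRepEnd (⇑ψ) A B)
    {d : ℕ} (hdeg : HasDeg2 A B d) (hd : d ≠ 0) : ∃ e, d = p ^ e * Nat.card ψ.ker := by
  obtain ⟨e, n, h1, h2⟩ := card_fiber_charP p hd h.1 hdeg
  exact ⟨e, by rw [h.card_ker hdeg hd h2, h1]⟩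

/-- (B1) of the plan -/
theorem IsRepEnd.count (p : ℕ) [Fact p.Prime] [CharP k p] (h : IsRepEnd (⇑ψ) A B)
    {d : ℕ} (hdeg : HasDeg2 A B d) (hd : d ≠ 0) :
    Function.Surjective ψ ∧ (∃ e, d = p ^ e * Nat.card ψ.ker) ∧
      (derivative A * B - A * derivative B ≠ 0 → d = Nat.card ψ.ker) :=
  ⟨h.surjective hdeg hd, h.exists_card_ker p hdeg hd, h.card_ker_of_wronskian hdeg hd⟩

end Group

end Fermat.Agent.FrobTrace
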