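import Mathlib

set_option autoImplicit false

/-!
# FROBTRACE: common definitions
`L/k` field extension, `t : L` transcendental over `k` (the `x`-coordinate of the generic point).
-/

namespace Fermat.Agent.FrobTrace

open Polynomial WeierstrassCurve WeierstrassCurve.Affine WeierstrassCurve.Affine.Point

variable {k L : Type*} [Field k] [Field L] [Algebra k L]

/-- `(A : B)` is a coprime representative in `k[t]` of the `x`-coordinate of `Q`. -/
def IsRep (t : L) {V : WeierstrassCurve L} (Q : V.toAffine.Point) (A B : k[X]) : Prop :=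
  IsCoprime A B ∧ ∃ c : L, c ≠ 0 ∧ Q.xRep = c • ![aeval t A, aeval t B]

/-- `d = max (deg A, deg B)` -/
def HasDeg2 (A B : k[X]) (d : ℕ) : Prop :=
  A.natDegree ≤ d ∧ B.natDegree ≤ d ∧ ¬ (A.coeff d = 0 ∧ B.coeff d = 0)

variable (k) in
/-- the `x`-coordinate of `Q` lies in `k(t)` and has height (degree) `d` -/
def HasHt (t : L) {V : WeierstrassCurve L} (Q : V.toAffine.Point) (d : ℕ) : Prop :=
  ∃ A B : k[X], IsRep t Q A B ∧ HasDeg2 A B d

/-- an endomorphism `ψ` of the points over `k` is given on `x`-coordinates by the coprime pair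
`(A : B)` -/
def IsRepEnd {W : WeierstrassCurve k} (ψ : W.toAffine.Point → W.toAffine.Point)
    (A B : k[X]) : Prop :=
  IsCoprime A B ∧ ∀ (x y : k) (h : W.toAffine.Nonsingular x y),
    ∃ c : k, c ≠ 0 ∧ ![A.eval x, B.eval x] = c • (ψ (Point.some x y h)).xRep

end Fermat.Agent.FrobTrace
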