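import Mathlib
import Fermat.Agent.EllTorsion.AddSub
import Fermat.Agent.FrobTrace.Defs

set_option autoImplicit false

/-!
# Heights of points with `x`-coordinate in `k(t)` and the exact parallelogram law
-/

open Polynomial

namespace Fermat.Agent.FrobTrace

variable {k : Type*} [Field k]

/-- maximal degree of the entries -/
noncomputable def vdeg {n : ℕ} (f : Fin n → k[X]) : ℕ :=
  Finset.univ.sup fun i => (f i).natDegree

/-- the entries generate the unit ideal -/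
def VPrim {n : ℕ} (f : Fin n → k[X]) : Prop := Ideal.span (Set.range f) = ⊤

section Basic

variable {n : ℕ}

theorem natDegree_le_vdeg (f : Fin n → k[X]) (i : Fin n) : (f i).natDegree ≤ vdeg f :=
  Finset.le_sup (f := fun i => (f i).natDegree) (Finset.mem_univ i)

theorem exists_natDegree_eq_vdeg (f : Fin n → k[X]) (hf : f ≠ 0) :
    ∃ i, f i ≠ 0 ∧ (f i).natDegree = vdeg f := by
  classical
  have hne : (Finset.univ.filter fun i => f i ≠ 0).Nonempty := by
    obtain ⟨i, hi⟩ := Function.ne_iff.mp hf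
    exact ⟨i, by simpa using hi⟩
  obtain ⟨i, hi, him⟩ := Finset.exists_max_image _ (fun i => (f i).natDegree) hne
  refine ⟨i, by simpa using hi, le_antisymm (natDegree_le_vdeg f i) ?_⟩
  refine Finset.sup_le fun j _ => ?_
  by_cases hj : f j = 0
  · simp [hj]
  · exact him j (by simpa using hj)

/-- the vector of coefficients in the top degree is non-zero -/
theorem coeff_vdeg_ne_zero (f : Fin n → k[X]) (hf : f ≠ 0) :
    (fun i => (f i).coeff (vdeg f)) ≠ 0 := by
  obtain ⟨i, hi, hd⟩ := exists_natDegree_eq_vdeg f hf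
  intro h
  have := congrFun h i
  simp only [← hd, Pi.zero_apply] at this
  exact hi (leadingCoeff_eq_zero.mp this)

theorem vdeg_eq_of_coeff_ne_zero (f : Fin n → k[X]) (d : ℕ) (hle : ∀ i, (f i).natDegree ≤ d)
    (hne : (fun i => (f i).coeff d) ≠ 0) : vdeg f = d := by
  refine le_antisymm (Finset.sup_le fun i _ => hle i) ?_
  obtain ⟨i, hi⟩ := Function.ne_iff.mp hne
  exact (le_natDegree_of_ne_zero hi).trans (natDegree_le_vdeg f i)

theorem vprim_ne_zero {f : Fin n → k[X]} (hf : VPrim f) : f ≠ 0 := by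
  rintro rfl
  have : Ideal.span (Set.range (0 : Fin n → k[X])) ≤ ⊥ := by
    rw [Ideal.span_le]
    rintro _ ⟨i, rfl⟩
    simp
  rw [VPrim] at hf
  rw [hf, top_le_iff] at this
  exact bot_ne_top this

theorem vprim_iff {f : Fin n → k[X]} :
    VPrim f ↔ ∀ 𝔪 : Ideal k[X], 𝔪.IsMaximal → ∃ i, f i ∉ 𝔪 := by
  constructor
  · intro h 𝔪 hm
    by_contra hc
    push Not at hc
    have : Ideal.span (Set.range f) ≤ 𝔪 := by
      rw [Ideal.span_le]
      rintro _ ⟨i, rfl⟩
      exact hc i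
    rw [h, top_le_iff] at this
    exact hm.ne_top this
  · intro h
    by_contra hc
    obtain ⟨𝔪, hm, hle⟩ := Ideal.exists_le_maximal _ hc
    obtain ⟨i, hi⟩ := h 𝔪 hm
    exact hi (hle (Ideal.subset_span ⟨i, rfl⟩))


/-- Proportional primitive vectors have the same degree. -/
theorem vdeg_eq_of_mul_eq {f g : Fin n → k[X]} (hf : VPrim f) (hg : VPrim g)
    (h : ∀ i j, f i * g j = f j * g i) : vdeg f = vdeg g := by
  have h1 : (1 : k[X]) ∈ Ideal.span (Set.range g) := by rw [hg]; trivial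
  obtain ⟨b, hb⟩ := (Ideal.mem_span_range_iff_exists_fun).mp h1
  set a : k[X] := ∑ j, b j * f j with ha
  have h2 : ∀ i, f i = a * g i := by
    intro i
    calc f i = f i * ∑ j, b j * g j := by rw [hb, mul_one]
      _ = a * g i := by
        rw [ha, Finset.mul_sum, Finset.sum_mul]
        refine Finset.sum_congr rfl fun j _ => ?_
        linear_combination b j * h i j
  have h3 : IsUnit a := by
    have h4 : Ideal.span (Set.range f) ≤ Ideal.span {a} := by
      rw [Ideal.span_le]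
      rintro _ ⟨i, rfl⟩
      rw [h2 i]
      exact Ideal.mul_mem_right _ _ (Ideal.mem_span_singleton_self a)
    rw [hf, top_le_iff, Ideal.span_singleton_eq_top] at h4
    exact h4
  have h5 : ∀ i, (f i).natDegree = (g i).natDegree := by
    intro i
    rw [h2 i]
    by_cases hgi : g i = 0
    · simp [hgi]
    · rw [natDegree_mul h3.ne_zero hgi, natDegree_eq_zero_of_isUnit h3, zero_add]
  rw [vdeg, vdeg]
  congr 1
  funext i
  exact h5 i

/-- Proportional primitive vectors have the same degree (after evaluation at a transcendental). -/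
theorem vdeg_eq_of_aeval {L : Type*} [Field L] [Algebra k L] {t : L}
    (ht : ∀ g : k[X], aeval t g = 0 → g = 0) {f g : Fin n → k[X]} (hf : VPrim f) (hg : VPrim g)
    {c d : L} (hc : c ≠ 0) (h : ∀ i, c * aeval t (f i) = d * aeval t (g i)) : vdeg f = vdeg g := by
  refine vdeg_eq_of_mul_eq hf hg fun i j => ?_
  rw [← sub_eq_zero]
  apply ht
  rw [map_sub, map_mul, map_mul, sub_eq_zero]
  apply mul_left_cancel₀ hc
  linear_combination aeval t (g j) * h i - aeval t (g i) * h j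

theorem vprim_pair {A B : k[X]} : VPrim ![A, B] ↔ IsCoprime A B := by
  have : Ideal.span (Set.range ![A, B]) = Ideal.span {A, B} := by
    congr 1
    ext x
    simp [eq_comm, or_comm]
  rw [VPrim, this, Ideal.eq_top_iff_one, Ideal.mem_span_pair]
  rfl

theorem vdeg_pair {A B : k[X]} {d : ℕ} (h : HasDeg2 A B d) : vdeg ![A, B] = d := by
  refine vdeg_eq_of_coeff_ne_zero _ _ ?_ ?_
  · intro i
    fin_cases i
    · exact h.1
    · exact h.2.1
  · intro h0
    exact h.2.2 ⟨congrFun h0 0, congrFun h0 1⟩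

theorem hasDeg2_vdeg {A B : k[X]} (h : ![A, B] ≠ 0) : HasDeg2 A B (vdeg ![A, B]) := by
  refine ⟨natDegree_le_vdeg ![A, B] 0, natDegree_le_vdeg ![A, B] 1, fun h0 => ?_⟩
  apply coeff_vdeg_ne_zero _ h
  funext i
  fin_cases i
  · exact h0.1
  · exact h0.2

end Basic

/-! ### Symmetric squares -/

section Sym2

/-- coordinates of the symmetric square -/
def sy {R : Type*} [CommRing R] (a b : Fin 2 → R) : Fin 3 → R :=
  ![a 0 * b 0, a 0 * b 1 + a 1 * b 0, a 1 * b 1]

theorem sy_map {R S : Type*} [CommRing R] [CommRing S] (φ : R →+* S) (a b : Fin 2 → R) (i : Fin 3) :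
    φ (sy a b i) = sy (fun j => φ (a j)) (fun j => φ (b j)) i := by
  fin_cases i <;> simp [sy]

theorem sy_ne_zero {R : Type*} [CommRing R] [IsDomain R] {a b : Fin 2 → R} (ha : a ≠ 0)
    (hb : b ≠ 0) : sy a b ≠ 0 := by
  intro h
  have h0 : a 0 * b 0 = 0 := congrFun h 0
  have h1 : a 0 * b 1 + a 1 * b 0 = 0 := congrFun h 1
  have h2 : a 1 * b 1 = 0 := congrFun h 2
  rcases mul_eq_zero.mp h0 with h0 | h0
  · rw [h0, zero_mul, zero_add] at h1
    have ha1 : a 1 ≠ 0 := by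
      intro h3
      apply ha
      ext i; fin_cases i
      · exact h0
      · exact h3
    apply hb
    ext i; fin_cases i
    · exact (mul_eq_zero.mp h1).resolve_left ha1
    · exact (mul_eq_zero.mp h2).resolve_left ha1
  · rw [h0, mul_zero, add_zero] at h1
    have hb1 : b 1 ≠ 0 := by
      intro h3
      apply hb
      ext i; fin_cases i
      · exact h0
      · exact h3
    apply ha
    ext i; fin_cases i
    · exact (mul_eq_zero.mp h1).resolve_right hb1
    · exact (mul_eq_zero.mp h2).resolve_right hb1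

theorem sy_vprim {f g : Fin 2 → k[X]} (hf : VPrim f) (hg : VPrim g) : VPrim (sy f g) := by
  rw [vprim_iff] at hf hg ⊢
  intro 𝔪 hm
  obtain ⟨i, hi⟩ := hf 𝔪 hm
  obtain ⟨j, hj⟩ := hg 𝔪 hm
  by_contra hc
  push Not at hc
  have h1 : (fun l => Ideal.Quotient.mk 𝔪 (f l)) ≠ 0 := fun h =>
    hi (Ideal.Quotient.eq_zero_iff_mem.mp (congrFun h i))
  have h2 : (fun l => Ideal.Quotient.mk 𝔪 (g l)) ≠ 0 := fun h =>
    hj (Ideal.Quotient.eq_zero_iff_mem.mp (congrFun h j))
  apply sy_ne_zero h1 h2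
  funext l
  rw [← sy_map]
  exact Ideal.Quotient.eq_zero_iff_mem.mpr (hc l)

theorem coeff_mul_of_le {f g : k[X]} {m n : ℕ} (hf : f.natDegree ≤ m) (hg : g.natDegree ≤ n) :
    (f * g).coeff (m + n) = f.coeff m * g.coeff n :=
  coeff_mul_add_eq_of_natDegree_le hf hg

theorem vdeg_sy {f g : Fin 2 → k[X]} (hf : f ≠ 0) (hg : g ≠ 0) :
    vdeg (sy f g) = vdeg f + vdeg g := by
  have hf' := natDegree_le_vdeg f
  have hg' := natDegree_le_vdeg g
  refine vdeg_eq_of_coeff_ne_zero _ _ ?_ ?_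
  · intro i
    fin_cases i
    · exact natDegree_mul_le_of_le (hf' 0) (hg' 0)
    · exact natDegree_add_le_of_degree_le (natDegree_mul_le_of_le (hf' 0) (hg' 1))
        (natDegree_mul_le_of_le (hf' 1) (hg' 0))
    · exact natDegree_mul_le_of_le (hf' 1) (hg' 1)
  · have h := sy_ne_zero (coeff_vdeg_ne_zero f hf) (coeff_vdeg_ne_zero g hg)
    convert h using 1
    funext i
    fin_cases i
    · simp [sy, coeff_mul_of_le (hf' 0) (hg' 0)]
    · simp [sy, coeff_mul_of_le (hf' 0) (hg' 1), coeff_mul_of_le (hf' 1) (hg' 0)]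
    · simp [sy, coeff_mul_of_le (hf' 1) (hg' 1)]


end Sym2

/-! ### The add-sub map -/

section AddSub

open Fermat.Agent.EllTorsion

/-- the add-sub map for a curve with coefficients `b₂,...,b₈` -/
def asm {R : Type*} [CommRing R] (W : WeierstrassCurve R) (v : Fin 3 → R) : Fin 3 → R :=
  ![v 0 ^ 2 - W.b₄ * v 0 * v 2 - W.b₆ * v 1 * v 2 - W.b₈ * v 2 ^ 2,
    2 * v 1 * v 0 + W.b₂ * v 0 * v 2 + W.b₄ * v 1 * v 2 + W.b₆ * v 2 ^ 2,
    v 1 ^ 2 - 4 * v 0 * v 2]

theorem asm_eq_addSubEval {F : Type*} [Field F] (W : WeierstrassCurve F) (v : Fin 3 → F) :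
    asm W v = addSubEval W v := by
  have : v = ![v 0, v 1, v 2] := by
    ext i; fin_cases i <;> rfl
  conv_rhs => rw [this, addSubEval_eq]
  rfl

theorem asm_ne_zero {F : Type*} [Field F] (W : WeierstrassCurve F) [W.IsElliptic] {v : Fin 3 → F}
    (hv : v ≠ 0) : asm W v ≠ 0 := by
  rw [asm_eq_addSubEval]
  exact addSubEval_ne_zero hv

theorem asm_map {R S : Type*} [CommRing R] [CommRing S] (W : WeierstrassCurve R) (φ : R →+* S)
    (v : Fin 3 → R) (i : Fin 3) : φ (asm W v i) = asm (W.map φ) (fun j => φ (v j)) i := by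
  have h2 : φ 2 = 2 := map_ofNat φ 2
  have h4 : φ 4 = 4 := map_ofNat φ 4
  fin_cases i <;> simp [asm, h2, h4]

variable (W : WeierstrassCurve k) [W.IsElliptic]

theorem asm_vprim {f : Fin 3 → k[X]} (hf : VPrim f) : VPrim (asm (W.map C) f) := by
  rw [vprim_iff] at hf ⊢
  intro 𝔪 hm
  obtain ⟨i, hi⟩ := hf 𝔪 hm
  by_contra hc
  push Not at hc
  have h1 : (fun l => Ideal.Quotient.mk 𝔪 (f l)) ≠ 0 := fun h =>
    hi (Ideal.Quotient.eq_zero_iff_mem.mp (congrFun h i))
  let _ : Field (k[X] ⧸ 𝔪) := Ideal.Quotient.field 𝔪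
  have : ((W.map C).map (Ideal.Quotient.mk 𝔪)).IsElliptic := inferInstance
  apply asm_ne_zero ((W.map C).map (Ideal.Quotient.mk 𝔪)) h1
  funext l
  rw [← asm_map]
  exact Ideal.Quotient.eq_zero_iff_mem.mpr (hc l)

theorem vdeg_asm {f : Fin 3 → k[X]} (hf : f ≠ 0) : vdeg (asm (W.map C) f) = 2 * vdeg f := by
  have hf' := natDegree_le_vdeg f
  set m := vdeg f with hm
  have hC : ∀ a : k, ∀ g : k[X], ∀ n : ℕ, g.natDegree ≤ n → (C a * g).natDegree ≤ n :=
    fun a g n hg => (natDegree_C_mul_le a g).trans hg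
  have hmul : ∀ i j, (f i * f j).natDegree ≤ 2 * m := fun i j => by
    rw [two_mul]; exact natDegree_mul_le_of_le (hf' i) (hf' j)
  have hcoe : ∀ i j, (f i * f j).coeff (2 * m) = (f i).coeff m * (f j).coeff m := fun i j => by
    rw [two_mul]; exact coeff_mul_of_le (hf' i) (hf' j)
  have e0 : asm (W.map C) f 0 = f 0 * f 0 - C W.b₄ * (f 0 * f 2) - C W.b₆ * (f 1 * f 2)
      - C W.b₈ * (f 2 * f 2) := by
    simp [asm]; ring
  have e1 : asm (W.map C) f 1 = C 2 * (f 1 * f 0) + C W.b₂ * (f 0 * f 2) + C W.b₄ * (f 1 * f 2)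
      + C W.b₆ * (f 2 * f 2) := by
    have h2 : (C 2 : k[X]) = 2 := map_ofNat C 2
    simp [asm, h2]; ring
  have e2 : asm (W.map C) f 2 = f 1 * f 1 - C 4 * (f 0 * f 2) := by
    have h4 : (C 4 : k[X]) = 4 := map_ofNat C 4
    simp [asm, h4]; ring
  refine vdeg_eq_of_coeff_ne_zero _ _ ?_ ?_
  · intro i
    fin_cases i
    · simp only [Fin.zero_eta, e0]
      exact (natDegree_sub_le_of_le (natDegree_sub_le_of_le (natDegree_sub_le_of_le (hmul 0 0)
        (hC _ _ _ (hmul 0 2))) (hC _ _ _ (hmul 1 2))) (hC _ _ _ (hmul 2 2))).trans (by simp)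
    · simp only [Fin.mk_one, e1]
      exact (natDegree_add_le_of_degree_le (natDegree_add_le_of_degree_le
        (natDegree_add_le_of_degree_le (hC _ _ _ (hmul 1 0))
        (hC _ _ _ (hmul 0 2))) (hC _ _ _ (hmul 1 2))) (hC _ _ _ (hmul 2 2)))
    · simp only [Fin.reduceFinMk, e2]
      exact (natDegree_sub_le_of_le (hmul 1 1) (hC _ _ _ (hmul 0 2))).trans (by simp)
  · have h := asm_ne_zero W (coeff_vdeg_ne_zero f hf)
    convert h using 1
    funext i
    rw [← hm]
    fin_cases i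
    · simp only [Fin.zero_eta, e0]
      simp only [coeff_sub, coeff_C_mul, hcoe]
      simp [asm]; ring
    · simp only [Fin.mk_one, e1]
      simp only [coeff_add, coeff_C_mul, hcoe]
      simp [asm]; ring
    · simp only [Fin.reduceFinMk, e2]
      simp only [coeff_sub, coeff_C_mul, hcoe]
      simp [asm]; ring

theorem asm_smul {R : Type*} [CommRing R] (W : WeierstrassCurve R) (c : R) (v : Fin 3 → R) :
    asm W (c • v) = c ^ 2 • asm W v := by
  ext i
  fin_cases i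
  · simp [asm]; ring
  · simp [asm]; ring
  · simp [asm]; ring


end AddSub

/-! ### Heights of points -/

section Points

open WeierstrassCurve WeierstrassCurve.Affine WeierstrassCurve.Affine.Point
  Fermat.Agent.EllTorsion

variable {L : Type*} [Field L] [Algebra k L] {t : L} {V : WeierstrassCurve L}

theorem IsRep.eq_vec {Q : V.toAffine.Point} {A B : k[X]} (h : IsRep t Q A B) :
    ∃ c : L, c ≠ 0 ∧ ∀ i, Q.xRep i = c * aeval t (![A, B] i) := by
  obtain ⟨-, c, hc, h⟩ := h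
  refine ⟨c, hc, fun i => ?_⟩
  rw [h]
  fin_cases i <;> simp

/-- (A1) -/
theorem HasHt.unique (ht : ∀ g : k[X], aeval t g = 0 → g = 0) {Q : V.toAffine.Point} {d d' : ℕ}
    (h : HasHt k t Q d) (h' : HasHt k t Q d') : d = d' := by
  obtain ⟨A, B, hR, hd⟩ := h
  obtain ⟨A', B', hR', hd'⟩ := h'
  rw [← vdeg_pair hd, ← vdeg_pair hd']
  obtain ⟨c, hc, h⟩ := hR.eq_vec
  obtain ⟨c', hc', h'⟩ := hR'.eq_vec
  exact vdeg_eq_of_aeval ht (vprim_pair.mpr hR.1) (vprim_pair.mpr hR'.1) hc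
    fun i => by rw [← h i, ← h' i]

theorem hasHt_iff {Q : V.toAffine.Point} {d : ℕ} : HasHt k t Q d ↔
    ∃ (f : Fin 2 → k[X]) (c : L), VPrim f ∧ c ≠ 0 ∧ (∀ i, Q.xRep i = c * aeval t (f i)) ∧
      vdeg f = d := by
  constructor
  · rintro ⟨A, B, hR, hd⟩
    obtain ⟨c, hc, h⟩ := hR.eq_vec
    exact ⟨![A, B], c, vprim_pair.mpr hR.1, hc, h, vdeg_pair hd⟩
  · rintro ⟨f, c, hf, hc, h, rfl⟩
    have hff : f = ![f 0, f 1] := by ext i; fin_cases i <;> rfl
    refine ⟨f 0, f 1, ⟨vprim_pair.mp (by rwa [← hff]), c, hc, ?_⟩, ?_⟩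
    · ext i
      rw [h i]
      fin_cases i <;> simp
    · have := hasDeg2_vdeg (A := f 0) (B := f 1) (by rw [← hff]; exact vprim_ne_zero hf)
      rwa [← hff] at this

/-- (A2) **Exact parallelogram law.** -/
theorem HasHt.par' [DecidableEq L] (ht : ∀ g : k[X], aeval t g = 0 → g = 0)
    (W : WeierstrassCurve k) [W.IsElliptic] (hV : V = W.map (algebraMap k L))
    {P Q : V.toAffine.Point} {d₁ d₂ d₃ d₄ : ℕ} (h₁ : HasHt k t P d₁) (h₂ : HasHt k t Q d₂)
    (h₃ : HasHt k t (P + Q) d₃) (h₄ : HasHt k t (P - Q) d₄) : d₃ + d₄ = 2 * (d₁ + d₂) := by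
  have hell : V.IsElliptic := by rw [hV]; infer_instance
  obtain ⟨f₁, c₁, hf₁, hc₁, e₁, rfl⟩ := hasHt_iff.mp h₁
  obtain ⟨f₂, c₂, hf₂, hc₂, e₂, rfl⟩ := hasHt_iff.mp h₂
  obtain ⟨f₃, c₃, hf₃, hc₃, e₃, rfl⟩ := hasHt_iff.mp h₃
  obtain ⟨f₄, c₄, hf₄, hc₄, e₄, rfl⟩ := hasHt_iff.mp h₄
  obtain ⟨e, he, heq⟩ := exists_addSubEval_sym2x (W := V) P Q
  rw [← vdeg_sy (vprim_ne_zero hf₃) (vprim_ne_zero hf₄),
    ← vdeg_sy (vprim_ne_zero hf₁) (vprim_ne_zero hf₂),
    ← vdeg_asm W (vprim_ne_zero (sy_vprim hf₁ hf₂))]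
  symm
  have s₁ : P.sym2x Q = (c₁ * c₂) • fun j => aeval t (sy f₁ f₂ j) := by
    funext j
    fin_cases j <;> simp [Point.sym2x, e₁, e₂, sy] <;> ring
  have s₂ : (P + Q).sym2x (P - Q) = (c₃ * c₄) • fun j => aeval t (sy f₃ f₄ j) := by
    funext j
    fin_cases j <;> simp [Point.sym2x, e₃, e₄, sy] <;> ring
  have hmap : (W.map C).map (aeval t : k[X] →ₐ[k] L).toRingHom = V := by
    rw [hV, WeierstrassCurve.map_map]
    congr 1
    ext a
    simp
  rw [← asm_eq_addSubEval, s₁, s₂, asm_smul] at heq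
  refine vdeg_eq_of_aeval ht (c := (c₁ * c₂) ^ 2) (d := e * (c₃ * c₄))
    (asm_vprim W (sy_vprim hf₁ hf₂)) (sy_vprim hf₃ hf₄) (pow_ne_zero 2 (mul_ne_zero hc₁ hc₂))
    fun i => ?_
  have h := congrFun heq i
  simp only [Pi.smul_apply, smul_eq_mul] at h
  have h' := asm_map (W.map C) (aeval t : k[X] →ₐ[k] L).toRingHom (sy f₁ f₂) i
  rw [hmap] at h'
  rw [mul_assoc e, ← h]
  congr 1

/-- (A2), base change notation. -/
theorem HasHt.par [DecidableEq L] (ht : ∀ g : k[X], aeval t g = 0 → g = 0)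
    (W : WeierstrassCurve k) [W.IsElliptic]
    {P Q : (W.map (algebraMap k L)).toAffine.Point} {d₁ d₂ d₃ d₄ : ℕ} (h₁ : HasHt k t P d₁)
    (h₂ : HasHt k t Q d₂) (h₃ : HasHt k t (P + Q) d₃) (h₄ : HasHt k t (P - Q) d₄) :
    d₃ + d₄ = 2 * (d₁ + d₂) :=
  HasHt.par' ht W rfl h₁ h₂ h₃ h₄

/-- (A3) powers -/
theorem IsRep.pow {V' : WeierstrassCurve L} {Q : V.toAffine.Point} {Q' : V'.toAffine.Point}
    {A B : k[X]} (h : IsRep t Q A B) {q : ℕ} (hQ' : ∀ i, Q'.xRep i = Q.xRep i ^ q) :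
    IsRep t Q' (A ^ q) (B ^ q) := by
  obtain ⟨hc, c, hc0, hx⟩ := h
  refine ⟨hc.pow, c ^ q, pow_ne_zero q hc0, ?_⟩
  ext i
  rw [hQ' i, hx]
  fin_cases i <;> simp [mul_pow]

theorem HasDeg2.pow {A B : k[X]} {d : ℕ} (h : HasDeg2 A B d) {q : ℕ} (hq : q ≠ 0) :
    HasDeg2 (A ^ q) (B ^ q) (q * d) := by
  obtain ⟨hA, hB, hAB⟩ := h
  refine ⟨natDegree_pow_le_of_le q hA, natDegree_pow_le_of_le q hB, ?_⟩
  rw [coeff_pow_of_natDegree_le hA, coeff_pow_of_natDegree_le hB]
  intro h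
  exact hAB ⟨pow_eq_zero_iff hq |>.mp h.1, pow_eq_zero_iff hq |>.mp h.2⟩

theorem HasHt.pow {V' : WeierstrassCurve L} {Q : V.toAffine.Point} {Q' : V'.toAffine.Point}
    {d : ℕ} (h : HasHt k t Q d) {q : ℕ} (hq : q ≠ 0) (hQ' : ∀ i, Q'.xRep i = Q.xRep i ^ q) :
    HasHt k t Q' (q * d) := by
  obtain ⟨A, B, hR, hd⟩ := h
  exact ⟨A ^ q, B ^ q, hR.pow hQ', hd.pow hq⟩

theorem xRep_map {R F K : Type*} [CommRing R] [Field F] [Field K] [DecidableEq F] [DecidableEq K]
    {S : Type*} [CommRing S] [Algebra R S] [Algebra R F] [Algebra S F] [IsScalarTower R S F]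
    [Algebra R K] [Algebra S K] [IsScalarTower R S K] {W' : Affine R} (f : F →ₐ[S] K)
    (P : (WeierstrassCurve.Affine.baseChange W' F).Point) (i : Fin 2) :
    (Point.map f P).xRep i = f (P.xRep i) := by
  match P with
  | 0 => rw [Point.map_zero]; fin_cases i <;> simp
  | Point.some x y h => rw [Point.map_some]; fin_cases i <;> simp

theorem IsRep.frob {F₀ : Type*} [Field F₀] [Algebra F₀ L] [DecidableEq L] {W₀ : Affine F₀}
    {Q : (WeierstrassCurve.Affine.baseChange W₀ L).Point} {A B : k[X]} (h : IsRep t Q A B)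
    {q : ℕ} {σ : L →ₐ[F₀] L} (hσ : ∀ z, σ z = z ^ q) :
    IsRep t (Point.map σ Q) (A ^ q) (B ^ q) :=
  h.pow fun i => by rw [xRep_map, hσ]

theorem HasHt.frob {F₀ : Type*} [Field F₀] [Algebra F₀ L] [DecidableEq L] {W₀ : Affine F₀}
    {Q : (WeierstrassCurve.Affine.baseChange W₀ L).Point} {d : ℕ} (h : HasHt k t Q d)
    {q : ℕ} (hq : q ≠ 0) {σ : L →ₐ[F₀] L} (hσ : ∀ z, σ z = z ^ q) :
    HasHt k t (Point.map σ Q) (q * d) :=
  h.pow hq fun i => by rw [xRep_map, hσ]

theorem isRep_zero : IsRep (k := k) t (0 : V.toAffine.Point) 1 0 :=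
  ⟨isCoprime_one_left, 1, one_ne_zero, by ext i; fin_cases i <;> simp⟩

theorem hasHt_zero : HasHt k t (0 : V.toAffine.Point) 0 :=
  ⟨1, 0, isRep_zero, by simp, by simp, by simp⟩

theorem isRep_gen {y : L} {h : V.toAffine.Nonsingular t y} :
    IsRep (k := k) t (Point.some t y h) X 1 :=
  ⟨isCoprime_one_right, 1, one_ne_zero, by ext i; fin_cases i <;> simp⟩

theorem hasHt_gen {y : L} {h : V.toAffine.Nonsingular t y} : HasHt k t (Point.some t y h) 1 :=
  ⟨X, 1, isRep_gen, by simp, by simp, by simp⟩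

theorem HasHt.neg {Q : V.toAffine.Point} {d : ℕ} (h : HasHt k t Q d) : HasHt k t (-Q) d := by
  obtain ⟨A, B, ⟨hR, c, hc, hx⟩, hd⟩ := h
  exact ⟨A, B, ⟨hR, c, hc, by rw [Point.xRep_neg]; exact hx⟩, hd⟩

/-- existence of the height for points with `x`-coordinate in `k(t)` -/
theorem exists_hasHt_some (ht : ∀ g : k[X], aeval t g = 0 → g = 0) {x y : L}
    {h : V.toAffine.Nonsingular x y} {f g : k[X]} (hg : g ≠ 0)
    (hfg : x * aeval t g = aeval t f) : ∃ d, HasHt k t (Point.some x y h) d := by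
  classical
  -- divide by the gcd
  obtain ⟨d, hd⟩ := (IsPrincipalIdealRing.principal (Ideal.span {f, g})).principal
  have hd' : Ideal.span {f, g} = Ideal.span {d} := hd
  have hdf : d ∣ f := by
    rw [← Ideal.mem_span_singleton, ← hd']; exact Ideal.subset_span (by simp)
  have hdg : d ∣ g := by
    rw [← Ideal.mem_span_singleton, ← hd']; exact Ideal.subset_span (by simp)
  obtain ⟨A, hA⟩ := hdf
  obtain ⟨B, hB⟩ := hdg
  have hd0 : d ≠ 0 := by rintro rfl; apply hg; rw [hB, zero_mul]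
  have hB0 : B ≠ 0 := by rintro rfl; apply hg; rw [hB, mul_zero]
  have hcop : IsCoprime A B := by
    have : d ∈ Ideal.span {f, g} := by rw [hd']; exact Ideal.mem_span_singleton_self d
    obtain ⟨u, v, huv⟩ := Ideal.mem_span_pair.mp this
    refine ⟨u, v, mul_left_cancel₀ hd0 ?_⟩
    calc d * (u * A + v * B) = u * (d * A) + v * (d * B) := by ring
      _ = d := by rw [← hA, ← hB, huv]
      _ = d * 1 := (mul_one d).symm
  have hBt : aeval t B ≠ 0 := fun h => hB0 (ht B h)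
  have hdt : aeval t d ≠ 0 := fun h => hd0 (ht d h)
  have hx : x * aeval t B = aeval t A := by
    apply mul_left_cancel₀ hdt
    have h1 : aeval t g = aeval t d * aeval t B := by rw [hB, map_mul]
    have h2 : aeval t f = aeval t d * aeval t A := by rw [hA, map_mul]
    rw [← h2, ← hfg, h1]; ring
  have hne : ![A, B] ≠ 0 := fun h0 => hB0 (congrFun h0 1)
  refine ⟨vdeg ![A, B], A, B, ⟨hcop, (aeval t B)⁻¹, inv_ne_zero hBt, ?_⟩, hasDeg2_vdeg hne⟩
  ext i
  fin_cases i
  · simp only [Point.xRep_some, Fin.zero_eta, Matrix.cons_val_zero, Pi.smul_apply, smul_eq_mul]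
    rw [← hx]; field_simp
  · simp only [Point.xRep_some, Fin.mk_one, Matrix.cons_val_one, Matrix.cons_val_zero,
      Pi.smul_apply, smul_eq_mul]
    field_simp

theorem exists_hasHt (ht : ∀ g : k[X], aeval t g = 0 → g = 0) (Q : V.toAffine.Point)
    (hQ : ∀ (x y : L) (h : V.toAffine.Nonsingular x y), Q = Point.some x y h →
      ∃ f g : k[X], g ≠ 0 ∧ x * aeval t g = aeval t f) : ∃ d, HasHt k t Q d := by
  match Q, hQ with
  | 0, _ => exact ⟨0, hasHt_zero⟩
  | Point.some x y h, hQ =>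
    obtain ⟨f, g, hg, hfg⟩ := hQ x y h rfl
    exact exists_hasHt_some ht hg hfg

theorem HasHt.eq_const {Q : V.toAffine.Point} (h : HasHt k t Q 0) :
    Q = 0 ∨ ∃ (x y : L) (hxy : V.toAffine.Nonsingular x y), Q = Point.some x y hxy ∧
      x ∈ Set.range (algebraMap k L) := by
  obtain ⟨A, B, ⟨-, c, hc, hx⟩, hA, hB, -⟩ := h
  obtain ⟨a, rfl⟩ := natDegree_eq_zero.mp (Nat.le_zero.mp hA)
  obtain ⟨b, rfl⟩ := natDegree_eq_zero.mp (Nat.le_zero.mp hB)
  match Q, hx with
  | 0, _ => exact Or.inl rfl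
  | Point.some x y hxy, hx =>
    refine Or.inr ⟨x, y, hxy, rfl, a / b, ?_⟩
    have h0 := congrFun hx 0
    have h1 := congrFun hx 1
    simp only [Point.xRep_some, Matrix.cons_val_zero, aeval_C, Pi.smul_apply, smul_eq_mul,
      Matrix.cons_val_one] at h0 h1
    have hb : algebraMap k L b ≠ 0 := by
      intro hb; rw [hb, mul_zero] at h1; exact one_ne_zero h1
    rw [map_div₀, h0, div_eq_iff hb]
    linear_combination algebraMap k L a * h1

end Points

end Fermat.Agent.FrobTrace
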