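import Mathlib

set_option autoImplicit false

/-!
# Functions on abelian groups satisfying the parallelogram law
-/

namespace Fermat.Agent.FrobTrace

/-- a function satisfying the parallelogram law -/
def Parallelogram {G : Type*} [AddCommGroup G] (D : G → ℤ) : Prop :=
  ∀ x y, D (x + y) + D (x - y) = 2 * D x + 2 * D y

namespace Parallelogram

variable {G : Type*} [AddCommGroup G] {D : G → ℤ} (h : Parallelogram D)

/-- the associated bilinear form -/
def B (D : G → ℤ) (x y : G) : ℤ := D (x + y) - D x - D y

include h

theorem map_zero : D 0 = 0 := by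
  have := h 0 0
  simp only [add_zero, sub_zero] at this
  linarith

theorem map_neg (x : G) : D (-x) = D x := by
  have h1 := h 0 x
  rw [zero_add, zero_sub, h.map_zero] at h1
  linarith

theorem map_sub (x y : G) : D (x - y) = 2 * D x + 2 * D y - D (x + y) := by
  linarith [h x y]

theorem map_add₃ (x y z : G) :
    D (x + y + z) = D (x + y) + D (y + z) + D (z + x) - D x - D y - D z := by
  have a := h (x + z) y
  have b := h (x - y) z
  have c := h (y + z) x
  have d := h x y
  have e1 : x + z + y = x + y + z := by abel
  have e2 : x + z - y = x - y + z := by abel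
  have e3 : y + z + x = x + y + z := by abel
  have e4 : y + z - x = -(x - y - z) := by abel
  have e5 : z + x = x + z := by abel
  rw [e1, e2] at a
  rw [e3, e4, h.map_neg] at c
  rw [e5]
  linarith

theorem B_add_left (x y z : G) : B D (x + y) z = B D x z + B D y z := by
  have := h.map_add₃ x y z
  simp only [B]
  rw [add_comm z x] at this
  linarith

theorem B_comm (x y : G) : B D x y = B D y x := by
  simp only [B]; rw [add_comm]; ring

theorem B_add_right (x y z : G) : B D x (y + z) = B D x y + B D x z := by
  rw [h.B_comm, h.B_add_left, h.B_comm y, h.B_comm z]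

theorem B_zsmul_left (n : ℤ) (x y : G) : B D (n • x) y = n * B D x y := by
  let f : G →+ ℤ := AddMonoidHom.mk' (fun x ↦ B D x y) (fun a b ↦ h.B_add_left a b y)
  have := map_zsmul f n x
  simpa [f] using this

theorem B_zsmul_right (n : ℤ) (x y : G) : B D x (n • y) = n * B D x y := by
  rw [h.B_comm, h.B_zsmul_left, h.B_comm]

theorem map_add (x y : G) : D (x + y) = D x + D y + B D x y := by
  simp only [B]; ring

theorem B_self (x : G) : B D x x = 2 * D x := by
  have := h x x
  rw [sub_self, h.map_zero] at this
  simp only [B]
  linarith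

theorem map_zsmul (n : ℤ) (x : G) : D (n • x) = n ^ 2 * D x := by
  have h1 := h.B_self (n • x)
  rw [h.B_zsmul_left, h.B_zsmul_right, h.B_self] at h1
  linarith

/-- value on an integral combination of three elements -/
theorem map_comb₃ (x y z : G) (a b c : ℤ) :
    D (a • x + b • y + c • z) = a ^ 2 * D x + b ^ 2 * D y + c ^ 2 * D z +
      a * b * B D x y + b * c * B D y z + a * c * B D x z := by
  rw [h.map_add, h.map_add, h.B_add_left, h.map_zsmul, h.map_zsmul, h.map_zsmul]
  simp only [h.B_zsmul_left, h.B_zsmul_right]
  ring

theorem map_comb₂ (x y : G) (a b : ℤ) :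
    D (a • x + b • y) = a ^ 2 * D x + b ^ 2 * D y + a * b * B D x y := by
  rw [h.map_add, h.map_zsmul, h.map_zsmul]
  simp only [h.B_zsmul_left, h.B_zsmul_right]
  ring

/-- The Cayley–Hamilton relation in terms of the degree form. -/
theorem cayley {x y z : G} {a q : ℤ} (hz : D z = 1) (hy : D y = q) (hx : D x = q ^ 2)
    (hyz : B D y z = a) (hxy : B D x y = q * a) (hxz : B D x z = a ^ 2 - 2 * q) :
    D (x - a • y + q • z) = 0 := by
  have h1 := h.map_comb₃ x y z 1 (-a) q
  rw [one_smul, neg_smul, ← sub_eq_add_neg] at h1
  rw [h1, hz, hy, hx, hyz, hxy, hxz]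
  ring

end Parallelogram

end Fermat.Agent.FrobTrace
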