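import Fermat.Agent.FrobTrace.Count

set_option autoImplicit false

/-!
# Separability of `1 + (p-th power)` on the generic point
-/

namespace Fermat.Agent.FrobTrace

open Polynomial WeierstrassCurve WeierstrassCurve.Affine WeierstrassCurve.Affine.Point

section Subfield

variable {L : Type*} [Field L]

/-- `Q` has coordinates in the subfield `S` (or is the origin) -/
def PtIn (S : Subfield L) {V : WeierstrassCurve L} : V.toAffine.Point → Prop
  | .zero => True
  | .some x y _ => x ∈ S ∧ y ∈ S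

/-- the coefficients of `V` are in `S` -/
structure CoeffsIn (S : Subfield L) (V : WeierstrassCurve L) : Prop where
  h1 : V.a₁ ∈ S
  h2 : V.a₂ ∈ S
  h3 : V.a₃ ∈ S
  h4 : V.a₄ ∈ S
  h6 : V.a₆ ∈ S

variable {S : Subfield L} {V : WeierstrassCurve L}

theorem ptIn_some {x y : L} {h : V.toAffine.Nonsingular x y} :
    PtIn S (Point.some x y h) ↔ x ∈ S ∧ y ∈ S := Iff.rfl

theorem ptIn_zero : PtIn S (0 : V.toAffine.Point) := trivial

theorem CoeffsIn.negY_mem (hS : CoeffsIn S V) {x y : L} (hx : x ∈ S) (hy : y ∈ S) :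
    V.toAffine.negY x y ∈ S := by
  rw [WeierstrassCurve.Affine.negY]
  exact S.sub_mem (S.sub_mem (S.neg_mem hy) (S.mul_mem hS.h1 hx)) hS.h3

theorem PtIn.neg (hS : CoeffsIn S V) {P : V.toAffine.Point} (hP : PtIn S P) : PtIn S (-P) := by
  rcases P with _ | ⟨x, y, h⟩
  · exact trivial
  · rw [neg_some, ptIn_some]
    exact ⟨hP.1, hS.negY_mem hP.1 hP.2⟩

theorem PtIn.add [DecidableEq L] (hS : CoeffsIn S V) {P Q : V.toAffine.Point} (hP : PtIn S P)
    (hQ : PtIn S Q) : PtIn S (P + Q) := by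
  rcases P with _ | ⟨x₁, y₁, h₁⟩
  · change PtIn S (0 + Q)
    rwa [zero_add]
  rcases Q with _ | ⟨x₂, y₂, h₂⟩
  · change PtIn S (_ + 0)
    rwa [add_zero]
  by_cases hxy : x₁ = x₂ ∧ y₁ = V.toAffine.negY x₂ y₂
  · rw [Point.add_of_Y_eq hxy.1 hxy.2]
    exact ptIn_zero
  rw [Point.add_some hxy, ptIn_some]
  rw [ptIn_some] at hP hQ
  have hsl : V.toAffine.slope x₁ x₂ y₁ y₂ ∈ S := by
    rw [WeierstrassCurve.Affine.slope]
    split_ifs with h1 h2
    · exact S.zero_mem
    · refine S.div_mem ?_ (S.sub_mem hP.2 (hS.negY_mem hP.1 hP.2))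
      refine S.sub_mem (S.add_mem (S.add_mem ?_ ?_) hS.h4) (S.mul_mem hS.h1 hP.2)
      · exact S.mul_mem (by exact_mod_cast natCast_mem S 3) (S.pow_mem hP.1 2)
      · exact S.mul_mem (S.mul_mem (by exact_mod_cast natCast_mem S 2) hS.h2) hP.1
    · exact S.div_mem (S.sub_mem hP.2 hQ.2) (S.sub_mem hP.1 hQ.1)
  have hx₃ : V.toAffine.addX x₁ x₂ (V.toAffine.slope x₁ x₂ y₁ y₂) ∈ S := by
    rw [WeierstrassCurve.Affine.addX]
    exact S.sub_mem (S.sub_mem (S.sub_mem (S.add_mem (S.pow_mem hsl 2) (S.mul_mem hS.h1 hsl))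
      hS.h2) hP.1) hQ.1
  refine ⟨hx₃, ?_⟩
  rw [WeierstrassCurve.Affine.addY, WeierstrassCurve.Affine.negAddY]
  exact hS.negY_mem hx₃ (S.add_mem (S.mul_mem hsl (S.sub_mem hx₃ hP.1)) hP.2)

theorem PtIn.sub [DecidableEq L] (hS : CoeffsIn S V) {P Q : V.toAffine.Point} (hP : PtIn S P)
    (hQ : PtIn S Q) : PtIn S (P - Q) := by
  rw [sub_eq_add_neg]
  exact hP.add hS (hQ.neg hS)

end Subfield

section Sep

variable {k L : Type*} [Field k] [Field L] [Algebra k L] (p : ℕ) [Fact p.Prime] [CharP L p]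

variable (L) in
/-- the subfield of `p`-th powers -/
def pthPowers : Subfield L := (frobenius L p).fieldRange

theorem mem_pthPowers {x : L} : x ∈ pthPowers L p ↔ ∃ z, z ^ p = x := by
  rw [pthPowers, RingHom.mem_fieldRange]
  rfl

theorem pow_mem_pthPowers (x : L) : x ^ p ∈ pthPowers L p := (mem_pthPowers p).mpr ⟨x, rfl⟩

variable [IsAlgClosed k]

theorem algebraMap_mem_pthPowers (a : k) : algebraMap k L a ∈ pthPowers L p := by
  obtain ⟨z, hz⟩ := IsAlgClosed.exists_pow_nat_eq a (Fact.out : p.Prime).pos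
  exact (mem_pthPowers p).mpr ⟨algebraMap k L z, by rw [← map_pow, hz]⟩

theorem coeffsIn_pthPowers (W : WeierstrassCurve k) :
    CoeffsIn (pthPowers L p) (W.map (algebraMap k L)) :=
  ⟨algebraMap_mem_pthPowers p _, algebraMap_mem_pthPowers p _, algebraMap_mem_pthPowers p _,
    algebraMap_mem_pthPowers p _, algebraMap_mem_pthPowers p _⟩

/-- if `x` is a `p`-th power then so is `y`. -/
theorem y_mem_pthPowers (W : WeierstrassCurve k) (hΔ : W.Δ ≠ 0) {x y : L}
    (h : (W.map (algebraMap k L)).toAffine.Equation x y) (hx : x ∈ pthPowers L p) :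
    y ∈ pthPowers L p := by
  set S := pthPowers L p with hS
  have hC := coeffsIn_pthPowers (L := L) p W
  rw [← hS] at hC
  set V := W.map (algebraMap k L) with hV
  have h' := (WeierstrassCurve.Affine.equation_iff _ _).mp h
  have hf : x ^ 3 + V.a₂ * x ^ 2 + V.a₄ * x + V.a₆ ∈ S :=
    S.add_mem (S.add_mem (S.add_mem (S.pow_mem hx 3) (S.mul_mem hC.h2 (S.pow_mem hx 2)))
      (S.mul_mem hC.h4 hx)) hC.h6
  have hg : V.a₁ * x + V.a₃ ∈ S := S.add_mem (S.mul_mem hC.h1 hx) hC.h3
  rcases (Fact.out : p.Prime).eq_two_or_odd' with hp2 | hodd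
  · -- characteristic two
    subst hp2
    have hy2 : y ^ 2 ∈ S := pow_mem_pthPowers 2 y
    have hgy : (V.a₁ * x + V.a₃) * y ∈ S := by
      have : (V.a₁ * x + V.a₃) * y = x ^ 3 + V.a₂ * x ^ 2 + V.a₄ * x + V.a₆ - y ^ 2 := by
        linear_combination h'
      rw [this]
      exact S.sub_mem hf hy2
    by_cases hg0 : V.a₁ * x + V.a₃ = 0
    · have h2L : (2 : L) = 0 := by exact_mod_cast CharP.cast_eq_zero L 2
      have hinj : Function.Injective (algebraMap k L) := (algebraMap k L).injective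
      have h2k : (2 : k) = 0 := by
        apply hinj
        rw [_root_.map_ofNat, _root_.map_zero, h2L]
      by_cases ha1 : W.a₁ = 0
      · exfalso
        have ha3 : W.a₃ = 0 := by
          apply hinj
          rw [_root_.map_zero]
          have e1 : V.a₁ = 0 := by
            change algebraMap k L W.a₁ = 0
            rw [ha1, _root_.map_zero]
          rw [e1, zero_mul, zero_add] at hg0
          exact hg0
        apply hΔ
        rw [WeierstrassCurve.Δ, WeierstrassCurve.b₂, WeierstrassCurve.b₄, WeierstrassCurve.b₆,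
          WeierstrassCurve.b₈, ha1, ha3]
        linear_combination (-(8 : k) * W.a₂ ^ 2 * (4 * W.a₂ * W.a₆ - W.a₄ ^ 2)
          - 32 * W.a₄ ^ 3 - 216 * W.a₆ ^ 2 + 144 * W.a₂ * W.a₄ * W.a₆) * h2k
      · have hx' : x = algebraMap k L (-W.a₃ / W.a₁) := by
          have e1 : algebraMap k L W.a₁ * x + algebraMap k L W.a₃ = 0 := hg0
          have e2 : algebraMap k L W.a₁ ≠ 0 := by
            rw [Ne, ← _root_.map_zero (algebraMap k L)]
            exact fun h ↦ ha1 (hinj h)
          rw [map_div₀, _root_.map_neg, eq_div_iff e2]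
          linear_combination e1
        set x₀ := -W.a₃ / W.a₁ with hx₀
        obtain ⟨z, hz⟩ := IsAlgClosed.exists_pow_nat_eq
          (x₀ ^ 3 + W.a₂ * x₀ ^ 2 + W.a₄ * x₀ + W.a₆) (n := 2) two_pos
        have hyz : y ^ 2 = (algebraMap k L z) ^ 2 := by
          rw [← map_pow, hz]
          simp only [map_add, map_mul, map_pow, ← hx']
          have e1 : V.a₂ = algebraMap k L W.a₂ := rfl
          have e2 : V.a₄ = algebraMap k L W.a₄ := rfl
          have e3 : V.a₆ = algebraMap k L W.a₆ := rfl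
          rw [← e1, ← e2, ← e3]
          linear_combination h' - y * hg0
        have hyz' : y = algebraMap k L z := by
          have hsq : (y - algebraMap k L z) ^ 2 = 0 := by
            linear_combination hyz - (y * algebraMap k L z - (algebraMap k L z) ^ 2) * h2L
          exact sub_eq_zero.mp (pow_eq_zero_iff two_ne_zero |>.mp hsq)
        rw [hyz']
        exact algebraMap_mem_pthPowers 2 z
    · have : y = ((V.a₁ * x + V.a₃) * y) / (V.a₁ * x + V.a₃) := by
        field_simp
      rw [this]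
      exact S.div_mem hgy hg
  · -- odd characteristic
    obtain ⟨m, hm⟩ := hodd
    have h2L : (2 : L) ≠ 0 := by
      intro h0
      have h3 : ((2 : ℕ) : L) = 0 := by exact_mod_cast h0
      rw [CharP.cast_eq_zero_iff L p] at h3
      have := Nat.le_of_dvd two_pos h3
      have := (Fact.out : p.Prime).two_le
      omega
    have h2S : (2 : L) ∈ S := by exact_mod_cast natCast_mem S 2
    have h4S : (4 : L) ∈ S := by exact_mod_cast natCast_mem S 4
    set s := 2 * y + (V.a₁ * x + V.a₃) with hs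
    have hs2 : s ^ 2 ∈ S := by
      have : s ^ 2 = 4 * (x ^ 3 + V.a₂ * x ^ 2 + V.a₄ * x + V.a₆) + (V.a₁ * x + V.a₃) ^ 2 := by
        rw [hs]
        linear_combination 4 * h'
      rw [this]
      exact S.add_mem (S.mul_mem h4S hf) (S.pow_mem hg 2)
    have hsp : s ^ p ∈ S := pow_mem_pthPowers p s
    have hsS : s ∈ S := by
      by_cases hs0 : s = 0
      · rw [hs0]; exact S.zero_mem
      · have : s = s ^ p / (s ^ 2) ^ m := by
          rw [eq_div_iff (pow_ne_zero _ (pow_ne_zero _ hs0)), ← pow_mul, hm]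
          ring
        rw [this]
        exact S.div_mem hsp (S.pow_mem hs2 m)
    have : y = (s - (V.a₁ * x + V.a₃)) / 2 := by
      rw [eq_div_iff h2L, hs]
      ring
    rw [this]
    exact S.div_mem (S.sub_mem hsS hg) h2S

variable [CharP k p]

/-- a point whose `x`-coordinate is represented by a pair with zero Wronskian has coordinates that
are `p`-th powers -/
theorem ptIn_of_wronskian_zero (W : WeierstrassCurve k) (hΔ : W.Δ ≠ 0) {t : L}
    {Q : (W.map (algebraMap k L)).toAffine.Point} {A B : k[X]} (hQ : IsRep t Q A B)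
    (h : derivative A * B - A * derivative B = 0) : PtIn (pthPowers L p) Q := by
  rcases Q with _ | ⟨x, y, hxy⟩
  · exact trivial
  obtain ⟨hcop, c, hc, e⟩ := hQ
  obtain ⟨hA', hB'⟩ := wronskian_zero_derivative_zero hcop h
  obtain ⟨A₁, hA₁, -⟩ := exists_pow_of_derivative_zero p hA'
  obtain ⟨B₁, hB₁, -⟩ := exists_pow_of_derivative_zero p hB'
  have e0 := congrFun e 0
  have e1 := congrFun e 1
  simp only [xRep_some, Fin.isValue, Matrix.cons_val_zero, Matrix.cons_val_one, Pi.smul_apply,
    smul_eq_mul] at e0 e1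
  have hBne : aeval t B ≠ 0 := by
    intro h0
    rw [h0, mul_zero] at e1
    exact one_ne_zero e1
  have hx : x ∈ pthPowers L p := by
    have : x = aeval t A / aeval t B := by
      rw [eq_div_iff hBne, e0, mul_comm c, mul_assoc, ← e1, mul_one]
    rw [this, hA₁, hB₁, map_pow, map_pow]
    exact (pthPowers L p).div_mem (pow_mem_pthPowers p _) (pow_mem_pthPowers p _)
  exact ⟨hx, y_mem_pthPowers p W hΔ hxy.1 hx⟩

/-- (B2) of the plan: if `Q = ± P₀ + Q'` where `x(P₀) = t` is not a `p`-th power and `Q'` has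
coordinates which are `p`-th powers, then the Wronskian of the pair representing `x(Q)` is
nonzero. -/
theorem wronskian_ne_zero [DecidableEq L] (W : WeierstrassCurve k) (hΔ : W.Δ ≠ 0) {t : L}
    (ht : ∀ z : L, z ^ p ≠ t) {P₀ Q' Q : (W.map (algebraMap k L)).toAffine.Point}
    (hP₀ : P₀.xRep = ![t, 1]) (hQ' : PtIn (pthPowers L p) Q') (hQ : Q = P₀ + Q' ∨ Q = -P₀ + Q')
    {A B : k[X]} (hAB : IsRep t Q A B) : derivative A * B - A * derivative B ≠ 0 := by
  intro h
  have hC := coeffsIn_pthPowers (L := L) p W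
  have h1 := ptIn_of_wronskian_zero p W hΔ hAB h
  have h2 : PtIn (pthPowers L p) P₀ := by
    rcases hQ with hQ | hQ
    · have : P₀ = Q - Q' := by rw [hQ, add_sub_cancel_right]
      rw [this]
      exact h1.sub hC hQ'
    · have : P₀ = Q' - Q := by rw [hQ]; abel
      rw [this]
      exact hQ'.sub hC h1
  rcases P₀ with _ | ⟨x, y, hxy⟩
  · have := congrFun hP₀ 1
    change (0 : L) = 1 at this
    exact zero_ne_one this
  · have e := congrFun hP₀ 0
    simp only [xRep_some, Fin.isValue, Matrix.cons_val_zero] at e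
    rw [ptIn_some, e] at h2
    obtain ⟨z, hz⟩ := (mem_pthPowers p).mp h2.1
    exact ht z hz

end Sep

end Fermat.Agent.FrobTrace
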