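import Fermat.Agent.FrobTrace.Special
import Fermat.Agent.FrobTrace.Height
import Fermat.Agent.FrobTrace.Quad
import Fermat.Agent.FrobTrace.Count
import Fermat.Agent.FrobTrace.Sep

set_option autoImplicit false

/-!
# Heights of anti-invariant points; kernels
-/

namespace Fermat.Agent.FrobTrace

open Polynomial WeierstrassCurve WeierstrassCurve.Affine WeierstrassCurve.Affine.Point
open scoped WeierstrassCurve.Affine

section Anti

variable {F₀ : Type*} [Field F₀] {W : Affine F₀}
variable {k : Type*} [Field k] [Algebra F₀ k]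
variable {L : Type*} [Field L] [Algebra F₀ L] [Algebra k L] [IsScalarTower F₀ k L] [DecidableEq L]

/-- the group of points anti-invariant under the involution -/
def GenData.anti (G : GenData (W⁄k) L) : AddSubgroup (W⁄L).Point where
  carrier := {P | Point.map G.τ₀ P = -P}
  zero_mem' := by simp
  add_mem' {P Q} hP hQ := by
    simp only [Set.mem_ofPred_eq] at hP hQ ⊢
    rw [_root_.map_add, hP, hQ]; abel
  neg_mem' {P} hP := by
    simp only [Set.mem_ofPred_eq] at hP ⊢
    rw [_root_.map_neg, hP]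

theorem GenData.mem_anti (G : GenData (W⁄k) L) {P : (W⁄L).Point} :
    P ∈ G.anti ↔ Point.map G.τ₀ P = -P := Iff.rfl

theorem GenData.exists_ht (G : GenData (W⁄k) L) (P : G.anti) : ∃ d, HasHt k G.t (P : (W⁄L).Point) d := by
  refine exists_hasHt G.transc _ fun x y h hP ↦ ?_
  have := P.2
  rw [GenData.mem_anti, hP] at this
  exact G.exists_of_anti h this

/-- the height on anti-invariant points -/
noncomputable def GenData.ht (G : GenData (W⁄k) L) (P : G.anti) : ℕ := (G.exists_ht P).choose

theorem GenData.hasHt (G : GenData (W⁄k) L) (P : G.anti) :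
    HasHt k G.t (P : (W⁄L).Point) (G.ht P) := (G.exists_ht P).choose_spec

theorem GenData.ht_eq (G : GenData (W⁄k) L) {P : G.anti} {d : ℕ}
    (h : HasHt k G.t (P : (W⁄L).Point) d) : G.ht P = d :=
  (G.hasHt P).unique G.transc h

theorem GenData.parallelogram [IsAlgClosed k] (hΔ : W.Δ ≠ 0) (G : GenData (W⁄k) L) :
    Parallelogram (fun P : G.anti ↦ (G.ht P : ℤ)) := by
  intro P Q
  have hell : (W⁄k).IsElliptic := by
    rw [WeierstrassCurve.isElliptic_iff]
    have : (W⁄k).Δ = algebraMap F₀ k W.Δ := WeierstrassCurve.map_Δ W _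
    rw [this]
    exact (isUnit_iff_ne_zero.mpr ((_root_.map_ne_zero _).mpr hΔ))
  have hV : (W⁄L) = (W⁄k).map (algebraMap k L) := by
    ext <;> simp [WeierstrassCurve.baseChange, ← IsScalarTower.algebraMap_apply F₀ k L]
  have h3 := G.hasHt (P + Q)
  have h4 := G.hasHt (P - Q)
  rw [AddSubgroup.coe_add] at h3
  rw [AddSubgroup.coe_sub] at h4
  have := HasHt.par' G.transc (W⁄k) hV (G.hasHt P) (G.hasHt Q) h3 h4
  dsimp only
  omega

theorem isElliptic_k (hΔ : W.Δ ≠ 0) : (W⁄k).IsElliptic := by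
  rw [WeierstrassCurve.isElliptic_iff]
  have : (W⁄k).Δ = algebraMap F₀ k W.Δ := WeierstrassCurve.map_Δ W _
  rw [this]
  exact (isUnit_iff_ne_zero.mpr ((_root_.map_ne_zero _).mpr hΔ))

theorem Δ_k_ne_zero (hΔ : W.Δ ≠ 0) : (W⁄k).Δ ≠ 0 := by
  have : (W⁄k).Δ = algebraMap F₀ k W.Δ := WeierstrassCurve.map_Δ W _
  rw [this]
  exact ((_root_.map_ne_zero _).mpr hΔ)

theorem baseChange_eq : (W⁄L) = (W⁄k).map (algebraMap k L) := by
  ext <;> simp [WeierstrassCurve.baseChange, ← IsScalarTower.algebraMap_apply F₀ k L]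

theorem wronskian_ne_zero' (p : ℕ) [Fact p.Prime] [CharP L p] [IsAlgClosed k] [CharP k p]
    {U : WeierstrassCurve k} (hΔ : U.Δ ≠ 0) {t : L} {V : WeierstrassCurve L}
    (hV : V = U.map (algebraMap k L))
    (ht : ∀ z : L, z ^ p ≠ t) {P₀ Q' Q : V.toAffine.Point}
    (hP₀ : P₀.xRep = ![t, 1]) (hQ' : PtIn (pthPowers L p) Q') (hQ : Q = P₀ + Q' ∨ Q = -P₀ + Q')
    {A B : k[X]} (hAB : IsRep t Q A B) : derivative A * B - A * derivative B ≠ 0 := by
  subst hV
  exact wronskian_ne_zero p U hΔ ht hP₀ hQ' hQ hAB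

/-- `t` is not a `p`-th power in the function field -/
theorem GenData.not_pow (G : GenData (W⁄k) L) (p : ℕ) [Fact p.Prime] [CharP L p] (z : L) :
    z ^ p ≠ G.t := by
  intro hz
  have hp : p.Prime := Fact.out
  have h1 : G.τ z = z := by
    have : (G.τ z) ^ p = z ^ p := by rw [← map_pow, hz, G.τ_t]
    have h2 := frobenius_inj L p
    exact h2 (by simpa [frobenius_def] using this)
  obtain ⟨f, g, hg, hfg⟩ := G.fix z h1
  have h3 : aeval G.t (X * g ^ p - f ^ p) = 0 := by
    rw [map_sub, map_mul, aeval_X, map_pow, map_pow, ← hfg, mul_pow, hz, sub_self]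
  have h4 := G.transc _ h3
  rw [sub_eq_zero] at h4
  have h5 := congrArg natDegree h4
  rw [natDegree_X_mul (pow_ne_zero p hg), natDegree_pow, natDegree_pow] at h5
  have h6 : p ∣ 1 := by
    have h7 : p ∣ p * g.natDegree + 1 := ⟨_, h5⟩
    exact (Nat.dvd_add_right ⟨_, rfl⟩).mp h7
  exact hp.one_lt.ne' (Nat.dvd_one.mp h6)

end Anti

section Kernel

/-- cardinality of the kernel of a composite -/
theorem card_ker_comp {G H K : Type*} [AddCommGroup G] [AddCommGroup H] [AddCommGroup K]
    (f : H →+ K) (g : G →+ H) (hg : Function.Surjective g) :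
    Nat.card (f.comp g).ker = Nat.card f.ker * Nat.card g.ker := by
  choose s hs using hg
  rw [← Nat.card_prod]
  refine Nat.card_congr ⟨fun x ↦ (⟨g x.1, x.2⟩, ⟨x.1 - s (g x.1), ?_⟩), fun y ↦ ⟨y.2.1 + s y.1.1, ?_⟩,
    fun x ↦ ?_, fun y ↦ ?_⟩
  · rw [AddMonoidHom.mem_ker, map_sub, hs, sub_self]
  · have h1 := y.1.2
    have h2 := y.2.2
    rw [AddMonoidHom.mem_ker] at h1 h2 ⊢
    rw [AddMonoidHom.comp_apply, map_add, h2, hs, zero_add, h1]
  · simp
  · have h1 := y.1.2
    have h2 := y.2.2
    rw [AddMonoidHom.mem_ker] at h1 h2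
    ext
    · simp [h2, hs]
    · simp [h2, hs]

variable {F₀ : Type*} [Field F₀] [Fintype F₀] {W : Affine F₀}
variable {k : Type*} [Field k] [Algebra F₀ k] [DecidableEq k]

theorem mem_range_of_pow_eq (x : k) (hx : x ^ Fintype.card F₀ = x) :
    x ∈ Set.range (algebraMap F₀ k) := by
  classical
  set q := Fintype.card F₀ with hq
  have hq1 : 1 < q := Fintype.one_lt_card
  have hP : (X ^ q - X : k[X]) ≠ 0 := FiniteField.X_pow_card_sub_X_ne_zero k hq1
  have hroots : (X ^ q - X : k[X]).roots.toFinset = Finset.univ.image (algebraMap F₀ k) := by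
    symm
    apply Finset.eq_of_subset_of_card_le
    · intro y hy
      obtain ⟨z, -, rfl⟩ := Finset.mem_image.mp hy
      rw [Multiset.mem_toFinset, mem_roots hP, IsRoot.def, eval_sub, eval_pow, eval_X, ← map_pow,
        FiniteField.pow_card, sub_self]
    · rw [Finset.card_image_of_injective _ (algebraMap F₀ k).injective, Finset.card_univ, ← hq]
      calc _ ≤ Multiset.card (X ^ q - X : k[X]).roots := Multiset.toFinset_card_le _
        _ ≤ (X ^ q - X : k[X]).natDegree := card_roots' _
        _ = q := FiniteField.X_pow_card_sub_X_natDegree_eq k hq1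
  have h1 : x ∈ (X ^ q - X : k[X]).roots.toFinset := by
    rw [Multiset.mem_toFinset, mem_roots hP, IsRoot.def, eval_sub, eval_pow, eval_X, hx, sub_self]
  rw [hroots] at h1
  obtain ⟨z, -, hz⟩ := Finset.mem_image.mp h1
  exact ⟨z, hz⟩

/-- the kernel of `φ - 1` is the group of `F₀`-points -/
theorem card_ker_sub_one :
    Nat.card (comb W k 0 1 (-1)).ker = Nat.card W.Point := by
  classical
  have hmem : ∀ P : (W⁄k).Point, P ∈ (comb W k 0 1 (-1)).ker ↔ frobE W k P = P := by
    intro P
    rw [AddMonoidHom.mem_ker, comb_apply, zero_smul, zero_add, one_smul, neg_one_smul,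
      ← sub_eq_add_neg, sub_eq_zero]
  have hnon : ∀ x y : F₀, (W⁄k).Nonsingular (algebraMap F₀ k x) (algebraMap F₀ k y) ↔
      W.Nonsingular x y := fun x y ↦ W.map_nonsingular (algebraMap F₀ k).injective x y
  symm
  let f : W.Point → (comb W k 0 1 (-1)).ker := fun P ↦ match P with
    | 0 => 0
    | .some x y h => ⟨.some (algebraMap F₀ k x) (algebraMap F₀ k y) ((hnon x y).mpr h), by
        rw [hmem, frobE, Point.map_some]
        simp only [FiniteField.frobeniusAlgHom_apply, ← map_pow, FiniteField.pow_card]⟩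
  refine Nat.card_congr (Equiv.ofBijective f ⟨?_, ?_⟩)
  · rintro (_ | ⟨x, y, h⟩) (_ | ⟨x', y', h'⟩) hPQ
    · rfl
    · have := congrArg Subtype.val hPQ
      exact absurd this.symm (some_ne_zero _)
    · have := congrArg Subtype.val hPQ
      exact absurd this (some_ne_zero _)
    · have := Point.some.inj (congrArg Subtype.val hPQ)
      have hx := (algebraMap F₀ k).injective this.1
      have hy := (algebraMap F₀ k).injective this.2
      subst hx
      subst hy
      rfl
  · rintro ⟨P, hP⟩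
    rcases P with _ | ⟨x, y, h⟩
    · exact ⟨0, rfl⟩
    · rw [hmem, frobE, Point.map_some] at hP
      have h1 := Point.some.inj hP
      simp only [FiniteField.frobeniusAlgHom_apply] at h1
      obtain ⟨x', rfl⟩ := mem_range_of_pow_eq x h1.1
      obtain ⟨y', rfl⟩ := mem_range_of_pow_eq y h1.2
      exact ⟨.some x' y' ((hnon x' y').mp h), rfl⟩

end Kernel

end Fermat.Agent.FrobTrace
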