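import Fermat.Agent.FrobTrace.Anti
import Fermat.Prelude.Def_FLTPrelim_Modularity

set_option autoImplicit false

/-!
# Cayley–Hamilton for the Frobenius endomorphism
-/

namespace Fermat.Agent.FrobTrace

open Polynomial WeierstrassCurve WeierstrassCurve.Affine WeierstrassCurve.Affine.Point
open scoped WeierstrassCurve.Affine
open Fermat.Agent.EllTorsion

section Deg

variable {F₀ : Type*} [Field F₀] [Fintype F₀] {W : Affine F₀}
variable {k : Type*} [Field k] [Algebra F₀ k] [DecidableEq k] [IsAlgClosed k]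
variable {L : Type*} [Field L] [Algebra F₀ L] [Algebra k L] [IsScalarTower F₀ k L] [DecidableEq L]

omit [DecidableEq k] [IsAlgClosed k] in
/-- the point `a φ² P₀ + b φ P₀ + c P₀` -/
noncomputable def GenData.cpt (hΔ : W.Δ ≠ 0) (G : GenData (W⁄k) L) (a b c : ℤ) : G.anti :=
  ⟨comb W L a b c (G.pt hΔ), G.map_τ_comb hΔ a b c⟩

omit [DecidableEq k] [IsAlgClosed k] in
theorem GenData.coe_cpt (hΔ : W.Δ ≠ 0) (G : GenData (W⁄k) L) (a b c : ℤ) :
    (G.cpt hΔ a b c : (W⁄L).Point) = comb W L a b c (G.pt hΔ) := rfl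

omit [DecidableEq k] [IsAlgClosed k] in
theorem GenData.cpt_eq (hΔ : W.Δ ≠ 0) (G : GenData (W⁄k) L) (a b c : ℤ) :
    G.cpt hΔ a b c = a • G.cpt hΔ 1 0 0 + b • G.cpt hΔ 0 1 0 + c • G.cpt hΔ 0 0 1 := by
  apply Subtype.ext
  simp [GenData.coe_cpt, comb_apply]

omit [DecidableEq k] [IsAlgClosed k] in
theorem GenData.ht_cpt_one (hΔ : W.Δ ≠ 0) (G : GenData (W⁄k) L) :
    G.ht (G.cpt hΔ 0 0 1) = 1 := by
  apply G.ht_eq
  have : comb W L 0 0 1 (G.pt hΔ) = G.pt hΔ := by simp [comb_apply]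
  rw [GenData.coe_cpt, this]
  exact hasHt_gen

omit [DecidableEq k] [IsAlgClosed k] in
theorem GenData.ht_frob (hΔ : W.Δ ≠ 0) (G : GenData (W⁄k) L) (b c : ℤ) :
    G.ht (G.cpt hΔ b c 0) = Fintype.card F₀ * G.ht (G.cpt hΔ 0 b c) := by
  apply G.ht_eq
  have := G.hasHt (G.cpt hΔ 0 b c)
  have h2 := this.frob (W₀ := W) (q := Fintype.card F₀) Fintype.card_ne_zero
    (σ := FiniteField.frobeniusAlgHom F₀ L) (fun z ↦ by simp)
  have h3 : Point.map (FiniteField.frobeniusAlgHom F₀ L) (comb W L 0 b c (G.pt hΔ)) =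
      comb W L b c 0 (G.pt hΔ) := frobE_comb (W := W) (M := L) b c (G.pt hΔ)
  rw [GenData.coe_cpt, ← h3]
  exact h2

omit [IsAlgClosed k] in
/-- the endomorphism `a φ² + b φ + c` over `k` -/
theorem GenData.isRepEnd (hΔ : W.Δ ≠ 0) (G : GenData (W⁄k) L) (a b c : ℤ) :
    ∃ A B : k[X], IsRep G.t (G.cpt hΔ a b c : (W⁄L).Point) A B ∧
      HasDeg2 A B (G.ht (G.cpt hΔ a b c)) ∧ IsRepEnd (W := W⁄k) (comb W k a b c) A B := by
  obtain ⟨A, B, h1, h2⟩ := G.hasHt (G.cpt hΔ a b c)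
  exact ⟨A, B, h1, h2, isRepEnd_of_isRep hΔ G h1⟩

/-- the coordinates of a point in the image of Frobenius are `p`-th powers -/
theorem ptIn_frobE (p : ℕ) [Fact p.Prime] [CharP F₀ p] [CharP L p] (P : (W⁄L).Point) :
    PtIn (pthPowers L p) (frobE W L P) := by
  obtain ⟨n, hp, hn⟩ := FiniteField.card F₀ p
  have hpow : ∀ x : L, x ^ Fintype.card F₀ ∈ pthPowers L p := by
    intro x
    rw [hn]
    obtain ⟨m, hm⟩ := Nat.exists_eq_add_of_lt n.pos
    rw [zero_add] at hm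
    rw [hm, pow_succ, pow_mul]
    exact pow_mem_pthPowers p _
  rcases P with _ | ⟨x, y, h⟩
  · exact ptIn_zero
  · rw [frobE, Point.map_some, ptIn_some]
    simp only [FiniteField.frobeniusAlgHom_apply]
    exact ⟨hpow x, hpow y⟩

variable (p : ℕ) [Fact p.Prime] [CharP F₀ p]

/-- degree and kernel -/
theorem GenData.ht_eq_card_ker (hΔ : W.Δ ≠ 0) (G : GenData (W⁄k) L) (a b c : ℤ)
    (h0 : G.ht (G.cpt hΔ a b c) ≠ 0) :
    Function.Surjective (comb W k a b c) ∧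
      ∃ e, G.ht (G.cpt hΔ a b c) = p ^ e * Nat.card (comb W k a b c).ker := by
  have hell := isElliptic_k (k := k) hΔ
  have : CharP k p := charP_of_injective_algebraMap (algebraMap F₀ k).injective p
  obtain ⟨A, B, -, h2, h3⟩ := G.isRepEnd hΔ a b c
  exact ⟨h3.surjective h2 h0, h3.exists_card_ker p h2 h0⟩

include p in
/-- degree and kernel, separable case -/
theorem GenData.ht_eq_card_ker_sep (hΔ : W.Δ ≠ 0) (G : GenData (W⁄k) L) (a b c : ℤ)
    (hc : c = 1 ∨ c = -1) :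
    G.ht (G.cpt hΔ a b c) ≠ 0 ∧ G.ht (G.cpt hΔ a b c) = Nat.card (comb W k a b c).ker := by
  have hell := isElliptic_k (k := k) hΔ
  have hck : CharP k p := charP_of_injective_algebraMap (algebraMap F₀ k).injective p
  have hcL : CharP L p := charP_of_injective_algebraMap (algebraMap F₀ L).injective p
  obtain ⟨A, B, h1, h2, h3⟩ := G.isRepEnd hΔ a b c
  have hW : derivative A * B - A * derivative B ≠ 0 := by
    refine wronskian_ne_zero' p (Δ_k_ne_zero hΔ) (baseChange_eq (W := W) (k := k)) (G.not_pow p)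
      (P₀ := G.pt hΔ) (Q' := comb W L a b 0 (G.pt hΔ)) rfl ?_ ?_ h1
    · rw [← frobE_comb]
      exact ptIn_frobE p _
    · have : comb W L a b c (G.pt hΔ) = comb W L a b 0 (G.pt hΔ) + c • G.pt hΔ := by
        simp [comb_apply]
      change comb W L a b c (G.pt hΔ) = _ ∨ comb W L a b c (G.pt hΔ) = _
      rw [this]
      rcases hc with rfl | rfl
      · left; rw [one_smul, add_comm]
      · right; rw [neg_one_smul, add_comm]
  have h4 : G.ht (G.cpt hΔ a b c) ≠ 0 := by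
    intro h0
    rw [h0] at h2
    obtain ⟨x, rfl⟩ := natDegree_eq_zero.mp (Nat.le_zero.mp h2.1)
    obtain ⟨y, rfl⟩ := natDegree_eq_zero.mp (Nat.le_zero.mp h2.2.1)
    simp at hW
  exact ⟨h4, h3.card_ker_of_wronskian h2 h4 hW⟩

/-- the values of the degree form on the span of `φ²`, `φ`, `1`. -/
theorem GenData.ht_form_aux (hΔ : W.Δ ≠ 0) (G : GenData (W⁄k) L) :
    Parallelogram.B (fun P : G.anti ↦ (G.ht P : ℤ)) (G.cpt hΔ 0 1 0) (G.cpt hΔ 0 0 1) =
      W.traceOfFrobenius ∧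
    Parallelogram.B (fun P : G.anti ↦ (G.ht P : ℤ)) (G.cpt hΔ 1 0 0) (G.cpt hΔ 0 1 0) =
      Fintype.card F₀ * W.traceOfFrobenius ∧
    Parallelogram.B (fun P : G.anti ↦ (G.ht P : ℤ)) (G.cpt hΔ 1 0 0) (G.cpt hΔ 0 0 1) =
      W.traceOfFrobenius ^ 2 - 2 * Fintype.card F₀ ∧ (G.ht (G.cpt hΔ 0 0 1) : ℤ) = 1 ∧
    (G.ht (G.cpt hΔ 0 1 0) : ℤ) = Fintype.card F₀ ∧
    (G.ht (G.cpt hΔ 1 0 0) : ℤ) = Fintype.card F₀ ^ 2 := by
  obtain ⟨p, hp⟩ := CharP.exists F₀
  have hp' : Fact p.Prime := ⟨CharP.char_is_prime F₀ p⟩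
  set q : ℤ := ((Fintype.card F₀ : ℕ) : ℤ) with hq
  set a : ℤ := W.traceOfFrobenius with ha
  have hN : (Nat.card (comb W k 0 1 (-1)).ker : ℤ) = q + 1 - a := by
    rw [card_ker_sub_one, ha, WeierstrassCurve.traceOfFrobenius, WeierstrassCurve.card, hq,
      Nat.card_eq_fintype_card (α := F₀)]
    ring
  have hD := G.parallelogram hΔ
  have h001 : (G.ht (G.cpt hΔ 0 0 1) : ℤ) = 1 := by rw [G.ht_cpt_one hΔ]; rfl
  have h010 : (G.ht (G.cpt hΔ 0 1 0) : ℤ) = q := by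
    rw [G.ht_frob hΔ 0 1, G.ht_cpt_one hΔ, mul_one]
  have h100 : (G.ht (G.cpt hΔ 1 0 0) : ℤ) = q ^ 2 := by
    rw [G.ht_frob hΔ 1 0]; push_cast; rw [h010]; ring
  have h1 : (G.ht (G.cpt hΔ 0 1 (-1)) : ℤ) = q + 1 - a := by
    rw [← hN, (G.ht_eq_card_ker_sep p hΔ 0 1 (-1) (Or.inr rfl)).2]
  have e1 : G.cpt hΔ 0 1 (-1) = G.cpt hΔ 0 1 0 - G.cpt hΔ 0 0 1 := by
    rw [G.cpt_eq hΔ 0 1 (-1)]; simp [sub_eq_add_neg]
  have e2 : G.cpt hΔ 0 1 1 = G.cpt hΔ 0 1 0 + G.cpt hΔ 0 0 1 := by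
    rw [G.cpt_eq hΔ 0 1 1]; simp
  have e3 : G.cpt hΔ 1 1 0 = G.cpt hΔ 1 0 0 + G.cpt hΔ 0 1 0 := by
    rw [G.cpt_eq hΔ 1 1 0]; simp
  have e4 : G.cpt hΔ 1 0 (-1) = G.cpt hΔ 1 0 0 - G.cpt hΔ 0 0 1 := by
    rw [G.cpt_eq hΔ 1 0 (-1)]; simp [sub_eq_add_neg]
  have h2 : (G.ht (G.cpt hΔ 0 1 1) : ℤ) = q + 1 + a := by
    have := hD (G.cpt hΔ 0 1 0) (G.cpt hΔ 0 0 1)
    rw [← e1, ← e2] at this
    linarith
  have hM : (Nat.card (comb W k 0 1 1).ker : ℤ) = q + 1 + a := by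
    rw [← h2, (G.ht_eq_card_ker_sep p hΔ 0 1 1 (Or.inl rfl)).2]
  have h3 : (G.ht (G.cpt hΔ 1 1 0) : ℤ) = q * (q + 1 + a) := by
    rw [G.ht_frob hΔ 1 1]; push_cast; rw [h2]
  have hker : (comb W k 1 0 (-1)) = (comb W k 0 1 1).comp (comb W k 0 1 (-1)) := by
    ext1 P
    rw [AddMonoidHom.comp_apply, comb_comp]
    norm_num
  have hsurj : Function.Surjective (comb W k 0 1 (-1)) :=
    (G.ht_eq_card_ker p hΔ 0 1 (-1) (G.ht_eq_card_ker_sep p hΔ 0 1 (-1) (Or.inr rfl)).1).1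
  have h4 : (G.ht (G.cpt hΔ 1 0 (-1)) : ℤ) = (q + 1 + a) * (q + 1 - a) := by
    rw [(G.ht_eq_card_ker_sep p hΔ 1 0 (-1) (Or.inr rfl)).2, hker, card_ker_comp _ _ hsurj]
    push_cast
    rw [hM, hN]
  have h5 := hD (G.cpt hΔ 1 0 0) (G.cpt hΔ 0 0 1)
  rw [← e4] at h5
  refine ⟨?_, ?_, ?_, h001, h010, h100⟩
  · simp only [Parallelogram.B]
    rw [← e2]; linarith
  · simp only [Parallelogram.B]
    rw [← e3]; linarith
  · simp only [Parallelogram.B]
    linarith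

/-- the values of the degree form on the span of `φ²`, `φ`, `1`. -/
theorem GenData.ht_form (hΔ : W.Δ ≠ 0) (G : GenData (W⁄k) L) (a b c : ℤ) :
    (G.ht (G.cpt hΔ a b c) : ℤ) = a ^ 2 * Fintype.card F₀ ^ 2 + b ^ 2 * Fintype.card F₀ + c ^ 2 +
      a * b * (Fintype.card F₀ * W.traceOfFrobenius) + b * c * W.traceOfFrobenius +
      a * c * (W.traceOfFrobenius ^ 2 - 2 * Fintype.card F₀) := by
  obtain ⟨h1, h2, h3, h4, h5, h6⟩ := G.ht_form_aux hΔ
  have hD := G.parallelogram hΔ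
  have := hD.map_comb₃ (G.cpt hΔ 1 0 0) (G.cpt hΔ 0 1 0) (G.cpt hΔ 0 0 1) a b c
  rw [← G.cpt_eq hΔ a b c] at this
  rw [this, h1, h2, h3, h4, h5, h6]
  ring

end Deg

section Const

variable {k : Type*} [Field k] [IsAlgClosed k] [DecidableEq k]
variable {W : WeierstrassCurve k} [W.IsElliptic]
variable {ψ : W.toAffine.Point →+ W.toAffine.Point} {A B : k[X]}

/-- an endomorphism of degree zero is zero -/
theorem IsRepEnd.eq_zero_of_const (h : IsRepEnd (⇑ψ) A B) (hd : HasDeg2 A B 0)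
    (P : W.toAffine.Point) : ψ P = 0 := by
  have hinf := infinite_point (W := W)
  obtain ⟨α, rfl⟩ := natDegree_eq_zero.mp (Nat.le_zero.mp hd.1)
  obtain ⟨β, rfl⟩ := natDegree_eq_zero.mp (Nat.le_zero.mp hd.2.1)
  have key : ∀ P : W.toAffine.Point, P ≠ 0 → ∃ c : k, c ≠ 0 ∧ ![α, β] = c • (ψ P).xRep := by
    rintro (_ | ⟨x, y, hxy⟩) hP
    · exact absurd rfl hP
    · obtain ⟨c, hc, e⟩ := h.2 x y hxy
      exact ⟨c, hc, by simpa using e⟩
  by_cases hβ : β = 0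
  · by_cases hP : P = 0
    · rw [hP, _root_.map_zero]
    obtain ⟨c, hc, e⟩ := key P hP
    rcases hψ : ψ P with _ | ⟨x, y, hxy⟩
    · rfl
    · exfalso
      rw [hψ] at e
      have := congrFun e 1
      simp [hβ] at this
      exact hc this.symm
  · exfalso
    have key2 : ∀ P : W.toAffine.Point, P ≠ 0 → (ψ P).xRep = ![α / β, 1] := by
      intro P hP
      obtain ⟨c, hc, e⟩ := key P hP
      rcases hψ : ψ P with _ | ⟨x, y, hxy⟩
      · exfalso
        rw [hψ] at e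
        have e1 : β = c * 0 := congrFun e 1
        exact hβ (by rw [e1, mul_zero])
      · rw [hψ] at e
        have e1 : β = c * 1 := congrFun e 1
        have e0 : α = c * x := congrFun e 0
        rw [xRep_some, e0, e1, mul_one, mul_div_cancel_left₀ _ hc]
    obtain ⟨R, hR⟩ := (finite_nsmul_eq_zero (W := W) (n := 6) (by norm_num)).exists_notMem
    rw [Set.mem_ofPred_eq] at hR
    have hR1 : R ≠ 0 := by rintro rfl; exact hR (smul_zero _)
    have hR2 : 2 • R ≠ 0 := by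
      intro h0
      apply hR
      rw [show 6 = 3 * 2 from rfl, mul_smul, h0, smul_zero]
    have hR3 : 3 • R ≠ 0 := by
      intro h0
      apply hR
      rw [show 6 = 2 * 3 from rfl, mul_smul, h0, smul_zero]
    have k1 := key2 R hR1
    have k2 := key2 (2 • R) hR2
    have k3 := key2 (3 • R) hR3
    have hne : ∀ P : W.toAffine.Point, P ≠ 0 → ψ P ≠ 0 := by
      intro P hP h0
      have := key2 P hP
      rw [h0] at this
      have e1 : (0 : k) = 1 := congrFun this 1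
      exact zero_ne_one e1
    rcases eq_or_eq_neg_of_xRep_eq_xRep (k2.trans k1.symm) with h2 | h2
    · rw [map_nsmul, two_nsmul, add_eq_left] at h2
      exact hne R hR1 h2
    · rw [map_nsmul] at h2
      apply hne _ hR3
      rw [map_nsmul, show 3 = 2 + 1 from rfl, add_smul, h2, one_smul, neg_add_cancel]

end Const

section Main

variable {F₀ : Type*} [Field F₀] [Fintype F₀] {W : Affine F₀}
variable {k : Type*} [Field k] [Algebra F₀ k] [DecidableEq k] [IsAlgClosed k]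

/-- **Cayley–Hamilton** for the Frobenius endomorphism of an elliptic curve over a finite field. -/
theorem frob_cayley (hΔ : W.Δ ≠ 0) (R : (W⁄k).Point) :
    frobE W k (frobE W k R) - W.traceOfFrobenius • frobE W k R + (Fintype.card F₀ : ℤ) • R = 0 := by
  classical
  have hell := isElliptic_k (k := k) hΔ
  let L := (W⁄k).toAffine.FunctionField
  let G : GenData (W⁄k) L := genData (W⁄k) (Δ_k_ne_zero hΔ)
  obtain ⟨A, B, -, h2, h3⟩ := G.isRepEnd hΔ 1 (-W.traceOfFrobenius) (Fintype.card F₀)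
  have h4 := G.ht_form hΔ 1 (-W.traceOfFrobenius) (Fintype.card F₀)
  have h5 : G.ht (G.cpt hΔ 1 (-W.traceOfFrobenius) (Fintype.card F₀)) = 0 := by
    zify
    rw [h4]; ring
  rw [h5] at h2
  have h6 := h3.eq_zero_of_const h2 R
  rw [comb_apply, one_smul, neg_smul, ← sub_eq_add_neg] at h6
  exact h6

/-- kernels of `φ - c` -/
theorem card_ker_frob_sub (p : ℕ) [Fact p.Prime] [CharP F₀ p] (hΔ : W.Δ ≠ 0) (b c : ℤ) :
    0 ≤ b ^ 2 * Fintype.card F₀ + b * c * W.traceOfFrobenius + c ^ 2 ∧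
    (b ^ 2 * Fintype.card F₀ + b * c * W.traceOfFrobenius + c ^ 2 ≠ 0 →
      Function.Surjective (comb W k 0 b c) ∧ ∃ e : ℕ,
        b ^ 2 * Fintype.card F₀ + b * c * W.traceOfFrobenius + c ^ 2 =
          p ^ e * Nat.card (comb W k 0 b c).ker) := by
  classical
  let L := (W⁄k).toAffine.FunctionField
  let G : GenData (W⁄k) L := genData (W⁄k) (Δ_k_ne_zero hΔ)
  have h4 := G.ht_form hΔ 0 b c
  have h5 : b ^ 2 * Fintype.card F₀ + b * c * W.traceOfFrobenius + c ^ 2 =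
      (G.ht (G.cpt hΔ 0 b c) : ℤ) := by
    rw [h4]; ring
  rw [h5]
  refine ⟨by positivity, fun h ↦ ?_⟩
  have h6 : G.ht (G.cpt hΔ 0 b c) ≠ 0 := by exact_mod_cast h
  obtain ⟨h7, e, he⟩ := G.ht_eq_card_ker p hΔ 0 b c h6
  exact ⟨h7, e, by rw [he]; push_cast; rfl⟩

end Main

end Fermat.Agent.FrobTrace
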