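import Fermat.Agent.EllTorsion.Torsion
import Fermat.Prelude.Def_EllipticCurve_FrobeniusTrace

set_option autoImplicit false

/-!
# Characteristic polynomials on `M[m]` for varying `m`

`M` an abelian group such that `M[m]` is free over `ZMod m`; for `d ∣ m` the characteristic
polynomial of an endomorphism on `M[d]` is the image of the one on `M[m]`. As a consequence, the
characteristic polynomial on `M[m]` is determined by the ones on `M[ℓⁿ]`, `ℓⁿ ∣ m`.
-/

open Polynomial

namespace Fermat.Agent.FrobTrace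

section General

variable {M : Type*} [AddCommGroup M] {m d e : ℕ}
variable [Module (ZMod m) (Submodule.torsionBy ℤ M m)]
variable [Module (ZMod d) (Submodule.torsionBy ℤ M d)]

theorem intCast_smul_coe (z : ℤ) (x : Submodule.torsionBy ℤ M m) :
    ((((z : ZMod m) • x : Submodule.torsionBy ℤ M m)) : M) = z • (x : M) := by
  rw [Int.cast_smul_eq_zsmul]
  rfl

omit [Module (ZMod m) (Submodule.torsionBy ℤ M m)]
  [Module (ZMod d) (Submodule.torsionBy ℤ M d)] in
theorem mem_torsionBy_of_eq (hm : m = d * e) (x : Submodule.torsionBy ℤ M m) :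
    (e : ℤ) • (x : M) ∈ Submodule.torsionBy ℤ M d := by
  rw [Submodule.mem_torsionBy_iff, smul_smul]
  have := (Submodule.mem_torsionBy_iff (m : ℤ) (x : M)).1 x.2
  rwa [show (d : ℤ) * (e : ℤ) = (m : ℤ) by rw [hm]; push_cast; rfl]

/-- multiplication by `e` as a map `M[de] → M[d]` -/
def mulTors (hm : m = d * e) (x : Submodule.torsionBy ℤ M m) : Submodule.torsionBy ℤ M d :=
  ⟨(e : ℤ) • (x : M), mem_torsionBy_of_eq hm x⟩

omit [Module (ZMod m) (Submodule.torsionBy ℤ M m)]
  [Module (ZMod d) (Submodule.torsionBy ℤ M d)] in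
theorem mulTors_coe (hm : m = d * e) (x : Submodule.torsionBy ℤ M m) :
    ((mulTors hm x : Submodule.torsionBy ℤ M d) : M) = (e : ℤ) • (x : M) := rfl

/-- coordinates of an integral combination of the `e • b i` -/
theorem coe_sum_mulTors {ι : Type*} [Fintype ι] (hm : m = d * e)
    (b : ι → Submodule.torsionBy ℤ M m) (z : ι → ℤ) :
    ((∑ i, ((z i : ℤ) : ZMod d) • mulTors hm (b i) : Submodule.torsionBy ℤ M d) : M) =
      ((∑ i, ((z i * e : ℤ) : ZMod m) • b i : Submodule.torsionBy ℤ M m) : M) := by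
  rw [AddSubmonoidClass.coe_finsetSum, AddSubmonoidClass.coe_finsetSum]
  refine Finset.sum_congr rfl fun i _ ↦ ?_
  rw [intCast_smul_coe, intCast_smul_coe, mulTors_coe, smul_smul]

variable {ι : Type*} [Fintype ι] (b : Module.Basis ι (ZMod m) (Submodule.torsionBy ℤ M m))

include b in
theorem linearIndependent_mulTors (hm : m = d * e) (he : e ≠ 0) :
    LinearIndependent (ZMod d) fun i ↦ (mulTors hm (b i) : Submodule.torsionBy ℤ M d) := by
  rw [Fintype.linearIndependent_iff]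
  intro c hc i
  choose z hz using fun i ↦ ZMod.intCast_surjective (c i)
  have h1 : (∑ i, ((z i : ℤ) : ZMod d) • mulTors hm (b i) : Submodule.torsionBy ℤ M d) = 0 := by
    rw [← hc]
    exact Finset.sum_congr rfl fun i _ ↦ by rw [hz]
  have h2 : (∑ i, ((z i * e : ℤ) : ZMod m) • b i : Submodule.torsionBy ℤ M m) = 0 := by
    apply Subtype.ext
    rw [← coe_sum_mulTors hm (fun i ↦ b i) z, h1]
    rfl
  have h3 := (Fintype.linearIndependent_iff.mp b.linearIndependent) _ h2 i
  rw [ZMod.intCast_zmod_eq_zero_iff_dvd, hm] at h3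
  rw [← hz, ZMod.intCast_zmod_eq_zero_iff_dvd]
  push_cast at h3
  exact Int.dvd_of_mul_dvd_mul_right (by exact_mod_cast he) h3

include b in
theorem span_mulTors (hm : m = d * e) (hd : d ≠ 0) :
    ⊤ ≤ Submodule.span (ZMod d)
      (Set.range fun i ↦ (mulTors hm (b i) : Submodule.torsionBy ℤ M d)) := by
  intro x _
  have hx : (x : M) ∈ Submodule.torsionBy ℤ M m := by
    rw [Submodule.mem_torsionBy_iff, hm]
    have := (Submodule.mem_torsionBy_iff (d : ℤ) (x : M)).1 x.2
    push_cast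
    rw [mul_comm, mul_smul, this, smul_zero]
  set y : Submodule.torsionBy ℤ M m := ⟨(x : M), hx⟩ with hy
  choose w hw using fun i ↦ ZMod.intCast_surjective (b.repr y i)
  have hyd : ((d : ℤ) : ZMod m) • y = 0 := by
    apply Subtype.ext
    rw [intCast_smul_coe]
    exact (Submodule.mem_torsionBy_iff (d : ℤ) (x : M)).1 x.2
  have hwd : ∀ i, (e : ℤ) ∣ w i := by
    intro i
    have h1 := congrArg (fun v ↦ b.repr v i) hyd
    simp only [map_smul, Finsupp.smul_apply, smul_eq_mul, map_zero, Finsupp.zero_apply] at h1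
    rw [← hw, ← Int.cast_mul, ZMod.intCast_zmod_eq_zero_iff_dvd, hm] at h1
    push_cast at h1
    exact Int.dvd_of_mul_dvd_mul_left (by exact_mod_cast hd) h1
  choose w' hw' using hwd
  have hsum : x = ∑ i, ((w' i : ℤ) : ZMod d) • mulTors hm (b i) := by
    apply Subtype.ext
    rw [coe_sum_mulTors hm (fun i ↦ b i) w']
    have h2 : y = ∑ i, ((w' i * e : ℤ) : ZMod m) • b i := by
      conv_lhs => rw [← b.sum_repr y]
      refine Finset.sum_congr rfl fun i _ ↦ ?_
      rw [← hw, hw', mul_comm]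
    rw [← h2]
  rw [hsum]
  exact Submodule.sum_mem _ fun i _ ↦ Submodule.smul_mem _ _ (Submodule.subset_span ⟨i, rfl⟩)

/-- a basis of `M[de]` over `ZMod (de)` gives a basis of `M[d]` over `ZMod d`. -/
noncomputable def torsBasis (hm : m = d * e) (hd : d ≠ 0) (he : e ≠ 0) :
    Module.Basis ι (ZMod d) (Submodule.torsionBy ℤ M d) :=
  Module.Basis.mk (linearIndependent_mulTors b hm he) (span_mulTors b hm hd)

theorem torsBasis_apply (hm : m = d * e) (hd : d ≠ 0) (he : e ≠ 0) (i : ι) :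
    torsBasis b hm hd he i = mulTors hm (b i) := by
  rw [torsBasis, Module.Basis.mk_apply]

variable {f : M →+ M} {Lm : Submodule.torsionBy ℤ M m →ₗ[ZMod m] Submodule.torsionBy ℤ M m}
  {Ld : Submodule.torsionBy ℤ M d →ₗ[ZMod d] Submodule.torsionBy ℤ M d}

theorem toMatrix_torsBasis [DecidableEq ι] (hLm : ∀ x, ((Lm x : _) : M) = f x)
    (hLd : ∀ x, ((Ld x : _) : M) = f x)
    (hm : m = d * e) (hd : d ≠ 0) (he : e ≠ 0) :
    LinearMap.toMatrix (torsBasis b hm hd he) (torsBasis b hm hd he) Ld =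
      (LinearMap.toMatrix b b Lm).map (ZMod.castHom (Dvd.intro e hm.symm) (ZMod d)) := by
  ext i j
  rw [LinearMap.toMatrix_apply, Matrix.map_apply, LinearMap.toMatrix_apply]
  choose z hz using fun i ↦ ZMod.intCast_surjective (b.repr (Lm (b j)) i)
  have h1 : Ld (torsBasis b hm hd he j) =
      ∑ i, ((z i : ℤ) : ZMod d) • torsBasis b hm hd he i := by
    apply Subtype.ext
    simp only [torsBasis_apply]
    rw [coe_sum_mulTors hm (fun i ↦ b i) z, hLd, mulTors_coe, map_zsmul, ← hLm]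
    have h2 : Lm (b j) = ∑ i, ((z i : ℤ) : ZMod m) • b i := by
      conv_lhs => rw [← b.sum_repr (Lm (b j))]
      exact Finset.sum_congr rfl fun i _ ↦ by rw [← hz]
    rw [← intCast_smul_coe (m := m), h2, Finset.smul_sum]
    congr 1
    refine Finset.sum_congr rfl fun i _ ↦ ?_
    rw [smul_smul]
    push_cast
    rw [mul_comm]
  rw [h1, map_sum, Finsupp.finsetSum_apply]
  simp only [map_smul, Module.Basis.repr_self, Finsupp.smul_single, smul_eq_mul, mul_one]
  rw [Finset.sum_eq_single i (fun k _ hk ↦ Finsupp.single_eq_of_ne' hk) (by simp),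
    Finsupp.single_eq_same, ← hz, ZMod.castHom_apply, ZMod.cast_intCast (Dvd.intro e hm.symm)]

/-- the characteristic polynomial on `M[d]` is the image of the one on `M[de]` -/
theorem charpoly_tors_map [Module.Free (ZMod m) (Submodule.torsionBy ℤ M m)]
    [Module.Finite (ZMod m) (Submodule.torsionBy ℤ M m)]
    [Module.Free (ZMod d) (Submodule.torsionBy ℤ M d)]
    [Module.Finite (ZMod d) (Submodule.torsionBy ℤ M d)]
    (hLm : ∀ x, ((Lm x : _) : M) = f x) (hLd : ∀ x, ((Ld x : _) : M) = f x)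
    (hdm : d ∣ m) (hm0 : m ≠ 0) :
    Lm.charpoly.map (ZMod.castHom hdm (ZMod d)) = Ld.charpoly := by
  classical
  obtain ⟨e, hm⟩ := hdm
  have hd : d ≠ 0 := by rintro rfl; simp at hm; exact hm0 hm
  have he : e ≠ 0 := by rintro rfl; simp at hm; exact hm0 hm
  let b := Module.Free.chooseBasis (ZMod m) (Submodule.torsionBy ℤ M m)
  rw [← LinearMap.charpoly_toMatrix Lm b, ← Matrix.charpoly_map,
    ← LinearMap.charpoly_toMatrix Ld (torsBasis b hm hd he), toMatrix_torsBasis b hLm hLd hm hd he]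

end General

/-- polynomials over `ZMod m` can be compared modulo prime powers. -/
theorem poly_eq_of_prime_pow {m : ℕ} {P Q : (ZMod m)[X]}
    (h : ∀ (ℓ n : ℕ) (_ : ℓ.Prime) (hd : ℓ ^ n ∣ m),
      P.map (ZMod.castHom hd (ZMod (ℓ ^ n))) = Q.map (ZMod.castHom hd (ZMod (ℓ ^ n)))) : P = Q := by
  ext i
  obtain ⟨z, hz⟩ := ZMod.intCast_surjective (P.coeff i - Q.coeff i)
  rw [← sub_eq_zero, ← hz, ZMod.intCast_zmod_eq_zero_iff_dvd, Int.natCast_dvd,
    Nat.dvd_iff_prime_pow_dvd_dvd]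
  intro ℓ n hℓ hd
  have h1 := congrArg (fun R : (ZMod (ℓ ^ n))[X] ↦ R.coeff i) (h ℓ n hℓ hd)
  simp only [coeff_map] at h1
  rw [← sub_eq_zero, ← map_sub, ← hz, map_intCast, ZMod.intCast_zmod_eq_zero_iff_dvd,
    Int.natCast_dvd] at h1
  exact h1

section Curve

open WeierstrassCurve WeierstrassCurve.Affine WeierstrassCurve.Affine.Point
open Fermat.Agent.EllTorsion

variable {R : Type*} {S : Type*} {K : Type*} [CommRing R] [CommRing S] [Field K]
  [DecidableEq K] (W' : Affine R) [Algebra R S] [Algebra R K] [Algebra S K]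
  [IsScalarTower R S K]

/-- **The characteristic polynomial of `σ` on `E[d]` is the image of the one on `E[m]`**,
`d ∣ m`. -/
theorem charpoly_galoisRepModuleEnd_map {m d : ℕ} (hdm : d ∣ m) (hm0 : m ≠ 0)
    [Module.Free (ZMod m) (Submodule.torsionBy ℤ (W'⁄K).Point m)]
    [Module.Finite (ZMod m) (Submodule.torsionBy ℤ (W'⁄K).Point m)]
    [Module.Free (ZMod d) (Submodule.torsionBy ℤ (W'⁄K).Point d)]
    [Module.Finite (ZMod d) (Submodule.torsionBy ℤ (W'⁄K).Point d)] (σ : K ≃ₐ[S] K) :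
    (galoisRepModuleEnd S W' m σ).charpoly.map (ZMod.castHom hdm (ZMod d)) =
      (galoisRepModuleEnd S W' d σ).charpoly :=
  charpoly_tors_map (f := DistribSMul.toAddMonoidHom (W'⁄K).Point σ) (fun _ ↦ rfl) (fun _ ↦ rfl)
    hdm hm0

/-- **From prime powers to general `m`.** -/
theorem charpoly_galoisRepModuleEnd_of_prime_pow {m : ℕ} (hm0 : m ≠ 0)
    [Module.Free (ZMod m) (Submodule.torsionBy ℤ (W'⁄K).Point m)]
    [Module.Finite (ZMod m) (Submodule.torsionBy ℤ (W'⁄K).Point m)] (σ : K ≃ₐ[S] K) (a q : ℤ)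
    (h : ∀ (ℓ n : ℕ) (_ : ℓ.Prime) (_ : ℓ ^ n ∣ m),
      ∃ (_ : Module.Free (ZMod (ℓ ^ n)) (Submodule.torsionBy ℤ (W'⁄K).Point ((ℓ ^ n : ℕ) : ℤ)))
        (_ : Module.Finite (ZMod (ℓ ^ n)) (Submodule.torsionBy ℤ (W'⁄K).Point ((ℓ ^ n : ℕ) : ℤ))),
        (galoisRepModuleEnd S W' (ℓ ^ n) σ).charpoly =
          X ^ 2 - C (a : ZMod (ℓ ^ n)) * X + C (q : ZMod (ℓ ^ n))) :
    (galoisRepModuleEnd S W' m σ).charpoly = X ^ 2 - C (a : ZMod m) * X + C (q : ZMod m) := by
  refine poly_eq_of_prime_pow fun ℓ n hℓ hd ↦ ?_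
  obtain ⟨h1, h2, h3⟩ := h ℓ n hℓ hd
  rw [charpoly_galoisRepModuleEnd_map W' hd hm0 σ, h3]
  rw [Polynomial.map_add, Polynomial.map_sub, Polynomial.map_mul, Polynomial.map_pow,
    Polynomial.map_X, Polynomial.map_C, Polynomial.map_C,
    map_intCast (ZMod.castHom hd (ZMod (ℓ ^ n))) a, map_intCast (ZMod.castHom hd (ZMod (ℓ ^ n))) q]

end Curve

end Fermat.Agent.FrobTrace
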