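import Mathlib

set_option autoImplicit false

/-!
# The function field of a Weierstrass curve: generic point and the involution
-/

namespace Fermat.Agent.FrobTrace

open Polynomial WeierstrassCurve WeierstrassCurve.Affine WeierstrassCurve.Affine.Point
open scoped Polynomial.Bivariate

/-- abstract function field data of the curve `U` over `k` -/
structure GenData {k : Type*} [Field k] (U : WeierstrassCurve k) (L : Type*) [Field L]
    [Algebra k L] where
  /-- the `x`-coordinate of the generic point -/
  t : L
  /-- the `y`-coordinate of the generic point -/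
  y : L
  eqn : y ^ 2 + algebraMap k L U.a₁ * t * y + algebraMap k L U.a₃ * y =
    t ^ 3 + algebraMap k L U.a₂ * t ^ 2 + algebraMap k L U.a₄ * t + algebraMap k L U.a₆
  transc : ∀ g : k[X], aeval t g = 0 → g = 0
  /-- the involution of the function field -/
  τ : L →ₐ[k] L
  τ_t : τ t = t
  τ_y : τ y = -y - algebraMap k L U.a₁ * t - algebraMap k L U.a₃
  fix : ∀ z, τ z = z → ∃ f g : k[X], g ≠ 0 ∧ z * aeval t g = aeval t f
  place : ∀ x₀ y₀ : k, U.toAffine.Equation x₀ y₀ → ∃ A : ValuationSubring L,
    (∀ c : k, algebraMap k L c ∈ A) ∧ (t - algebraMap k L x₀) ∈ A.nonunits ∧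
      (y - algebraMap k L y₀) ∈ A.nonunits

section CoordinateRing

variable {k : Type*} [Field k] (U : WeierstrassCurve k)

local notation "CR" => U.toAffine.CoordinateRing

theorem aeval_neg_polynomial :
    aeval (CoordinateRing.mk U.toAffine U.toAffine.negPolynomial) U.toAffine.polynomial =
      (0 : CR) := by
  have h1 : (U.toAffine.polynomial.comp U.toAffine.negPolynomial) = U.toAffine.polynomial := by
    rw [Affine.polynomial, Affine.negPolynomial]
    simp only [sub_comp, add_comp, mul_comp, pow_comp, C_comp, X_comp]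
    ring
  have h2 : aeval (CoordinateRing.mk U.toAffine U.toAffine.negPolynomial) U.toAffine.polynomial =
      CoordinateRing.mk U.toAffine (U.toAffine.polynomial.comp U.toAffine.negPolynomial) := by
    rw [Polynomial.comp, aeval_def, hom_eval₂]
    rfl
  rw [h2, h1]
  exact AdjoinRoot.mk_self

/-- the involution of the coordinate ring -/
noncomputable def conjC : CR →ₐ[k[X]] CR :=
  AdjoinRoot.liftAlgHom U.toAffine.polynomial (Algebra.ofId k[X] CR)
    (CoordinateRing.mk U.toAffine U.toAffine.negPolynomial) (aeval_neg_polynomial U)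

theorem conjC_mk_Y : conjC U (CoordinateRing.mk U.toAffine Y) =
    - CoordinateRing.mk U.toAffine Y - algebraMap k[X] CR (C U.a₁ * X + C U.a₃) := by
  have : conjC U (CoordinateRing.mk U.toAffine Y) =
      CoordinateRing.mk U.toAffine U.toAffine.negPolynomial :=
    AdjoinRoot.liftAlgHom_root _ _ _ _
  rw [this, Affine.negPolynomial, map_sub, map_neg]
  rfl

theorem conjC_conjC (z : CR) : conjC U (conjC U z) = z := by
  obtain ⟨p, q, rfl⟩ := CoordinateRing.exists_smul_basis_eq z
  simp only [map_add, map_smul, map_one, conjC_mk_Y, map_sub, map_neg, AlgHom.commutes]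
  congr 2
  ring

/-- the coordinate `X` in the coordinate ring -/
noncomputable def xC : CR := algebraMap k[X] CR X

/-- the coordinate `Y` in the coordinate ring -/
noncomputable def yC : CR := CoordinateRing.mk U.toAffine Y

theorem equation_C : yC U ^ 2 + algebraMap k CR U.a₁ * xC U * yC U + algebraMap k CR U.a₃ * yC U =
    xC U ^ 3 + algebraMap k CR U.a₂ * xC U ^ 2 + algebraMap k CR U.a₄ * xC U +
      algebraMap k CR U.a₆ := by
  have h := AdjoinRoot.mk_self (f := U.toAffine.polynomial)
  have h0 : AdjoinRoot.mk U.toAffine.polynomial U.toAffine.polynomial =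
      AdjoinRoot.mk U.toAffine.polynomial (Y ^ 2 + C (C U.a₁ * X + C U.a₃) * Y -
        C (X ^ 3 + C U.a₂ * X ^ 2 + C U.a₄ * X + C U.a₆)) := rfl
  rw [h0] at h
  simp only [map_sub, map_add, map_mul, map_pow] at h
  have hY : AdjoinRoot.mk U.toAffine.polynomial Y = yC U := rfl
  have hX : AdjoinRoot.mk U.toAffine.polynomial (C X) = xC U := rfl
  have hCC : ∀ c : k, AdjoinRoot.mk U.toAffine.polynomial (C (C c)) = algebraMap k CR c :=
    fun c ↦ rfl
  rw [hY, hX] at h
  simp only [hCC] at h
  linear_combination h

theorem conjC_norm (v : CR) (hv : v ≠ 0) : ∃ n : k[X], n ≠ 0 ∧ v * conjC U v = algebraMap k[X] CR n := by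
  obtain ⟨p, q, rfl⟩ := CoordinateRing.exists_smul_basis_eq v
  refine ⟨p ^ 2 - p * q * (C U.a₁ * X + C U.a₃) -
    q ^ 2 * (X ^ 3 + C U.a₂ * X ^ 2 + C U.a₄ * X + C U.a₆), ?_, ?_⟩
  · intro h0
    apply hv
    have h1 : Algebra.norm k[X] (p • (1 : CR) + q • CoordinateRing.mk U.toAffine Y) = 0 := by
      rw [CoordinateRing.norm_smul_basis]
      exact h0
    have : Module.Finite k[X] CR := Module.Finite.of_basis (CoordinateRing.basis U.toAffine)
    exact Algebra.norm_eq_zero_iff.mp h1
  · have e := equation_C U
    have h1 : conjC U (p • (1 : CR) + q • CoordinateRing.mk U.toAffine Y) =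
        p • (1 : CR) + q • (- yC U - algebraMap k[X] CR (C U.a₁ * X + C U.a₃)) := by
      rw [map_add, map_smul, map_smul, map_one, conjC_mk_Y]; rfl
    rw [h1]
    have h2 : CoordinateRing.mk U.toAffine Y = yC U := rfl
    rw [h2]
    simp only [Algebra.smul_def, map_sub, map_add, map_mul, map_pow]
    have hCC : ∀ c : k, algebraMap k[X] CR (C c) = algebraMap k CR c := fun c ↦ rfl
    have hX : algebraMap k[X] CR X = xC U := rfl
    rw [hX]
    simp only [hCC]
    linear_combination (-(algebraMap k[X] CR q) ^ 2) * e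

theorem conjC_fix (hΔ : U.Δ ≠ 0) (w : CR) (hw : conjC U w = w) :
    ∃ p : k[X], w = algebraMap k[X] CR p := by
  obtain ⟨p, q, rfl⟩ := CoordinateRing.exists_smul_basis_eq w
  refine ⟨p, ?_⟩
  have h1 : conjC U (p • (1 : CR) + q • CoordinateRing.mk U.toAffine Y) =
        p • (1 : CR) + q • (- yC U - algebraMap k[X] CR (C U.a₁ * X + C U.a₃)) := by
      rw [map_add, map_smul, map_smul, map_one, conjC_mk_Y]; rfl
  rw [h1] at hw
  have h2 : CoordinateRing.mk U.toAffine Y = yC U := rfl
  have h3 : (q * (C U.a₁ * X + C U.a₃)) • (1 : CR) + (2 * q) • CoordinateRing.mk U.toAffine Y =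
      0 := by
    rw [h2] at hw ⊢
    simp only [Algebra.smul_def, map_add, map_mul, map_ofNat] at hw ⊢
    linear_combination -hw
  obtain ⟨h4, h5⟩ := CoordinateRing.smul_basis_eq_zero h3
  have hq : q = 0 := by
    by_contra hq
    have h6 : (2 : k[X]) = 0 := by
      rcases mul_eq_zero.mp h5 with h | h
      · exact h
      · exact absurd h hq
    have h7 : C U.a₁ * X + C U.a₃ = 0 := (mul_eq_zero.mp h4).resolve_left hq
    have h8 : (2 : k) = 0 := by
      have := congrArg (fun p : k[X] ↦ p.coeff 0) h6
      simpa using this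
    have ha₁ : U.a₁ = 0 := by
      have := congrArg (fun p : k[X] ↦ p.coeff 1) h7
      simpa [coeff_C] using this
    have ha₃ : U.a₃ = 0 := by
      have := congrArg (fun p : k[X] ↦ p.coeff 0) h7
      simpa using this
    apply hΔ
    rw [WeierstrassCurve.Δ, WeierstrassCurve.b₂, WeierstrassCurve.b₄, WeierstrassCurve.b₆,
      WeierstrassCurve.b₈, ha₁, ha₃]
    have h4' : (4 : k) = 0 := by linear_combination 2 * h8
    have h16 : (16 : k) = 0 := by linear_combination 8 * h8
    linear_combination (-U.a₂ ^ 2 * (4 * U.a₂ * U.a₆ - U.a₄ ^ 2)  -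
      4 * U.a₄ ^ 3 - 27 * U.a₆ ^ 2 + 18 * U.a₂ * U.a₄ * U.a₆) * h16
  rw [hq, zero_smul, add_zero, Algebra.smul_def, mul_one]

end CoordinateRing

section FunctionField

variable {k : Type*} [Field k] (U : WeierstrassCurve k)

local notation "CR" => U.toAffine.CoordinateRing
local notation "FFld" => U.toAffine.FunctionField

theorem conjC_injective : Function.Injective (conjC U) := fun a b h ↦ by
  rw [← conjC_conjC U a, h, conjC_conjC]

/-- the involution as a map to the function field -/
noncomputable def conjCF : CR →ₐ[k] FFld :=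
  (IsScalarTower.toAlgHom k CR FFld).comp ((conjC U).restrictScalars k)

theorem conjCF_injective : Function.Injective (conjCF U) := fun _ _ h ↦
  conjC_injective U (IsFractionRing.injective CR FFld h)

/-- the involution of the function field -/
noncomputable def conjF : FFld →ₐ[k] FFld :=
  IsFractionRing.liftAlgHom (R := k) (A := CR) (K := FFld) (L := FFld)
    (g := conjCF U) (conjCF_injective U)

theorem conjF_algebraMap (z : CR) :
    conjF U (algebraMap CR FFld z) = algebraMap CR FFld (conjC U z) :=
  IsFractionRing.lift_algebraMap (conjCF_injective U) z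

theorem aeval_algebraMap (g : k[X]) : aeval (algebraMap CR FFld (xC U)) g =
    algebraMap CR FFld (algebraMap k[X] CR g) := by
  rw [xC, ← IsScalarTower.algebraMap_apply k[X] CR FFld, ← IsScalarTower.algebraMap_apply k[X] CR FFld]
  have := aeval_algebraMap_apply FFld (X : k[X]) g
  rw [this, aeval_X_left_apply]

theorem conjF_fix (hΔ : U.Δ ≠ 0) (z : FFld) (hz : conjF U z = z) :
    ∃ f g : k[X], g ≠ 0 ∧ z * aeval (algebraMap CR FFld (xC U)) g =
      aeval (algebraMap CR FFld (xC U)) f := by
  obtain ⟨u, v, hv, rfl⟩ := IsFractionRing.div_surjective (A := CR) z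
  have hv0 : v ≠ 0 := nonZeroDivisors.ne_zero hv
  have hv1 : algebraMap CR FFld v ≠ 0 := by
    intro h
    exact hv0 (IsFractionRing.injective CR FFld (by rw [h, _root_.map_zero]))
  obtain ⟨n, hn, hvn⟩ := conjC_norm U v hv0
  have h1 : conjC U v ≠ 0 := by
    intro h
    apply hv0
    rw [← conjC_conjC U v, h, _root_.map_zero]
  have h2 : algebraMap CR FFld (conjC U v) ≠ 0 := by
    intro h
    exact h1 (IsFractionRing.injective CR FFld (by rw [h, _root_.map_zero]))
  rw [map_div₀, conjF_algebraMap, conjF_algebraMap, div_eq_div_iff h2 hv1, ← map_mul, ← map_mul]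
    at hz
  have hz' := IsFractionRing.injective CR FFld hz
  obtain ⟨f, hf⟩ := conjC_fix U hΔ (u * conjC U v) (by rw [map_mul, conjC_conjC]; exact hz')
  refine ⟨f, n, hn, ?_⟩
  rw [aeval_algebraMap, aeval_algebraMap, ← hf, ← hvn, map_mul, map_mul]
  field_simp

/-- places of the function field above a point -/
theorem exists_place (x₀ y₀ : k) (h : U.toAffine.Equation x₀ y₀) : ∃ A : ValuationSubring FFld,
    (∀ c : k, algebraMap k FFld c ∈ A) ∧
      (algebraMap CR FFld (xC U) - algebraMap k FFld x₀) ∈ A.nonunits ∧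
      (algebraMap CR FFld (yC U) - algebraMap k FFld y₀) ∈ A.nonunits := by
  let e : CR ≃+* (algebraMap CR FFld).range :=
    RingEquiv.ofBijective (algebraMap CR FFld).rangeRestrict
    ⟨fun a b hab ↦ IsFractionRing.injective CR FFld (congrArg Subtype.val hab),
      (algebraMap CR FFld).rangeRestrict_surjective⟩
  have he : ∀ z, (e z : FFld) = algebraMap CR FFld z := fun z ↦ rfl
  have hev : (U.toAffine.polynomial.eval (C y₀)).eval x₀ = 0 := h
  let I₀ : Ideal CR := CoordinateRing.XYIdeal U.toAffine x₀ (C y₀)
  have hI₀ : I₀ ≠ ⊤ := by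
    intro htop
    have e1 := CoordinateRing.quotientXYIdealEquiv (W' := U.toAffine) (x := x₀) (y := C y₀)
      (by simpa using hev)
    have hs : Subsingleton (CR ⧸ I₀) := Ideal.Quotient.subsingleton_iff.mpr htop
    exact not_subsingleton k (e1.symm.toEquiv.subsingleton)
  obtain ⟨A, hA1, hA2⟩ := Ideal.image_subset_nonunits_valuationSubring
    (I₀.comap e.symm) (by
      intro h1
      apply hI₀
      rw [Ideal.eq_top_iff_one] at h1 ⊢
      have h2 := Ideal.mem_comap.mp h1
      rwa [map_one] at h2)
  have hmem : ∀ z ∈ I₀, algebraMap CR FFld z ∈ A.nonunits := by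
    intro z hz
    apply hA2
    refine ⟨e z, ?_, rfl⟩
    simpa using hz
  refine ⟨A, fun c ↦ ?_, ?_, ?_⟩
  · rw [IsScalarTower.algebraMap_apply k CR FFld]
    exact hA1 ⟨_, rfl⟩
  · have h1 : algebraMap CR FFld (xC U) - algebraMap k FFld x₀ =
      algebraMap CR FFld (CoordinateRing.XClass U.toAffine x₀) := by
      rw [IsScalarTower.algebraMap_apply k CR FFld, ← map_sub]
      congr 1
      rw [CoordinateRing.XClass]
      simp only [map_sub]
      rfl
    rw [h1]
    exact hmem _ (Ideal.subset_span (by simp))
  · have h1 : algebraMap CR FFld (yC U) - algebraMap k FFld y₀ =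
      algebraMap CR FFld (CoordinateRing.YClass U.toAffine (C y₀)) := by
      rw [IsScalarTower.algebraMap_apply k CR FFld, ← map_sub]
      congr 1
    rw [h1]
    exact hmem _ (Ideal.subset_span (by simp))

/-- The function field of an elliptic curve is a valid generic point data. -/
noncomputable def genData (hΔ : U.Δ ≠ 0) : GenData U FFld where
  t := algebraMap CR FFld (xC U)
  y := algebraMap CR FFld (yC U)
  eqn := by
    have h := congrArg (algebraMap CR FFld) (equation_C U)
    simp only [map_add, map_mul, map_pow, ← IsScalarTower.algebraMap_apply k CR FFld] at h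
    exact h
  transc g hg := by
    rw [aeval_algebraMap] at hg
    have h1 := IsFractionRing.injective CR FFld (hg.trans (_root_.map_zero _).symm)
    exact FaithfulSMul.algebraMap_injective k[X] CR (h1.trans (_root_.map_zero _).symm)
  τ := conjF U
  τ_t := by
    rw [conjF_algebraMap, xC, AlgHom.commutes]
  τ_y := by
    rw [conjF_algebraMap, yC, conjC_mk_Y, map_sub, _root_.map_neg, sub_sub]
    congr 1
    rw [IsScalarTower.algebraMap_apply k CR FFld, IsScalarTower.algebraMap_apply k CR FFld,
      ← map_mul, ← _root_.map_add]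
    congr 1
    rw [_root_.map_add, map_mul]
    rfl
  fix := conjF_fix U hΔ
  place := exists_place U

end FunctionField

end Fermat.Agent.FrobTrace
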