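import Mathlib.AlgebraicGeometry.EllipticCurve.Affine.Point
import Mathlib.RingTheory.Derivation.Basic
import Mathlib.Tactic

set_option autoImplicit false

/-!
# The invariant differential, evaluated on points by a derivation

Let `F` be a field, `W` a Weierstrass curve over `F` and `D` a derivation of `F` killing the
coefficients of `W`. For every point `P = (x, y)` of `W` over `F` there is a unique
`lam D P : F` with `D x = lam * (2y + a₁x + a₃)` and `D y = lam * (3x² + 2a₂x + a₄ - a₁y)`, and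
`lam D` is additive in `P`. This is used to show separability of `r + s φ`.
-/

open WeierstrassCurve WeierstrassCurve.Affine

namespace Fermat.Agent.FrobTrace

variable {F : Type*} [Field F]

/-- the derivation kills all the coefficients of the curve -/
structure KillsCoeffs (W : WeierstrassCurve F) (D : Derivation ℤ F F) : Prop where
  h1 : D W.a₁ = 0
  h2 : D W.a₂ = 0
  h3 : D W.a₃ = 0
  h4 : D W.a₄ = 0
  h6 : D W.a₆ = 0

/-- `2y + a₁x + a₃` -/
def invU (W : WeierstrassCurve F) (x y : F) : F := 2 * y + W.a₁ * x + W.a₃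

/-- `3x² + 2a₂x + a₄ - a₁y` -/
def invV (W : WeierstrassCurve F) (x y : F) : F := 3 * x ^ 2 + 2 * W.a₂ * x + W.a₄ - W.a₁ * y

/-- `lam` is the value of the invariant differential at `P` (along `D`). -/
def HasLam (W : WeierstrassCurve F) (D : Derivation ℤ F F) : W.toAffine.Point → F → Prop
  | .zero, c => c = 0
  | .some x y _, c => D x = c * invU W x y ∧ D y = c * invV W x y

variable {W : WeierstrassCurve F} {D : Derivation ℤ F F}

theorem hasLam_zero_iff {c : F} : HasLam W D 0 c ↔ c = 0 := Iff.rfl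

theorem hasLam_some_iff {x y : F} {h : W.toAffine.Nonsingular x y} {c : F} :
    HasLam W D (.some x y h) c ↔ D x = c * invU W x y ∧ D y = c * invV W x y := Iff.rfl

theorem invU_ne_zero_or_invV_ne_zero {x y : F} (h : W.toAffine.Nonsingular x y) :
    invU W x y ≠ 0 ∨ invV W x y ≠ 0 := by
  rw [WeierstrassCurve.Affine.nonsingular_iff'] at h
  rcases h.2 with h | h
  · right
    intro h0
    apply h
    rw [invV] at h0
    linear_combination -h0
  · left
    exact h

/-- the tangent relation -/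
theorem invV_mul_deriv (hD : KillsCoeffs W D) {x y : F} (h : W.toAffine.Equation x y) :
    invV W x y * D x = invU W x y * D y := by
  rw [WeierstrassCurve.Affine.equation_iff] at h
  have := congrArg D h
  simp only [map_add, Derivation.leibniz, Derivation.leibniz_pow, hD.h1, hD.h2, hD.h3, hD.h4,
    hD.h6, smul_eq_mul, mul_zero, add_zero, nsmul_eq_mul, Nat.cast_ofNat,
    Nat.add_one_sub_one, pow_one] at this
  rw [invU, invV]
  linear_combination -this

theorem exists_hasLam (hD : KillsCoeffs W D) (P : W.toAffine.Point) : ∃ c, HasLam W D P c := by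
  rcases P with _ | ⟨x, y, h⟩
  · exact ⟨0, rfl⟩
  · have ht := invV_mul_deriv hD h.1
    rcases invU_ne_zero_or_invV_ne_zero h with hu | hv
    · refine ⟨D x / invU W x y, ?_, ?_⟩
      · field_simp
      · field_simp
        linear_combination -ht
    · refine ⟨D y / invV W x y, ?_, ?_⟩
      · field_simp
        linear_combination ht
      · field_simp

theorem HasLam.unique {P : W.toAffine.Point} {c d : F} (hc : HasLam W D P c)
    (hd : HasLam W D P d) : c = d := by
  rcases P with _ | ⟨x, y, h⟩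
  · exact (hasLam_zero_iff.mp hc).trans (hasLam_zero_iff.mp hd).symm
  · rw [hasLam_some_iff] at hc hd
    rcases invU_ne_zero_or_invV_ne_zero h with hu | hv
    · exact mul_right_cancel₀ hu (hc.1.symm.trans hd.1)
    · exact mul_right_cancel₀ hv (hc.2.symm.trans hd.2)

theorem HasLam.neg (hD : KillsCoeffs W D) {P : W.toAffine.Point} {c : F} (hc : HasLam W D P c) :
    HasLam W D (-P) (-c) := by
  rcases P with _ | ⟨x, y, h⟩
  · change -c = 0
    rw [hasLam_zero_iff.mp hc, neg_zero]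
  · rw [hasLam_some_iff] at hc
    rw [Point.neg_some, hasLam_some_iff]
    have e : D (W.toAffine.negY x y) = - D y - W.a₁ * D x := by
      rw [WeierstrassCurve.Affine.negY]
      simp only [map_sub, map_neg, Derivation.leibniz, hD.h1, hD.h3, smul_eq_mul, mul_zero,
        add_zero, sub_zero]
    constructor
    · rw [hc.1, invU, invU, WeierstrassCurve.Affine.negY]
      ring
    · rw [e, hc.1, hc.2, invU, invV, invV, WeierstrassCurve.Affine.negY]
      ring

/-- The key computation: given the relation `(*)` at `x₁` and the value of `D ℓ`. -/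
theorem hasLam_add_aux (hD : KillsCoeffs W D) {x₁ x₂ y₁ y₂ ℓ c₁ c₂ : F}
    (hx₁ : D x₁ = c₁ * invU W x₁ y₁) (hy₁ : D y₁ = c₁ * invV W x₁ y₁)
    (hx₂ : D x₂ = c₂ * invU W x₂ y₂)
    (hy : y₂ = y₁ - ℓ * (x₁ - x₂))
    (hs : invV W x₁ y₁ - ℓ * invU W x₁ y₁ =
      (x₁ - x₂) * (x₁ - W.toAffine.addX x₁ x₂ ℓ))
    (hℓ : D ℓ = c₁ * (x₁ - W.toAffine.addX x₁ x₂ ℓ) + c₂ * (x₂ - W.toAffine.addX x₁ x₂ ℓ)) :
    D (W.toAffine.addX x₁ x₂ ℓ) =
        (c₁ + c₂) * invU W (W.toAffine.addX x₁ x₂ ℓ) (W.toAffine.addY x₁ x₂ y₁ ℓ) ∧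
      D (W.toAffine.addY x₁ x₂ y₁ ℓ) =
        (c₁ + c₂) * invV W (W.toAffine.addX x₁ x₂ ℓ) (W.toAffine.addY x₁ x₂ y₁ ℓ) := by
  set x₃ := W.toAffine.addX x₁ x₂ ℓ with hx₃
  have ex₃ : x₃ = ℓ ^ 2 + W.a₁ * ℓ - W.a₂ - x₁ - x₂ := by
    rw [hx₃, WeierstrassCurve.Affine.addX]
  have ey₃ : W.toAffine.addY x₁ x₂ y₁ ℓ = -(ℓ * (x₃ - x₁) + y₁) - W.a₁ * x₃ - W.a₃ := by
    rw [WeierstrassCurve.Affine.addY, WeierstrassCurve.Affine.negY,
      WeierstrassCurve.Affine.negAddY, ← hx₃]
  rw [ey₃]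
  have hDx₃ : D x₃ = (2 * ℓ + W.a₁) * D ℓ - D x₁ - D x₂ := by
    rw [ex₃]
    simp only [map_sub, map_add, Derivation.leibniz, Derivation.leibniz_pow, hD.h1, hD.h2,
      smul_eq_mul, mul_zero, add_zero, sub_zero, nsmul_eq_mul, Nat.cast_ofNat,
      Nat.add_one_sub_one, pow_one]
    ring
  have key : D x₃ = (c₁ + c₂) *
      invU W x₃ (-(ℓ * (x₃ - x₁) + y₁) - W.a₁ * x₃ - W.a₃) := by
    rw [hDx₃, hℓ, hx₁, hx₂, hy, invU, invU, invU]
    ring
  refine ⟨key, ?_⟩
  have hDy₃ : D (-(ℓ * (x₃ - x₁) + y₁) - W.a₁ * x₃ - W.a₃) =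
      -(D ℓ * (x₃ - x₁) + ℓ * (D x₃ - D x₁) + D y₁) - W.a₁ * D x₃ := by
    simp only [map_sub, map_add, map_neg, Derivation.leibniz, hD.h1, hD.h3,
      smul_eq_mul, mul_zero, add_zero, sub_zero]
    ring
  rw [hDy₃, key, hℓ, hx₁, hy₁]
  rw [invV, invU] at hs
  simp only [invU, invV]
  clear_value x₃
  linear_combination (-c₁ - (c₁ + c₂)) * hs - 2 * (c₁ + c₂) * (x₃ - x₁) * ex₃

/-- the relation `(*)` in the secant case -/
theorem slope_rel_of_X_ne {x₁ x₂ y₁ y₂ ℓ : F} (h₁ : W.toAffine.Equation x₁ y₁)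
    (h₂ : W.toAffine.Equation x₂ y₂) (hx : x₁ ≠ x₂) (hy : y₂ = y₁ - ℓ * (x₁ - x₂)) :
    invV W x₁ y₁ - ℓ * invU W x₁ y₁ = (x₁ - x₂) * (x₁ - W.toAffine.addX x₁ x₂ ℓ) := by
  rw [WeierstrassCurve.Affine.equation_iff] at h₁ h₂
  subst hy
  have hx' : x₂ - x₁ ≠ 0 := sub_ne_zero.mpr hx.symm
  apply mul_left_cancel₀ hx'
  rw [invV, invU, WeierstrassCurve.Affine.addX]
  linear_combination h₁ - h₂

/-- Additivity of the invariant differential. -/
theorem HasLam.add [DecidableEq F] (hD : KillsCoeffs W D) {P Q : W.toAffine.Point} {c d : F}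
    (hc : HasLam W D P c) (hd : HasLam W D Q d) : HasLam W D (P + Q) (c + d) := by
  rcases P with _ | ⟨x₁, y₁, h₁⟩
  · rw [hasLam_zero_iff.mp hc, zero_add]
    exact hd
  rcases Q with _ | ⟨x₂, y₂, h₂⟩
  · rw [hasLam_zero_iff.mp hd, add_zero]
    exact hc
  by_cases hxy : x₁ = x₂ ∧ y₁ = W.toAffine.negY x₂ y₂
  · rw [Point.add_of_Y_eq hxy.1 hxy.2]
    have hn : (Point.some x₁ y₁ h₁ : W.toAffine.Point) = -Point.some x₂ y₂ h₂ := by
      obtain ⟨rfl, rfl⟩ := hxy
      rw [Point.neg_some]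
    rw [hn] at hc
    have := hc.unique (hd.neg hD)
    rw [this, neg_add_cancel]
    rfl
  rw [Point.add_some hxy, hasLam_some_iff]
  rw [hasLam_some_iff] at hc hd
  set ℓ := W.toAffine.slope x₁ x₂ y₁ y₂ with hℓdef
  by_cases hx : x₁ = x₂
  · -- tangent case
    subst hx
    have hyne : y₁ ≠ W.toAffine.negY x₁ y₂ := fun h ↦ hxy ⟨rfl, h⟩
    have hyy : y₁ = y₂ := WeierstrassCurve.Affine.Y_eq_of_Y_ne h₁.1 h₂.1 rfl hyne
    subst hyy
    have hcd : c = d := by
      refine HasLam.unique (W := W) (D := D) (P := .some x₁ y₁ h₁) ?_ ?_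
      · exact hasLam_some_iff.mpr hc
      · exact hasLam_some_iff.mpr hd
    subst hcd
    have hu : invU W x₁ y₁ ≠ 0 := by
      intro h0
      apply hyne
      rw [invU] at h0
      rw [WeierstrassCurve.Affine.negY]
      linear_combination h0
    have hℓ : ℓ * invU W x₁ y₁ = invV W x₁ y₁ := by
      rw [hℓdef, WeierstrassCurve.Affine.slope_of_Y_ne rfl hyne, WeierstrassCurve.Affine.negY,
        show y₁ - (-y₁ - W.a₁ * x₁ - W.a₃) = invU W x₁ y₁ by rw [invU]; ring,
        div_mul_cancel₀ _ hu, invV]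
    refine hasLam_add_aux hD hc.1 hc.2 hd.1 (by ring) (by rw [← hℓ]; ring) ?_
    have hDℓ := congrArg D hℓ
    apply mul_right_cancel₀ hu
    have e₁ : D (ℓ * invU W x₁ y₁) = ℓ * (2 * D y₁ + W.a₁ * D x₁) + D ℓ * invU W x₁ y₁ := by
      rw [invU]
      simp only [map_add, Derivation.leibniz, hD.h1, hD.h3, smul_eq_mul, mul_zero, add_zero]
      rw [show (D 2 : F) = 0 from D.map_natCast 2]
      ring
    have e₂ : D (invV W x₁ y₁) = (6 * x₁ + 2 * W.a₂) * D x₁ - W.a₁ * D y₁ := by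
      rw [invV]
      simp only [map_add, map_sub, Derivation.leibniz, Derivation.leibniz_pow, hD.h1, hD.h2,
        hD.h4, smul_eq_mul, mul_zero, add_zero, nsmul_eq_mul, Nat.cast_ofNat,
        Nat.add_one_sub_one, pow_one]
      rw [show (D 2 : F) = 0 from D.map_natCast 2, show (D 3 : F) = 0 from D.map_natCast 3]
      ring
    rw [e₁, e₂, hc.1, hc.2, ← hℓ] at hDℓ
    rw [WeierstrassCurve.Affine.addX]
    linear_combination hDℓ
  · -- secant case
    have hsl : ℓ * (x₁ - x₂) = y₁ - y₂ := by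
      rw [hℓdef, WeierstrassCurve.Affine.slope_of_X_ne hx, div_mul_cancel₀ _ (sub_ne_zero.mpr hx)]
    have hy₂ : y₂ = y₁ - ℓ * (x₁ - x₂) := by linear_combination hsl
    have s₁ := slope_rel_of_X_ne h₁.1 h₂.1 hx hy₂
    have s₂ := slope_rel_of_X_ne (ℓ := ℓ) h₂.1 h₁.1 (Ne.symm hx) (by linear_combination -hy₂)
    refine hasLam_add_aux hD hc.1 hc.2 hd.1 hy₂ s₁ ?_
    have hDℓ := congrArg D hsl
    simp only [map_sub, Derivation.leibniz, smul_eq_mul] at hDℓ
    apply mul_right_cancel₀ (sub_ne_zero.mpr hx)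
    rw [hc.1, hc.2, hd.1, hd.2] at hDℓ
    rw [show W.toAffine.addX x₂ x₁ ℓ = W.toAffine.addX x₁ x₂ ℓ by
      rw [WeierstrassCurve.Affine.addX, WeierstrassCurve.Affine.addX]; ring] at s₂
    linear_combination hDℓ + c * s₁ - d * s₂

section Hom

variable [DecidableEq F] (W D)

/-- The invariant differential as an additive homomorphism on points. -/
noncomputable def lamHom (hD : KillsCoeffs W D) : W.toAffine.Point →+ F where
  toFun P := (exists_hasLam hD P).choose
  map_zero' := (exists_hasLam hD (0 : W.toAffine.Point)).choose_spec.unique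
    (hasLam_zero_iff.mpr rfl)
  map_add' P Q := (exists_hasLam hD (P + Q)).choose_spec.unique
    ((exists_hasLam hD P).choose_spec.add hD (exists_hasLam hD Q).choose_spec)

variable {W D}

theorem lamHom_spec (hD : KillsCoeffs W D) (P : W.toAffine.Point) :
    HasLam W D P (lamHom W D hD P) :=
  (exists_hasLam hD P).choose_spec

theorem lamHom_eq (hD : KillsCoeffs W D) {P : W.toAffine.Point} {c : F} (h : HasLam W D P c) :
    lamHom W D hD P = c :=
  (lamHom_spec hD P).unique h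

theorem deriv_x_eq (hD : KillsCoeffs W D) {x y : F} (h : W.toAffine.Nonsingular x y) :
    D x = lamHom W D hD (.some x y h) * (2 * y + W.a₁ * x + W.a₃) :=
  (hasLam_some_iff.mp (lamHom_spec hD (.some x y h))).1

theorem deriv_y_eq (hD : KillsCoeffs W D) {x y : F} (h : W.toAffine.Nonsingular x y) :
    D y = lamHom W D hD (.some x y h) *
      (3 * x ^ 2 + 2 * W.a₂ * x + W.a₄ - W.a₁ * y) :=
  (hasLam_some_iff.mp (lamHom_spec hD (.some x y h))).2

end Hom

end Fermat.Agent.FrobTrace
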