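import Fermat.Agent.FrobTrace.Defs
import Fermat.Agent.FrobTrace.FunField

set_option autoImplicit false

/-!
# Frobenius endomorphism on points, the generic point, specialization
-/

namespace Fermat.Agent.FrobTrace

open Polynomial WeierstrassCurve WeierstrassCurve.Affine WeierstrassCurve.Affine.Point
open scoped WeierstrassCurve.Affine

section Frob

variable {F₀ : Type*} [Field F₀] [Fintype F₀] (W : Affine F₀)
variable (M : Type*) [Field M] [Algebra F₀ M] [DecidableEq M]

/-- the `q`-Frobenius endomorphism of the group of points over `M` -/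
noncomputable def frobE : (W⁄M).Point →+ (W⁄M).Point :=
  Point.map (S := F₀) (FiniteField.frobeniusAlgHom F₀ M)

/-- the endomorphism `a φ² + b φ + c` -/
noncomputable def comb (a b c : ℤ) : (W⁄M).Point →+ (W⁄M).Point :=
  a • ((frobE W M).comp (frobE W M)) + b • frobE W M + c • AddMonoidHom.id _

theorem comb_apply (a b c : ℤ) (P : (W⁄M).Point) :
    comb W M a b c P = a • frobE W M (frobE W M P) + b • frobE W M P + c • P := by
  simp [comb]

variable {M}
variable {N : Type*} [Field N] [Algebra F₀ N] [DecidableEq N]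

theorem frobE_map (f : M →ₐ[F₀] N) (P : (W⁄M).Point) :
    frobE W N (Point.map f P) = Point.map f (frobE W M P) := by
  have h : (FiniteField.frobeniusAlgHom F₀ N).comp f = f.comp (FiniteField.frobeniusAlgHom F₀ M) := by
    ext x; simp
  rw [frobE, frobE, Point.map_map, Point.map_map, h]

theorem comb_map (f : M →ₐ[F₀] N) (a b c : ℤ) (P : (W⁄M).Point) :
    comb W N a b c (Point.map f P) = Point.map f (comb W M a b c P) := by
  simp only [comb_apply, frobE_map, _root_.map_add, map_zsmul]

theorem comb_comp (b c b' c' : ℤ) (P : (W⁄M).Point) :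
    comb W M 0 b c (comb W M 0 b' c' P) = comb W M (b * b') (b * c' + c * b') (c * c') P := by
  simp only [comb_apply, _root_.map_add, map_zsmul]
  module

theorem frobE_comb (b c : ℤ) (P : (W⁄M).Point) :
    frobE W M (comb W M 0 b c P) = comb W M b c 0 P := by
  simp only [comb_apply, _root_.map_add, map_zsmul, zero_smul, zero_add, add_zero]

end Frob

section Generic

variable {F₀ : Type*} [Field F₀] (W : Affine F₀)
variable {k : Type*} [Field k] [Algebra F₀ k]
variable {L : Type*} [Field L] [Algebra F₀ L] [Algebra k L] [IsScalarTower F₀ k L]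

variable {W}

theorem GenData.equation (G : GenData (W⁄k) L) : (W⁄L).Equation G.t G.y := by
  rw [equation_iff]
  have h := G.eqn
  simp only [baseChange_a₁, baseChange_a₂, baseChange_a₃, baseChange_a₄, baseChange_a₆,
    ← IsScalarTower.algebraMap_apply F₀ k L] at h ⊢
  exact h

theorem GenData.nonsingular (hΔ : W.Δ ≠ 0) (G : GenData (W⁄k) L) : (W⁄L).Nonsingular G.t G.y := by
  refine (equation_iff_nonsingular_of_Δ_ne_zero ?_).mp G.equation
  have : (W⁄L).Δ = algebraMap F₀ L W.Δ := WeierstrassCurve.map_Δ W _
  rw [this]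
  exact (_root_.map_ne_zero _).mpr hΔ

/-- the generic point -/
noncomputable def GenData.pt (hΔ : W.Δ ≠ 0) (G : GenData (W⁄k) L) : (W⁄L).Point :=
  .some G.t G.y (G.nonsingular hΔ)

/-- the involution over the base field -/
noncomputable def GenData.τ₀ (G : GenData (W⁄k) L) : L →ₐ[F₀] L := G.τ.restrictScalars F₀

variable [DecidableEq L]

theorem GenData.map_τ_pt (hΔ : W.Δ ≠ 0) (G : GenData (W⁄k) L) :
    Point.map G.τ₀ (G.pt hΔ) = - G.pt hΔ := by
  rw [GenData.pt, Point.map_some, Point.neg_some]
  have h1 : G.τ₀ G.t = G.t := G.τ_t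
  have h2 : G.τ₀ G.y = (W⁄L).negY G.t G.y := by
    have h := G.τ_y
    simp only [baseChange_a₁, baseChange_a₃, ← IsScalarTower.algebraMap_apply F₀ k L] at h
    rw [negY]
    exact h
  simp only [h1, h2]

/-- a point anti-invariant under the involution has `x`-coordinate in `k(t)` -/
theorem GenData.exists_of_anti (G : GenData (W⁄k) L) {x y : L} (h : (W⁄L).Nonsingular x y)
    (hQ : Point.map G.τ₀ (.some x y h) = -.some x y h) :
    ∃ f g : k[X], g ≠ 0 ∧ x * aeval G.t g = aeval G.t f := by
  rw [Point.map_some, Point.neg_some] at hQ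
  exact G.fix x (Point.some.inj hQ).1

variable [Fintype F₀]

theorem GenData.map_τ_comb (hΔ : W.Δ ≠ 0) (G : GenData (W⁄k) L) (a b c : ℤ) :
    Point.map G.τ₀ (comb W L a b c (G.pt hΔ)) = - comb W L a b c (G.pt hΔ) := by
  rw [← comb_map, G.map_τ_pt hΔ, _root_.map_neg]

end Generic

end Fermat.Agent.FrobTrace
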