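import Fermat.Agent.FrobTrace.Spec
import Fermat.Agent.EllRed.RedHom

set_option autoImplicit false

/-!
# Specialization of points of the function field at points of the curve
-/

namespace Fermat.Agent.FrobTrace

open Polynomial WeierstrassCurve WeierstrassCurve.Affine WeierstrassCurve.Affine.Point
open Fermat.Agent.RedHom
open scoped WeierstrassCurve.Affine

section Red

variable {L κ : Type*} [Field L] [Field κ] {A : ValuationSubring L} {φ : A →+* κ}

theorem pow_mem_iff {x : L} {n : ℕ} (hn : n ≠ 0) : x ^ n ∈ A ↔ x ∈ A := by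
  constructor
  · intro h
    by_contra hx
    have h1 : x⁻¹ ∈ A := (A.mem_or_inv_mem x).resolve_left hx
    obtain ⟨m, rfl⟩ := Nat.exists_eq_succ_of_ne_zero hn
    apply hx
    by_cases hx0 : x = 0
    · rw [hx0]; exact A.zero_mem
    have h2 : x = x ^ (m + 1) * (x⁻¹) ^ m := by
      rw [inv_pow, pow_succ', mul_assoc, mul_inv_cancel₀ (pow_ne_zero m hx0), mul_one]
    rw [h2]
    exact A.mul_mem _ _ h (pow_mem h1 m)
  · intro h; exact pow_mem h n

theorem redTo_aeval {k : Type*} [Field k] [Algebra k L] [Algebra k κ]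
    (hk : ∀ c : k, RedTo φ (algebraMap k L c) (algebraMap k κ c)) {t : L} {u : κ}
    (h : RedTo φ t u) (g : k[X]) : RedTo φ (aeval t g) (aeval u g) := by
  induction g using Polynomial.induction_on' with
  | add p q hp hq => simpa only [_root_.map_add] using hp.add hq
  | monomial n c =>
    rw [aeval_monomial, aeval_monomial]
    exact (hk c).mul (h.pow n)

variable {F₀ : Type*} [Field F₀] [Fintype F₀] {W : Affine F₀} [Algebra F₀ L] [Algebra F₀ κ]
  [DecidableEq L] [DecidableEq κ]

theorem curveRed_base (hk : ∀ c : F₀, RedTo φ (algebraMap F₀ L c) (algebraMap F₀ κ c)) :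
    CurveRed φ (W⁄L) (W⁄κ) where
  a₁ := hk _
  a₂ := hk _
  a₃ := hk _
  a₄ := hk _
  a₆ := hk _

theorem pointRed_frobE {P : (W⁄L).Point} {P' : (W⁄κ).Point} (h : PointRed φ P P') :
    PointRed φ (frobE W L P) (frobE W κ P') := by
  rcases P with _ | ⟨x, y, hxy⟩
  · rw [← zero_def, pointRed_zero_iff] at h
    rw [← zero_def, h, _root_.map_zero, _root_.map_zero, pointRed_zero_iff]
  · rw [pointRed_some_iff] at h
    rcases h with ⟨h1, rfl⟩ | ⟨u, v, huv, rfl, h2, h3⟩
    · rw [_root_.map_zero, frobE, Point.map_some, pointRed_some_zero_iff]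
      simp only [FiniteField.frobeniusAlgHom_apply]
      rwa [pow_mem_iff Fintype.card_ne_zero]
    · rw [frobE, Point.map_some, frobE, Point.map_some, pointRed_some_some_iff]
      exact ⟨h2.pow _, h3.pow _⟩

theorem pointRed_zsmul [IsLocalHom φ] {V : WeierstrassCurve L} {U : WeierstrassCurve κ}
    (hc : CurveRed φ V U) {P : V.toAffine.Point} {P' : U.toAffine.Point}
    (h : PointRed φ P P') (n : ℤ) : PointRed φ (n • P) (n • P') := by
  rcases n with n | n
  · simpa using h.nsmul hc n
  · rw [Int.negSucc_eq, neg_smul, neg_smul]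
    refine PointRed.neg hc ?_
    have := h.nsmul hc (n + 1)
    rw [← natCast_zsmul, ← natCast_zsmul] at this
    exact_mod_cast this

theorem pointRed_comb [IsLocalHom φ]
    (hk : ∀ c : F₀, RedTo φ (algebraMap F₀ L c) (algebraMap F₀ κ c))
    {P : (W⁄L).Point} {P' : (W⁄κ).Point} (h : PointRed φ P P') (a b c : ℤ) :
    PointRed φ (comb W L a b c P) (comb W κ a b c P') := by
  have hc := curveRed_base (W := W) hk
  rw [comb_apply, comb_apply]
  have h1 := pointRed_zsmul hc (pointRed_frobE (pointRed_frobE h)) a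
  have h2 := pointRed_zsmul hc (pointRed_frobE h) b
  have h3 := pointRed_zsmul hc h c
  exact (h1.add hc h2).add hc h3

end Red

section Main

variable {F₀ : Type*} [Field F₀] [Fintype F₀] {W : Affine F₀}
variable {k : Type*} [Field k] [Algebra F₀ k] [DecidableEq k]
variable {L : Type*} [Field L] [Algebra F₀ L] [Algebra k L] [IsScalarTower F₀ k L] [DecidableEq L]

/-- Specialization: if the coprime pair `(A : B)` represents the `x`-coordinate of
`a φ² P₀ + b φ P₀ + c P₀` then it represents `a φ² + b φ + c` on `E(k)`. -/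
theorem isRepEnd_of_isRep (hΔ : W.Δ ≠ 0) (G : GenData (W⁄k) L) {a b c : ℤ} {A B : k[X]}
    (h : IsRep G.t (comb W L a b c (G.pt hΔ)) A B) :
    IsRepEnd (W := W⁄k) (comb W k a b c) A B := by
  refine ⟨h.1, fun x₀ y₀ h₀ ↦ ?_⟩
  classical
  obtain ⟨V, hV1, hV2, hV3⟩ := G.place x₀ y₀ h₀.1
  let ι : k →+* V := (algebraMap k L).codRestrict V.toSubring hV1
  let κ := IsLocalRing.ResidueField V
  let φ : V →+* κ := IsLocalRing.residue V
  let _ : Algebra k κ := (φ.comp ι).toAlgebra
  let _ : Algebra F₀ κ := ((φ.comp ι).comp (algebraMap F₀ k)).toAlgebra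
  have : IsScalarTower F₀ k κ := IsScalarTower.of_algebraMap_eq fun _ ↦ rfl
  have hk : ∀ c : k, RedTo φ (algebraMap k L c) (algebraMap k κ c) := fun c ↦ ⟨hV1 c, rfl⟩
  have hF : ∀ c : F₀, RedTo φ (algebraMap F₀ L c) (algebraMap F₀ κ c) := fun c ↦ by
    rw [IsScalarTower.algebraMap_apply F₀ k L, IsScalarTower.algebraMap_apply F₀ k κ]
    exact hk _
  have hnon : ∀ z : L, z ∈ V.nonunits → RedTo φ z 0 := by
    intro z hz
    have hz' := (ValuationSubring.mem_nonunits_iff_exists_mem_maximalIdeal).mp hz
    obtain ⟨h1, h2⟩ := hz'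
    exact ⟨h1, (IsLocalRing.residue_eq_zero_iff _).mpr h2⟩
  have ht : RedTo φ G.t (algebraMap k κ x₀) := by
    have := (hnon _ hV2).add (hk x₀)
    simpa using this
  have hy : RedTo φ G.y (algebraMap k κ y₀) := by
    have := (hnon _ hV3).add (hk y₀)
    simpa using this
  let R : (W⁄k).Point := .some x₀ y₀ h₀
  let i : k →ₐ[F₀] κ := IsScalarTower.toAlgHom F₀ k κ
  have hpt : PointRed φ (G.pt hΔ) (Point.map i R) := by
    rw [Point.map_some, GenData.pt, pointRed_some_some_iff]
    exact ⟨ht, hy⟩
  have hcomb := pointRed_comb hF hpt a b c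
  rw [comb_map] at hcomb
  change ∃ c' : k, c' ≠ 0 ∧ ![A.eval x₀, B.eval x₀] = c' • (comb W k a b c R).xRep
  have hinj : Function.Injective (algebraMap k κ) := (algebraMap k κ).injective
  have hA := redTo_aeval hk ht A
  have hB := redTo_aeval hk ht B
  have evA : aeval (algebraMap k κ x₀) A = algebraMap k κ (A.eval x₀) := by
    rw [aeval_algebraMap_apply, coe_aeval_eq_eval]
  have evB : aeval (algebraMap k κ x₀) B = algebraMap k κ (B.eval x₀) := by
    rw [aeval_algebraMap_apply, coe_aeval_eq_eval]
  rw [evA] at hA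
  rw [evB] at hB
  have hAB : ¬ (A.eval x₀ = 0 ∧ B.eval x₀ = 0) := by
    rintro ⟨e1, e2⟩
    obtain ⟨u, v, huv⟩ := h.1
    have := congrArg (fun p ↦ p.eval x₀) huv
    simp [e1, e2] at this
  obtain ⟨-, d, hd, hrep⟩ := h
  rcases hQ : comb W L a b c (G.pt hΔ) with _ | ⟨x, y, hxy⟩
  · rw [hQ, ← zero_def, pointRed_zero_iff] at hcomb
    rw [hQ] at hrep
    have e1 := congrFun hrep 1
    have e1' : (0 : L) = d * aeval G.t B := by simpa [xRep] using e1
    have hB0 : aeval G.t B = 0 := by
      rcases mul_eq_zero.mp e1'.symm with h | h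
      · exact absurd h hd
      · exact h
    have hB1 : B = 0 := G.transc B hB0
    have h0 : comb W k a b c R = 0 := map_injective i (hcomb.trans (_root_.map_zero _).symm)
    rw [h0]
    refine ⟨A.eval x₀, ?_, ?_⟩
    · intro h1; exact hAB ⟨h1, by rw [hB1, eval_zero]⟩
    · rw [hB1]
      ext j; fin_cases j <;> simp [xRep]
  · rw [hQ] at hcomb hrep
    have e0 : x = d * aeval G.t A := by simpa [xRep] using congrFun hrep 0
    have e1 : 1 = d * aeval G.t B := by simpa [xRep] using congrFun hrep 1
    have hB0 : aeval G.t B ≠ 0 := by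
      intro h; rw [h, mul_zero] at e1; exact one_ne_zero e1
    have hx : x * aeval G.t B = aeval G.t A := by
      rw [e0, mul_assoc, mul_comm (aeval G.t A), ← mul_assoc, ← e1, one_mul]
    rw [pointRed_some_iff] at hcomb
    by_cases hβ : B.eval x₀ = 0
    · -- the point specializes to zero
      have hα : A.eval x₀ ≠ 0 := fun h ↦ hAB ⟨h, hβ⟩
      rcases hcomb with ⟨hxV, hc⟩ | ⟨u, v, huv, hc, h2, h3⟩
      · have h0 : comb W k a b c R = 0 := map_injective i (hc.trans (_root_.map_zero _).symm)
        rw [h0]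
        refine ⟨A.eval x₀, hα, ?_⟩
        rw [hβ]
        ext j; fin_cases j <;> simp [xRep]
      · exfalso
        have h4 := h2.mul hB
        rw [hβ, _root_.map_zero, mul_zero, hx] at h4
        have := h4.unique hA
        apply hα
        apply hinj
        rw [← this, _root_.map_zero]
    · have hβ' : algebraMap k κ (B.eval x₀) ≠ 0 := by
        intro h; apply hβ; apply hinj; rw [h, _root_.map_zero]
      have hxred : RedTo φ x (algebraMap k κ (A.eval x₀) / algebraMap k κ (B.eval x₀)) := by
        have := hA.div hB hβ'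
        rwa [← hx, mul_div_cancel_right₀ _ hB0] at this
      rcases hcomb with ⟨hxV, hc⟩ | ⟨u, v, huv, hc, h2, h3⟩
      · exact absurd hxred.mem hxV
      · rcases hR : comb W k a b c R with _ | ⟨x', y', h'⟩
        · rw [hR] at hc
          exact absurd hc.symm (some_ne_zero _)
        · rw [hR, Point.map_some] at hc
          have hu : algebraMap k κ x' = u := (Point.some.inj hc).1
          have h5 := h2.unique hxred
          refine ⟨B.eval x₀, hβ, ?_⟩
          have h6 : A.eval x₀ = B.eval x₀ * x' := by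
            apply hinj
            rw [_root_.map_mul, hu, h5, mul_comm, div_mul_cancel₀ _ hβ']
          ext j; fin_cases j
          · simpa [xRep] using h6
          · simp [xRep]

end Main

end Fermat.Agent.FrobTrace
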